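/-
S33lib / NRed / Pencil  (helper6)

Riemann–Roch toolkit on a NODAL curve with two smooth components `C₁`, `C₂` (function fields `F₁`,
`F₂` over `k`, genera `g₁`, `g₂`) glued along `s` pairs of points `(x₁ c, x₂ c)`; the arithmetic
genus is `g₁ + g₂ + s - 1`.  `NS x₁ x₂ E₁ E₂` is the space of sections of the Cartier divisor
`(E₁, E₂)` (= helper6's `LSb.Core.nodalSpace` with trivial twist).

* `mul_mem_NS`                   : `NS(E) · NS(E') ⊆ NS(E + E')`;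
* `exists_mem_NS_ord_eq₁/₂`      : base point freeness in the strong range (at smooth points and at
                                   the nodes);
* `exists_pair_no_common_zero`   : a relatively base point free subspace contains two sections
                                   without common zero (`k` infinite);
* `pencil_span_eq`               : the base-point-free pencil trick on the nodal curve;
* `le_of_NS_le`                  : `NS(D) ≤ NS(D')`, `D` in the strong range `⟹ D ≤ D'`.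

Nodal port of helper2's `S37lib/Red/{Curve,Pencil}`.
-/
import Fermat.Agent.LSb.Core.NodalRR
import Fermat.Agent.S37lib.Red.Pencil

set_option autoImplicit false

noncomputable section

namespace Fermat.Agent.S33lib.NRed

open AlgebraicCurve Module
open Fermat.Agent.S18lib Fermat.Agent.LSb Fermat.Agent.LSb.Core Fermat.Agent.S37lib

/-! ### one curve -/

section OneCurve

variable {K F : Type*} [Field K] [Field F] [Algebra K F]

theorem mem_of_vanishAt_sub {x : Place K F} {φ : F} {α : K}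
    (h : VanishAt x (φ - algebraMap K F α)) : φ ∈ x.toValuationSubring := by
  have := add_mem h.mem (x.algebraMap_mem' α)
  rwa [sub_add_cancel] at this

theorem vanishAt_mul_sub {x : Place K F} {φ ψ : F} {α β : K}
    (h : VanishAt x (φ - algebraMap K F α)) (h' : VanishAt x (ψ - algebraMap K F β)) :
    VanishAt x (φ * ψ - algebraMap K F (α * β)) := by
  have := (h.mul_right (mem_of_vanishAt_sub h')).add (h'.mul_left (x.algebraMap_mem' α))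
  have e : (φ - algebraMap K F α) * ψ + algebraMap K F α * (ψ - algebraMap K F β) =
      φ * ψ - algebraMap K F (α * β) := by rw [map_mul]; ring
  rwa [e] at this

/-- a finite family of proper subspaces does not cover (`K` infinite) -/
theorem exists_forall_not_mem {V : Type*} [AddCommGroup V] [Module K V] [Infinite K]
    {ι : Type*} [Finite ι] (p : ι → Submodule K V) (hp : ∀ i, p i ≠ ⊤) :
    ∃ v : V, ∀ i, v ∉ p i := by
  by_contra hcon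
  push Not at hcon
  have hcov : ⋃ i, (p i : Set V) = Set.univ := by
    rw [Set.eq_univ_iff_forall]
    intro x
    obtain ⟨i, hi⟩ := hcon x
    exact Set.mem_iUnion.2 ⟨i, hi⟩
  obtain ⟨i, hi⟩ := Subspace.exists_eq_top_of_iUnion_eq_univ hcov
  exact hp i hi

/-- a section of `L(E)` not in `L(E - Q)` has exact order `-E Q` at `Q` -/
theorem ord_eq_of_not_mem_sub_single {E : Divisor K F} {Q : Place K F} {φ : F}
    (hφ : φ ∈ riemannRochSpace E) (hn : φ ∉ riemannRochSpace (E - Finsupp.single Q 1)) :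
    φ ≠ 0 ∧ Q.ord φ = -E Q := by
  classical
  have h0 : φ ≠ 0 := by
    rintro rfl
    exact hn (zero_mem _)
  refine ⟨h0, ?_⟩
  rw [mem_riemannRochSpace_iff] at hφ hn
  push Not at hn
  obtain ⟨v, -, hv⟩ := hn
  have hvQ : v = Q := by
    by_contra hne'
    have := (hφ v).resolve_left h0
    rw [Finsupp.sub_apply, Finsupp.single_apply, if_neg (Ne.symm hne'), sub_zero] at hv
    linarith
  subst hvQ
  have h1 := (hφ v).resolve_left h0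
  rw [Finsupp.sub_apply, Finsupp.single_apply, if_pos rfl] at hv
  omega

theorem sub_single_le (E : Divisor K F) (Q : Place K F) (v : Place K F) :
    (E - Finsupp.single Q 1 : Divisor K F) v ≤ E v := by
  classical
  rw [Finsupp.sub_apply, Finsupp.single_apply]
  split_ifs <;> omega

/-- the kernel of the pencil map on one curve: if `s a + t b = 0` with `s, t` without common zero
relative to `D` and `a, b ∈ L(M)`, then `a / t = - b / s ∈ L(M - D)` -/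
theorem inv_mul_mem_rr_sub {D M : Divisor K F} {s t a b : F} (hs0 : s ≠ 0) (ht0 : t ≠ 0)
    (hst : ∀ Q : Place K F, Q.ord s = -D Q ∨ Q.ord t = -D Q)
    (ha : a ∈ riemannRochSpace M) (hb : b ∈ riemannRochSpace M) (hx : s * a + t * b = 0) :
    t⁻¹ * a ∈ riemannRochSpace (M - D) ∧ t⁻¹ * a = -(s⁻¹ * b) := by
  have hh : t⁻¹ * a = -(s⁻¹ * b) := by
    field_simp
    linear_combination hx
  refine ⟨?_, hh⟩
  rcases eq_or_ne a 0 with ha0 | ha0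
  · rw [ha0, mul_zero]; exact zero_mem _
  have hb0 : b ≠ 0 := by
    intro hb0
    rw [hb0, mul_zero, add_zero] at hx
    exact (mul_ne_zero hs0 ha0) hx
  rw [mem_riemannRochSpace_iff]
  intro Q
  right
  have ha' := (mem_riemannRochSpace_iff.1 ha Q).resolve_left ha0
  have hb' := (mem_riemannRochSpace_iff.1 hb Q).resolve_left hb0
  rw [Finsupp.sub_apply]
  rcases hst Q with h | h
  · rw [hh, Cech.ord_neg, Q.ord_mul (inv_ne_zero hs0) hb0, Q.ord_inv, h]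
    linarith
  · rw [Q.ord_mul (inv_ne_zero ht0) ha0, Q.ord_inv, h]
    linarith

theorem valAt_ne_zero_of_ord_eq_zero (x : Place K F) (hx : x.deg = 1) {φ : F}
    (hφ : φ ∈ x.toValuationSubring) (h0 : φ ≠ 0) (hord : x.ord φ = 0) : valAt x φ ≠ 0 := by
  intro h1
  rw [valAt_eq_zero_iff x hx hφ, vanishAt_iff] at h1
  rcases h1 with h1 | h1
  · exact h0 h1
  · omega

end OneCurve

/-! ### the nodal curve -/

section Nodal

variable {k F₁ F₂ : Type*} [Field k] [Field F₁] [Field F₂] [Algebra k F₁] [Algebra k F₂]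
variable {s : ℕ} (x₁ : Fin s → Place k F₁) (x₂ : Fin s → Place k F₂)

/-- the (untwisted) nodal Riemann–Roch space: pairs `(φ₁, φ₂) ∈ L(E₁) × L(E₂)`, regular at the node
points, with `φ₁(x₁ c) = φ₂(x₂ c)` for all nodes `c` -/
abbrev NS (E₁ : Divisor k F₁) (E₂ : Divisor k F₂) : Submodule k (F₁ × F₂) :=
  nodalSpace x₁ x₂ (fun _ => 1) E₁ E₂

variable {x₁ x₂}

theorem gluedAt_mul {c : Fin s} {φ ψ : F₁ × F₂} (h : GluedAt x₁ x₂ c 1 φ)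
    (h' : GluedAt x₁ x₂ c 1 ψ) : GluedAt x₁ x₂ c 1 (φ * ψ) := by
  obtain ⟨α, h1, h2⟩ := h
  obtain ⟨β, h1', h2'⟩ := h'
  refine ⟨α * β, vanishAt_mul_sub h1 h1', ?_⟩
  have := vanishAt_mul_sub h2 h2'
  have e : (1 : k) * α * (1 * β) = 1 * (α * β) := by ring
  rwa [e] at this

theorem gluedAt_neg {c : Fin s} {φ : F₁ × F₂} (h : GluedAt x₁ x₂ c 1 φ) :
    GluedAt x₁ x₂ c 1 (-φ) := by
  have := h.smul (-1)
  rwa [neg_one_smul] at this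

/-- the inverse of a section which is a unit at the node `c` is glued at `c` -/
theorem gluedAt_inv (hd₁ : ∀ v : Place k F₁, v.deg = 1) (hd₂ : ∀ v : Place k F₂, v.deg = 1)
    {c : Fin s} {t : F₁ × F₂} (h : GluedAt x₁ x₂ c 1 t) (h0 : t.1 ≠ 0)
    (hord : (x₁ c).ord t.1 = 0) : GluedAt x₁ x₂ c 1 (t.1⁻¹, t.2⁻¹) := by
  rw [gluedAt_iff hd₁ hd₂] at h ⊢
  obtain ⟨m1, m2, hv⟩ := h
  rw [one_mul] at hv
  have hv1 : valAt (x₁ c) t.1 ≠ 0 := valAt_ne_zero_of_ord_eq_zero _ (hd₁ _) m1 h0 hord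
  have hv2 : valAt (x₂ c) t.2 ≠ 0 := by rw [hv]; exact hv1
  obtain ⟨i1, e1⟩ := valAt_inv _ (hd₁ _) m1 hv1
  obtain ⟨i2, e2⟩ := valAt_inv _ (hd₂ _) m2 hv2
  exact ⟨i1, i2, by rw [e1, e2, hv, one_mul]⟩

/-- multiplicativity of the nodal spaces -/
theorem mul_mem_NS {E₁ E₁' : Divisor k F₁} {E₂ E₂' : Divisor k F₂} {φ ψ : F₁ × F₂}
    (hφ : φ ∈ NS x₁ x₂ E₁ E₂) (hψ : ψ ∈ NS x₁ x₂ E₁' E₂') :
    φ * ψ ∈ NS x₁ x₂ (E₁ + E₁') (E₂ + E₂') :=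
  ⟨mul_mem_riemannRochSpace hφ.1 hψ.1, mul_mem_riemannRochSpace hφ.2.1 hψ.2.1,
    fun c => gluedAt_mul (hφ.2.2 c) (hψ.2.2 c)⟩

theorem NS_sub_single_le₁ (E₁ : Divisor k F₁) (E₂ : Divisor k F₂) (Q : Place k F₁) :
    NS x₁ x₂ (E₁ - Finsupp.single Q 1) E₂ ≤ NS x₁ x₂ E₁ E₂ :=
  nodalSpace_mono (sub_single_le E₁ Q) fun _ => le_rfl

theorem NS_sub_single_le₂ (E₁ : Divisor k F₁) (E₂ : Divisor k F₂) (Q : Place k F₂) :
    NS x₁ x₂ E₁ (E₂ - Finsupp.single Q 1) ≤ NS x₁ x₂ E₁ E₂ :=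
  nodalSpace_mono (fun _ => le_rfl) (sub_single_le E₂ Q)

/-- a section of `NS(E)` outside `NS(E₁ - Q, E₂)` has exact order `-E₁ Q` at `Q` -/
theorem ord_eq_of_not_mem_NS₁ {E₁ : Divisor k F₁} {E₂ : Divisor k F₂} {Q : Place k F₁}
    {φ : F₁ × F₂} (hφ : φ ∈ NS x₁ x₂ E₁ E₂) (hn : φ ∉ NS x₁ x₂ (E₁ - Finsupp.single Q 1) E₂) :
    φ.1 ≠ 0 ∧ Q.ord φ.1 = -E₁ Q :=
  ord_eq_of_not_mem_sub_single hφ.1 fun h => hn ⟨h, hφ.2.1, hφ.2.2⟩

theorem ord_eq_of_not_mem_NS₂ {E₁ : Divisor k F₁} {E₂ : Divisor k F₂} {Q : Place k F₂}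
    {φ : F₁ × F₂} (hφ : φ ∈ NS x₁ x₂ E₁ E₂) (hn : φ ∉ NS x₁ x₂ E₁ (E₂ - Finsupp.single Q 1)) :
    φ.2 ≠ 0 ∧ Q.ord φ.2 = -E₂ Q :=
  ord_eq_of_not_mem_sub_single hφ.2.1 fun h => hn ⟨hφ.1, h, hφ.2.2⟩

/-- a section avoiding finitely many subspaces not containing `V` -/
theorem exists_mem_forall_not_mem [Infinite k] {M : Type*} [AddCommGroup M] [Module k M]
    (V : Submodule k M) {ι : Type*} [Finite ι] (W : ι → Submodule k M)
    (hW : ∀ i, ¬ V ≤ W i) : ∃ v ∈ V, ∀ i, v ∉ W i := by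
  obtain ⟨v, hv⟩ := exists_forall_not_mem (fun i => (W i).comap V.subtype) (fun i hi => by
    apply hW i
    intro x hx
    have : (⟨x, hx⟩ : V) ∈ (W i).comap V.subtype := by rw [hi]; exact Submodule.mem_top
    exact this)
  exact ⟨v.1, v.2, fun i hi => hv i hi⟩

/-- a section of a relatively base point free subspace with exact orders at finitely many points -/
theorem exists_mem_ord_eq [Infinite k] {E₁ : Divisor k F₁} {E₂ : Divisor k F₂}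
    (V : Submodule k (F₁ × F₂)) (hV : V ≤ NS x₁ x₂ E₁ E₂)
    (hb₁ : ∀ Q : Place k F₁, ¬ V ≤ NS x₁ x₂ (E₁ - Finsupp.single Q 1) E₂)
    (hb₂ : ∀ Q : Place k F₂, ¬ V ≤ NS x₁ x₂ E₁ (E₂ - Finsupp.single Q 1))
    (Z₁ : Finset (Place k F₁)) (Z₂ : Finset (Place k F₂)) (hZ₁ : Z₁.Nonempty)
    (hZ₂ : Z₂.Nonempty) :
    ∃ τ ∈ V, τ.1 ≠ 0 ∧ τ.2 ≠ 0 ∧ (∀ Q ∈ Z₁, Q.ord τ.1 = -E₁ Q) ∧
      (∀ Q ∈ Z₂, Q.ord τ.2 = -E₂ Q) := by
  obtain ⟨τ, hτV, hτ⟩ := exists_mem_forall_not_mem V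
    (Sum.elim (fun Q : Z₁ => NS x₁ x₂ (E₁ - Finsupp.single (Q : Place k F₁) 1) E₂)
      (fun Q : Z₂ => NS x₁ x₂ E₁ (E₂ - Finsupp.single (Q : Place k F₂) 1)))
    (by
      rintro (Q | Q)
      · exact hb₁ Q
      · exact hb₂ Q)
  have k1 : ∀ Q ∈ Z₁, τ.1 ≠ 0 ∧ Q.ord τ.1 = -E₁ Q := fun Q hQ =>
    ord_eq_of_not_mem_NS₁ (hV hτV) (hτ (Sum.inl ⟨Q, hQ⟩))
  have k2 : ∀ Q ∈ Z₂, τ.2 ≠ 0 ∧ Q.ord τ.2 = -E₂ Q := fun Q hQ =>
    ord_eq_of_not_mem_NS₂ (hV hτV) (hτ (Sum.inr ⟨Q, hQ⟩))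
  obtain ⟨Q₁, hQ₁⟩ := hZ₁
  obtain ⟨Q₂, hQ₂⟩ := hZ₂
  exact ⟨τ, hτV, (k1 Q₁ hQ₁).1, (k2 Q₂ hQ₂).1, fun Q hQ => (k1 Q hQ).2, fun Q hQ => (k2 Q hQ).2⟩

variable {g₁ g₂ : ℕ}

/-- two sections without common zero in a relatively base point free subspace of `NS(E)` -/
theorem exists_pair_no_common_zero (hF₁ : IsCurveOfGenus k F₁ g₁) (hF₂ : IsCurveOfGenus k F₂ g₂)
    [Infinite k] {E₁ : Divisor k F₁} {E₂ : Divisor k F₂}
    (V : Submodule k (F₁ × F₂)) (hV : V ≤ NS x₁ x₂ E₁ E₂)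
    (hb₁ : ∀ Q : Place k F₁, ¬ V ≤ NS x₁ x₂ (E₁ - Finsupp.single Q 1) E₂)
    (hb₂ : ∀ Q : Place k F₂, ¬ V ≤ NS x₁ x₂ E₁ (E₂ - Finsupp.single Q 1)) :
    ∃ σ ∈ V, ∃ τ ∈ V, σ.1 ≠ 0 ∧ σ.2 ≠ 0 ∧ τ.1 ≠ 0 ∧ τ.2 ≠ 0 ∧
      (∀ Q : Place k F₁, Q.ord σ.1 = -E₁ Q ∨ Q.ord τ.1 = -E₁ Q) ∧
      (∀ Q : Place k F₂, Q.ord σ.2 = -E₂ Q ∨ Q.ord τ.2 = -E₂ Q) := by
  classical
  have := hF₁.infinite_places
  have := hF₂.infinite_places
  obtain ⟨Q₁⟩ := (inferInstance : Nonempty (Place k F₁))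
  obtain ⟨Q₂⟩ := (inferInstance : Nonempty (Place k F₂))
  obtain ⟨σ, hσV, hσ1, hσ2, -, -⟩ := exists_mem_ord_eq V hV hb₁ hb₂ {Q₁} {Q₂}
    (Finset.singleton_nonempty _) (Finset.singleton_nonempty _)
  obtain ⟨Z₁, hZ₁⟩ := Curve.exists_finset_ord_eq hF₁ (D := E₁) hσ1
  obtain ⟨Z₂, hZ₂⟩ := Curve.exists_finset_ord_eq hF₂ (D := E₂) hσ2
  obtain ⟨τ, hτV, hτ1, hτ2, k1, k2⟩ := exists_mem_ord_eq V hV hb₁ hb₂ (insert Q₁ Z₁)
    (insert Q₂ Z₂) (Finset.insert_nonempty _ _) (Finset.insert_nonempty _ _)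
  refine ⟨σ, hσV, τ, hτV, hσ1, hσ2, hτ1, hτ2, fun Q => ?_, fun Q => ?_⟩
  · by_cases hQ : Q ∈ Z₁
    · exact Or.inr (k1 Q (Finset.mem_insert_of_mem hQ))
    · exact Or.inl (hZ₁ Q hQ)
  · by_cases hQ : Q ∈ Z₂
    · exact Or.inr (k2 Q (Finset.mem_insert_of_mem hQ))
    · exact Or.inl (hZ₂ Q hQ)

/-- **base-point-free pencil trick on the nodal curve**: if `σ, τ ∈ NS(E)` have no common zero
relative to `E` and `M - E` is in the stable range, then `σ NS(M) + τ NS(M) = NS(E + M)`. -/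
theorem pencil_span_eq (hF₁ : IsCurveOfGenus k F₁ g₁) (hF₂ : IsCurveOfGenus k F₂ g₂)
    (hx₂ : Function.Injective x₂) {E₁ M₁ : Divisor k F₁} {E₂ M₂ : Divisor k F₂}
    (hE₁ : ∀ c, E₁ (x₁ c) = 0) (hE₂ : ∀ c, E₂ (x₂ c) = 0)
    (hM₁ : ∀ c, M₁ (x₁ c) = 0) (hM₂ : ∀ c, M₂ (x₂ c) = 0)
    {σ τ : F₁ × F₂} (hσ : σ ∈ NS x₁ x₂ E₁ E₂) (hτ : τ ∈ NS x₁ x₂ E₁ E₂)
    (hσ1 : σ.1 ≠ 0) (hσ2 : σ.2 ≠ 0) (hτ1 : τ.1 ≠ 0) (hτ2 : τ.2 ≠ 0)
    (h₁ : ∀ Q : Place k F₁, Q.ord σ.1 = -E₁ Q ∨ Q.ord τ.1 = -E₁ Q)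
    (h₂ : ∀ Q : Place k F₂, Q.ord σ.2 = -E₂ Q ∨ Q.ord τ.2 = -E₂ Q)
    (hd₁ : 2 * (g₁ : ℤ) - 2 < Divisor.degree M₁ - Divisor.degree E₁)
    (hd₂ : 2 * (g₂ : ℤ) - 2 + s < Divisor.degree M₂ - Divisor.degree E₂)
    {φ : F₁ × F₂} (hφ : φ ∈ NS x₁ x₂ (E₁ + M₁) (E₂ + M₂)) :
    ∃ a ∈ NS x₁ x₂ M₁ M₂, ∃ b ∈ NS x₁ x₂ M₁ M₂, φ = σ * a + τ * b := by
  have hdE₁ : 0 ≤ Divisor.degree E₁ := Curve.degree_nonneg_of_mem hF₁ hσ.1 hσ1
  have hdE₂ : 0 ≤ Divisor.degree E₂ := Curve.degree_nonneg_of_mem hF₂ hσ.2.1 hσ2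
  have := finiteDimensional_nodalSpace (x₁ := x₁) (x₂ := x₂) hF₁ hF₂ (fun _ => 1) M₁ M₂
  have := finiteDimensional_nodalSpace (x₁ := x₁) (x₂ := x₂) hF₁ hF₂ (fun _ => 1)
    (E₁ + M₁) (E₂ + M₂)
  have := finiteDimensional_nodalSpace (x₁ := x₁) (x₂ := x₂) hF₁ hF₂ (fun _ => 1)
    (M₁ - E₁) (M₂ - E₂)
  -- the multiplication map
  obtain ⟨Φ, hΦ⟩ : ∃ Φ : (NS x₁ x₂ M₁ M₂ × NS x₁ x₂ M₁ M₂) →ₗ[k] (F₁ × F₂),
      ∀ x, Φ x = σ * (x.1 : F₁ × F₂) + τ * (x.2 : F₁ × F₂) :=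
    ⟨((LinearMap.mulLeft k σ).comp (NS x₁ x₂ M₁ M₂).subtype).coprod
      ((LinearMap.mulLeft k τ).comp (NS x₁ x₂ M₁ M₂).subtype), fun x => by
        simp [LinearMap.coprod_apply]⟩
  have hrange : LinearMap.range Φ ≤ NS x₁ x₂ (E₁ + M₁) (E₂ + M₂) := by
    rintro _ ⟨x, rfl⟩
    rw [hΦ]
    exact add_mem (mul_mem_NS hσ x.1.2) (mul_mem_NS hτ x.2.2)
  -- the kernel is the image of `NS(M - E)` under `h ↦ (τ h, - σ h)`
  have hmem1 : ∀ h : NS x₁ x₂ (M₁ - E₁) (M₂ - E₂), τ * (h : F₁ × F₂) ∈ NS x₁ x₂ M₁ M₂ := fun h => by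
    have := mul_mem_NS hτ h.2
    rwa [add_sub_cancel, add_sub_cancel] at this
  have hmem2 : ∀ h : NS x₁ x₂ (M₁ - E₁) (M₂ - E₂), (-σ) * (h : F₁ × F₂) ∈ NS x₁ x₂ M₁ M₂ :=
    fun h => by
      have := mul_mem_NS (neg_mem hσ) h.2
      rwa [add_sub_cancel, add_sub_cancel] at this
  obtain ⟨Θ, hΘ⟩ : ∃ Θ : NS x₁ x₂ (M₁ - E₁) (M₂ - E₂) →ₗ[k]
      (NS x₁ x₂ M₁ M₂ × NS x₁ x₂ M₁ M₂),
      ∀ h, ((Θ h).1 : F₁ × F₂) = τ * (h : F₁ × F₂) ∧ ((Θ h).2 : F₁ × F₂) = (-σ) * (h : F₁ × F₂) :=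
    ⟨LinearMap.prod
      (LinearMap.codRestrict _
        ((LinearMap.mulLeft k τ).comp (NS x₁ x₂ (M₁ - E₁) (M₂ - E₂)).subtype) hmem1)
      (LinearMap.codRestrict _
        ((LinearMap.mulLeft k (-σ)).comp (NS x₁ x₂ (M₁ - E₁) (M₂ - E₂)).subtype) hmem2),
      fun h => ⟨rfl, rfl⟩⟩
  have hker : LinearMap.ker Φ ≤ LinearMap.range Θ := by
    rintro ⟨a, b⟩ hx
    have hx' : σ * (a : F₁ × F₂) + τ * (b : F₁ × F₂) = 0 := by
      have := LinearMap.mem_ker.1 hx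
      rwa [hΦ] at this
    have hx1 : σ.1 * (a : F₁ × F₂).1 + τ.1 * (b : F₁ × F₂).1 = 0 := congrArg Prod.fst hx'
    have hx2 : σ.2 * (a : F₁ × F₂).2 + τ.2 * (b : F₁ × F₂).2 = 0 := congrArg Prod.snd hx'
    obtain ⟨m1, e1⟩ := inv_mul_mem_rr_sub hσ1 hτ1 h₁ a.2.1 b.2.1 hx1
    obtain ⟨m2, e2⟩ := inv_mul_mem_rr_sub hσ2 hτ2 h₂ a.2.2.1 b.2.2.1 hx2
    set h : F₁ × F₂ := (τ.1⁻¹ * (a : F₁ × F₂).1, τ.2⁻¹ * (a : F₁ × F₂).2) with hh
    have hmem : h ∈ NS x₁ x₂ (M₁ - E₁) (M₂ - E₂) := by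
      refine ⟨m1, m2, fun c => ?_⟩
      rcases h₁ (x₁ c) with hc | hc
      · -- `σ` is a unit at the node
        rw [hE₁ c, neg_zero] at hc
        have hi := gluedAt_inv hF₁.deg_eq_one hF₂.deg_eq_one (hσ.2.2 c) hσ1 hc
        have := gluedAt_neg (gluedAt_mul hi (b.2.2.2 c))
        have e : -((σ.1⁻¹, σ.2⁻¹) * (b : F₁ × F₂)) = h := by
          rw [hh]
          exact Prod.ext e1.symm e2.symm
        rwa [e] at this
      · rw [hE₁ c, neg_zero] at hc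
        have hi := gluedAt_inv hF₁.deg_eq_one hF₂.deg_eq_one (hτ.2.2 c) hτ1 hc
        exact gluedAt_mul hi (a.2.2.2 c)
    refine ⟨⟨h, hmem⟩, ?_⟩
    obtain ⟨t1, t2⟩ := hΘ ⟨h, hmem⟩
    refine Prod.ext (Subtype.ext ?_) (Subtype.ext ?_)
    · rw [t1]
      show τ * h = (a : F₁ × F₂)
      refine Prod.ext ?_ ?_
      · show τ.1 * (τ.1⁻¹ * (a : F₁ × F₂).1) = (a : F₁ × F₂).1
        field_simp
      · show τ.2 * (τ.2⁻¹ * (a : F₁ × F₂).2) = (a : F₁ × F₂).2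
        field_simp
    · rw [t2]
      show (-σ) * h = (b : F₁ × F₂)
      refine Prod.ext ?_ ?_
      · show (-σ.1) * (τ.1⁻¹ * (a : F₁ × F₂).1) = (b : F₁ × F₂).1
        rw [e1]
        field_simp
      · show (-σ.2) * (τ.2⁻¹ * (a : F₁ × F₂).2) = (b : F₁ × F₂).2
        rw [e2]
        field_simp
  have hkerle : finrank k (LinearMap.ker Φ) ≤ finrank k (NS x₁ x₂ (M₁ - E₁) (M₂ - E₂)) :=
    (Submodule.finrank_mono hker).trans (LinearMap.finrank_range_le Θ)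
  have hrn := LinearMap.finrank_range_add_finrank_ker Φ
  rw [Module.finrank_prod] at hrn
  have hrle : finrank k (LinearMap.range Φ) ≤ finrank k (NS x₁ x₂ (E₁ + M₁) (E₂ + M₂)) :=
    Submodule.finrank_mono hrange
  have hs0 : (0 : ℤ) ≤ s := Int.natCast_nonneg s
  -- the three dimensions
  have e1 := finrank_nodalSpace (x₁ := x₁) hF₁ hF₂ hx₂ (fun _ => 1) M₁ M₂ hM₁ hM₂
    (by linarith) (by linarith)
  have e2 := finrank_nodalSpace (x₁ := x₁) hF₁ hF₂ hx₂ (fun _ => 1) (M₁ - E₁) (M₂ - E₂)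
    (fun c => by rw [Finsupp.sub_apply, hM₁, hE₁, sub_zero])
    (fun c => by rw [Finsupp.sub_apply, hM₂, hE₂, sub_zero])
    (by rw [map_sub]; exact hd₁) (by rw [map_sub]; exact hd₂)
  have e3 := finrank_nodalSpace (x₁ := x₁) hF₁ hF₂ hx₂ (fun _ => 1) (E₁ + M₁) (E₂ + M₂)
    (fun c => by rw [Finsupp.add_apply, hM₁, hE₁, add_zero])
    (fun c => by rw [Finsupp.add_apply, hM₂, hE₂, add_zero])
    (by rw [map_add]; linarith) (by rw [map_add]; linarith)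
  rw [map_sub, map_sub] at e2
  rw [map_add, map_add] at e3
  have hfin : finrank k (LinearMap.range Φ) = finrank k (NS x₁ x₂ (E₁ + M₁) (E₂ + M₂)) := by
    have h1 : (finrank k (LinearMap.range Φ) : ℤ) + finrank k (LinearMap.ker Φ)
        = finrank k (NS x₁ x₂ M₁ M₂) + finrank k (NS x₁ x₂ M₁ M₂) := by exact_mod_cast hrn
    have h2 : (finrank k (LinearMap.ker Φ) : ℤ) ≤
        finrank k (NS x₁ x₂ (M₁ - E₁) (M₂ - E₂)) := by exact_mod_cast hkerle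
    have h3 : (finrank k (LinearMap.range Φ) : ℤ) ≤
        finrank k (NS x₁ x₂ (E₁ + M₁) (E₂ + M₂)) := by exact_mod_cast hrle
    have : (finrank k (LinearMap.range Φ) : ℤ) =
        finrank k (NS x₁ x₂ (E₁ + M₁) (E₂ + M₂)) := by
      apply le_antisymm h3
      linarith
    exact_mod_cast this
  have heq : LinearMap.range Φ = NS x₁ x₂ (E₁ + M₁) (E₂ + M₂) :=
    Submodule.eq_of_le_of_finrank_eq hrange hfin
  rw [← heq] at hφ
  obtain ⟨x, rfl⟩ := hφ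
  exact ⟨x.1, x.1.2, x.2, x.2.2, hΦ x⟩

end Nodal

end Fermat.Agent.S33lib.NRed
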