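/-
S33lib / NRed / Bpf  (helper6)

Base point freeness on the nodal curve in the STRONG range `deg Eᵢ ≥ 2 gᵢ + s`:

* `exists_mem_NS_ord_eq₁/₂` : for every point `Q` of a component there is a section of exact order
                              `-Eᵢ Q` at `Q` (at a node point: a section which is a unit there);
* `exists_pair_complete`    : two sections of `NS(E)` without common zero;
* `le_of_NS_le`             : `NS(D) ≤ NS(D')` forces `D ≤ D'`;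
* `finrank_NS_sub_single₁/₂`: removing a smooth point drops the dimension by one.
-/
import Fermat.Agent.S33lib.NRed.Pencil

set_option autoImplicit false

noncomputable section

namespace Fermat.Agent.S33lib.NRed

open AlgebraicCurve Module
open Fermat.Agent.S18lib Fermat.Agent.LSb Fermat.Agent.LSb.Core Fermat.Agent.S37lib

variable {k F₁ F₂ : Type*} [Field k] [Field F₁] [Field F₂] [Algebra k F₁] [Algebra k F₂]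
variable {s : ℕ} {x₁ : Fin s → Place k F₁} {x₂ : Fin s → Place k F₂} {g₁ g₂ : ℕ}

/-- dimension of the nodal space (trivial twist) in the stable range -/
theorem finrank_NS (hF₁ : IsCurveOfGenus k F₁ g₁) (hF₂ : IsCurveOfGenus k F₂ g₂)
    (hx₂ : Function.Injective x₂) (E₁ : Divisor k F₁) (E₂ : Divisor k F₂)
    (hE₁ : ∀ c, E₁ (x₁ c) = 0) (hE₂ : ∀ c, E₂ (x₂ c) = 0)
    (hd₁ : 2 * (g₁ : ℤ) - 2 < Divisor.degree E₁)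
    (hd₂ : 2 * (g₂ : ℤ) - 2 + s < Divisor.degree E₂) :
    (finrank k (NS x₁ x₂ E₁ E₂) : ℤ) =
      Divisor.degree E₁ + Divisor.degree E₂ + 2 - g₁ - g₂ - s :=
  finrank_nodalSpace hF₁ hF₂ hx₂ _ E₁ E₂ hE₁ hE₂ hd₁ hd₂

theorem sub_single_apply_of_ne {K F : Type*} [Field K] [Field F] [Algebra K F]
    (E : Divisor K F) {Q v : Place K F} (h : v ≠ Q) :
    (E - Finsupp.single Q 1 : Divisor K F) v = E v := by
  classical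
  rw [Finsupp.sub_apply, Finsupp.single_apply, if_neg (Ne.symm h), sub_zero]

/-- removing a smooth point of the first component drops the dimension by one -/
theorem finrank_NS_sub_single₁ (hF₁ : IsCurveOfGenus k F₁ g₁) (hF₂ : IsCurveOfGenus k F₂ g₂)
    (hx₂ : Function.Injective x₂) (E₁ : Divisor k F₁) (E₂ : Divisor k F₂)
    (hE₁ : ∀ c, E₁ (x₁ c) = 0) (hE₂ : ∀ c, E₂ (x₂ c) = 0)
    (hd₁ : 2 * (g₁ : ℤ) ≤ Divisor.degree E₁)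
    (hd₂ : 2 * (g₂ : ℤ) - 2 + s < Divisor.degree E₂) {Q : Place k F₁} (hQ : ∀ c, x₁ c ≠ Q) :
    (finrank k (NS x₁ x₂ (E₁ - Finsupp.single Q 1) E₂) : ℤ) + 1 =
      finrank k (NS x₁ x₂ E₁ E₂) := by
  rw [finrank_NS hF₁ hF₂ hx₂ E₁ E₂ hE₁ hE₂ (by linarith) hd₂,
    finrank_NS hF₁ hF₂ hx₂ (E₁ - Finsupp.single Q 1) E₂
      (fun c => by rw [sub_single_apply_of_ne E₁ (hQ c), hE₁]) hE₂
      (by rw [map_sub, Curve.degree_single_one hF₁]; linarith) hd₂,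
    map_sub, Curve.degree_single_one hF₁]
  ring

/-- removing a smooth point of the second component drops the dimension by one -/
theorem finrank_NS_sub_single₂ (hF₁ : IsCurveOfGenus k F₁ g₁) (hF₂ : IsCurveOfGenus k F₂ g₂)
    (hx₂ : Function.Injective x₂) (E₁ : Divisor k F₁) (E₂ : Divisor k F₂)
    (hE₁ : ∀ c, E₁ (x₁ c) = 0) (hE₂ : ∀ c, E₂ (x₂ c) = 0)
    (hd₁ : 2 * (g₁ : ℤ) - 2 < Divisor.degree E₁)
    (hd₂ : 2 * (g₂ : ℤ) + s ≤ Divisor.degree E₂) {Q : Place k F₂} (hQ : ∀ c, x₂ c ≠ Q) :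
    (finrank k (NS x₁ x₂ E₁ (E₂ - Finsupp.single Q 1)) : ℤ) + 1 =
      finrank k (NS x₁ x₂ E₁ E₂) := by
  rw [finrank_NS hF₁ hF₂ hx₂ E₁ E₂ hE₁ hE₂ hd₁ (by linarith),
    finrank_NS hF₁ hF₂ hx₂ E₁ (E₂ - Finsupp.single Q 1) hE₁
      (fun c => by rw [sub_single_apply_of_ne E₂ (hQ c), hE₂])
      hd₁ (by rw [map_sub, Curve.degree_single_one hF₂]; linarith),
    map_sub, Curve.degree_single_one hF₂]
  ring

/-- a section which takes the value `1` at all nodes -/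
theorem exists_mem_NS_valAt_one (hF₁ : IsCurveOfGenus k F₁ g₁) (hF₂ : IsCurveOfGenus k F₂ g₂)
    (hx₁ : Function.Injective x₁) (hx₂ : Function.Injective x₂)
    (E₁ : Divisor k F₁) (E₂ : Divisor k F₂) (hE₁ : ∀ c, E₁ (x₁ c) = 0) (hE₂ : ∀ c, E₂ (x₂ c) = 0)
    (hd₁ : 2 * (g₁ : ℤ) - 2 + s < Divisor.degree E₁)
    (hd₂ : 2 * (g₂ : ℤ) - 2 + s < Divisor.degree E₂) :
    ∃ φ ∈ NS x₁ x₂ E₁ E₂, ∀ c, valAt (x₁ c) φ.1 = 1 ∧ valAt (x₂ c) φ.2 = 1 := by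
  obtain ⟨φ, hφ, hv⟩ := exists_mem_nodalSpace_valAt hF₁ hF₂ hx₁ hx₂ (fun _ => 1) E₁ E₂ hE₁ hE₂
    hd₁ hd₂ (fun _ => 1)
  exact ⟨φ, hφ, fun c => ⟨(hv c).1, by rw [(hv c).2, one_mul]⟩⟩

/-- base point freeness on the first component -/
theorem exists_mem_NS_ord_eq₁ (hF₁ : IsCurveOfGenus k F₁ g₁) (hF₂ : IsCurveOfGenus k F₂ g₂)
    (hx₁ : Function.Injective x₁) (hx₂ : Function.Injective x₂)
    (E₁ : Divisor k F₁) (E₂ : Divisor k F₂) (hE₁ : ∀ c, E₁ (x₁ c) = 0) (hE₂ : ∀ c, E₂ (x₂ c) = 0)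
    (hd₁ : 2 * (g₁ : ℤ) + s ≤ Divisor.degree E₁)
    (hd₂ : 2 * (g₂ : ℤ) - 2 + s < Divisor.degree E₂) (Q : Place k F₁) :
    ∃ φ ∈ NS x₁ x₂ E₁ E₂, φ.1 ≠ 0 ∧ Q.ord φ.1 = -E₁ Q := by
  have hs0 : (0 : ℤ) ≤ s := Int.natCast_nonneg s
  by_cases hQ : ∃ c, x₁ c = Q
  · obtain ⟨c, rfl⟩ := hQ
    obtain ⟨φ, hφ, hv⟩ := exists_mem_NS_valAt_one hF₁ hF₂ hx₁ hx₂ E₁ E₂ hE₁ hE₂ (by linarith) hd₂
    have h1 : valAt (x₁ c) φ.1 ≠ 0 := by rw [(hv c).1]; exact one_ne_zero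
    refine ⟨φ, hφ, ne_zero_of_valAt_ne_zero _ h1, ?_⟩
    rw [hE₁ c, neg_zero]
    exact ord_eq_zero_of_valAt_ne_zero _ (hF₁.deg_eq_one _)
      (mem_of_mem_rr (le_of_eq (hE₁ c)) hφ.1) h1
  · push Not at hQ
    have := finiteDimensional_nodalSpace (x₁ := x₁) (x₂ := x₂) hF₁ hF₂ (fun _ => 1) E₁ E₂
    have hne : NS x₁ x₂ (E₁ - Finsupp.single Q 1) E₂ ≠ NS x₁ x₂ E₁ E₂ := by
      intro h
      have := finrank_NS_sub_single₁ hF₁ hF₂ hx₂ E₁ E₂ hE₁ hE₂ (by linarith) hd₂ hQ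
      rw [h] at this
      omega
    obtain ⟨φ, hφ, hn⟩ := SetLike.exists_of_lt (lt_of_le_of_ne (NS_sub_single_le₁ E₁ E₂ Q) hne)
    exact ⟨φ, hφ, ord_eq_of_not_mem_NS₁ hφ hn⟩

/-- base point freeness on the second component -/
theorem exists_mem_NS_ord_eq₂ (hF₁ : IsCurveOfGenus k F₁ g₁) (hF₂ : IsCurveOfGenus k F₂ g₂)
    (hx₁ : Function.Injective x₁) (hx₂ : Function.Injective x₂)
    (E₁ : Divisor k F₁) (E₂ : Divisor k F₂) (hE₁ : ∀ c, E₁ (x₁ c) = 0) (hE₂ : ∀ c, E₂ (x₂ c) = 0)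
    (hd₁ : 2 * (g₁ : ℤ) - 2 + s < Divisor.degree E₁)
    (hd₂ : 2 * (g₂ : ℤ) + s ≤ Divisor.degree E₂) (Q : Place k F₂) :
    ∃ φ ∈ NS x₁ x₂ E₁ E₂, φ.2 ≠ 0 ∧ Q.ord φ.2 = -E₂ Q := by
  have hs0 : (0 : ℤ) ≤ s := Int.natCast_nonneg s
  by_cases hQ : ∃ c, x₂ c = Q
  · obtain ⟨c, rfl⟩ := hQ
    obtain ⟨φ, hφ, hv⟩ := exists_mem_NS_valAt_one hF₁ hF₂ hx₁ hx₂ E₁ E₂ hE₁ hE₂ hd₁ (by linarith)
    have h1 : valAt (x₂ c) φ.2 ≠ 0 := by rw [(hv c).2]; exact one_ne_zero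
    refine ⟨φ, hφ, ne_zero_of_valAt_ne_zero _ h1, ?_⟩
    rw [hE₂ c, neg_zero]
    exact ord_eq_zero_of_valAt_ne_zero _ (hF₂.deg_eq_one _)
      (mem_of_mem_rr (le_of_eq (hE₂ c)) hφ.2.1) h1
  · push Not at hQ
    have := finiteDimensional_nodalSpace (x₁ := x₁) (x₂ := x₂) hF₁ hF₂ (fun _ => 1) E₁ E₂
    have hne : NS x₁ x₂ E₁ (E₂ - Finsupp.single Q 1) ≠ NS x₁ x₂ E₁ E₂ := by
      intro h
      have := finrank_NS_sub_single₂ hF₁ hF₂ hx₂ E₁ E₂ hE₁ hE₂ (by linarith) hd₂ hQ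
      rw [h] at this
      omega
    obtain ⟨φ, hφ, hn⟩ := SetLike.exists_of_lt (lt_of_le_of_ne (NS_sub_single_le₂ E₁ E₂ Q) hne)
    exact ⟨φ, hφ, ord_eq_of_not_mem_NS₂ hφ hn⟩

/-- in the strong range `NS(E)` is not contained in `NS(E₁ - Q, E₂)` -/
theorem not_NS_le_sub_single₁ (hF₁ : IsCurveOfGenus k F₁ g₁) (hF₂ : IsCurveOfGenus k F₂ g₂)
    (hx₁ : Function.Injective x₁) (hx₂ : Function.Injective x₂)
    (E₁ : Divisor k F₁) (E₂ : Divisor k F₂) (hE₁ : ∀ c, E₁ (x₁ c) = 0) (hE₂ : ∀ c, E₂ (x₂ c) = 0)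
    (hd₁ : 2 * (g₁ : ℤ) + s ≤ Divisor.degree E₁)
    (hd₂ : 2 * (g₂ : ℤ) - 2 + s < Divisor.degree E₂) (Q : Place k F₁) :
    ¬ NS x₁ x₂ E₁ E₂ ≤ NS x₁ x₂ (E₁ - Finsupp.single Q 1) E₂ := by
  classical
  intro hle
  obtain ⟨φ, hφ, h0, hord⟩ := exists_mem_NS_ord_eq₁ hF₁ hF₂ hx₁ hx₂ E₁ E₂ hE₁ hE₂ hd₁ hd₂ Q
  have := (mem_riemannRochSpace_iff.1 (hle hφ).1 Q).resolve_left h0
  rw [Finsupp.sub_apply, Finsupp.single_apply, if_pos rfl] at this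
  omega

theorem not_NS_le_sub_single₂ (hF₁ : IsCurveOfGenus k F₁ g₁) (hF₂ : IsCurveOfGenus k F₂ g₂)
    (hx₁ : Function.Injective x₁) (hx₂ : Function.Injective x₂)
    (E₁ : Divisor k F₁) (E₂ : Divisor k F₂) (hE₁ : ∀ c, E₁ (x₁ c) = 0) (hE₂ : ∀ c, E₂ (x₂ c) = 0)
    (hd₁ : 2 * (g₁ : ℤ) - 2 + s < Divisor.degree E₁)
    (hd₂ : 2 * (g₂ : ℤ) + s ≤ Divisor.degree E₂) (Q : Place k F₂) :
    ¬ NS x₁ x₂ E₁ E₂ ≤ NS x₁ x₂ E₁ (E₂ - Finsupp.single Q 1) := by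
  classical
  intro hle
  obtain ⟨φ, hφ, h0, hord⟩ := exists_mem_NS_ord_eq₂ hF₁ hF₂ hx₁ hx₂ E₁ E₂ hE₁ hE₂ hd₁ hd₂ Q
  have := (mem_riemannRochSpace_iff.1 (hle hφ).2.1 Q).resolve_left h0
  rw [Finsupp.sub_apply, Finsupp.single_apply, if_pos rfl] at this
  omega

/-- a complete nodal linear system in the strong range contains two sections without common zero -/
theorem exists_pair_complete (hF₁ : IsCurveOfGenus k F₁ g₁) (hF₂ : IsCurveOfGenus k F₂ g₂)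
    [Infinite k] (hx₁ : Function.Injective x₁) (hx₂ : Function.Injective x₂)
    (E₁ : Divisor k F₁) (E₂ : Divisor k F₂) (hE₁ : ∀ c, E₁ (x₁ c) = 0) (hE₂ : ∀ c, E₂ (x₂ c) = 0)
    (hd₁ : 2 * (g₁ : ℤ) + s ≤ Divisor.degree E₁)
    (hd₂ : 2 * (g₂ : ℤ) + s ≤ Divisor.degree E₂) :
    ∃ σ ∈ NS x₁ x₂ E₁ E₂, ∃ τ ∈ NS x₁ x₂ E₁ E₂, σ.1 ≠ 0 ∧ σ.2 ≠ 0 ∧ τ.1 ≠ 0 ∧ τ.2 ≠ 0 ∧
      (∀ Q : Place k F₁, Q.ord σ.1 = -E₁ Q ∨ Q.ord τ.1 = -E₁ Q) ∧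
      (∀ Q : Place k F₂, Q.ord σ.2 = -E₂ Q ∨ Q.ord τ.2 = -E₂ Q) :=
  exists_pair_no_common_zero hF₁ hF₂ (NS x₁ x₂ E₁ E₂) le_rfl
    (not_NS_le_sub_single₁ hF₁ hF₂ hx₁ hx₂ E₁ E₂ hE₁ hE₂ hd₁ (by linarith))
    (not_NS_le_sub_single₂ hF₁ hF₂ hx₁ hx₂ E₁ E₂ hE₁ hE₂ (by linarith) hd₂)

/-- `NS(D) ≤ NS(D')` with `D` in the strong range forces `D ≤ D'` -/
theorem le_of_NS_le (hF₁ : IsCurveOfGenus k F₁ g₁) (hF₂ : IsCurveOfGenus k F₂ g₂)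
    (hx₁ : Function.Injective x₁) (hx₂ : Function.Injective x₂)
    {D₁ D₁' : Divisor k F₁} {D₂ D₂' : Divisor k F₂}
    (hD₁ : ∀ c, D₁ (x₁ c) = 0) (hD₂ : ∀ c, D₂ (x₂ c) = 0)
    (hd₁ : 2 * (g₁ : ℤ) + s ≤ Divisor.degree D₁) (hd₂ : 2 * (g₂ : ℤ) + s ≤ Divisor.degree D₂)
    (h : NS x₁ x₂ D₁ D₂ ≤ NS x₁ x₂ D₁' D₂') : D₁ ≤ D₁' ∧ D₂ ≤ D₂' := by
  constructor
  · rw [Finsupp.le_def]
    intro Q
    obtain ⟨φ, hφ, h0, hord⟩ := exists_mem_NS_ord_eq₁ hF₁ hF₂ hx₁ hx₂ D₁ D₂ hD₁ hD₂ hd₁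
      (by linarith) Q
    have h2 := (mem_riemannRochSpace_iff.1 (h hφ).1 Q).resolve_left h0
    linarith
  · rw [Finsupp.le_def]
    intro Q
    obtain ⟨φ, hφ, h0, hord⟩ := exists_mem_NS_ord_eq₂ hF₁ hF₂ hx₁ hx₂ D₁ D₂ hD₁ hD₂
      (by linarith) hd₂ Q
    have h2 := (mem_riemannRochSpace_iff.1 (h hφ).2.1 Q).resolve_left h0
    linarith

end Fermat.Agent.S33lib.NRed
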