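/-
S33lib / NRed / Good  (helper6)

Nodal port of helper2's `S37lib/Red/Good`.  Context `NCtx D Y Y₁ Y₂ g g₁ g₂`: a nodal datum `D`
(two Gauss valuations of `F` with residue function fields `F₁ F₂`, nodes `x₁ c ~ x₂ c`) with sup-norm
orthonormal bases, genus relation `g + 1 = g₁ + g₂ + s`, and a FRAME divisor `Y` on `F` with
reductions `Y₁, Y₂` (supported off the nodes) such that reduction maps `O ∩ L(mY)` ONTO the nodal
space `NS(mY₁, mY₂)` in large degree.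

`NGoodAt n E E₁ E₂` : `redSub L(nY - E) = NS(nY₁ - E₁, nY₂ - E₂)` in the strong range, `E₁ E₂`
supported off the nodes, `deg E₁ + deg E₂ = deg E`.

* `NCtx.ngoodAt_zero` : `NGoodAt m 0 0 0` for `m` large;
* `NGoodAt.add`       : additivity (nodal base-point-free pencil trick).
-/
import Fermat.Agent.S33lib.NRed.Bpf
import Fermat.Agent.LSb.Core.Lattice

set_option autoImplicit false

noncomputable section

namespace Fermat.Agent.S33lib.NRed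

open AlgebraicCurve Module
open Fermat.Agent.S18lib Fermat.Agent.LSb Fermat.Agent.LSb.Core Fermat.Agent.S37lib

variable {L : Type*} [Field L] {A : ValuationSubring L}
variable {F : Type*} [Field F] [Algebra L F]
variable {F₁ F₂ : Type*} [Field F₁] [Field F₂]
variable [Algebra (IsLocalRing.ResidueField A) F₁] [Algebra (IsLocalRing.ResidueField A) F₂]

local notation "k" => IsLocalRing.ResidueField A

/-- the context of the construction of the place map on the nodal model -/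
structure NCtx (D : NodalDatum A F F₁ F₂) (Y : Divisor L F) (Y₁ : Divisor k F₁)
    (Y₂ : Divisor k F₂) (g g₁ g₂ : ℕ) : Prop where
  orth : D.HasOrthonormalBases
  curve : IsCurveOfGenus L F g
  curve₁ : IsCurveOfGenus k F₁ g₁
  curve₂ : IsCurveOfGenus k F₂ g₂
  genus_eq : g + 1 = g₁ + g₂ + D.s
  x₁_inj : Function.Injective D.x₁
  x₂_inj : Function.Injective D.x₂
  Y₁_x₁ : ∀ c, Y₁ (D.x₁ c) = 0
  Y₂_x₂ : ∀ c, Y₂ (D.x₂ c) = 0
  deg_eq : Divisor.degree Y₁ + Divisor.degree Y₂ = Divisor.degree Y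
  deg_pos₁ : 0 < Divisor.degree Y₁
  deg_pos₂ : 0 < Divisor.degree Y₂
  /-- the frame divisor is effective -/
  Y_nonneg : 0 ≤ Y
  /-- `A` has rank one (same form as in `LSb.NodalCtx`) -/
  rankOne : ∀ c : A, c ∈ IsLocalRing.maximalIdeal A → ∀ d : A, d ≠ 0 → ∃ n : ℕ, ¬ c ^ n ∣ d
  red_mem : ∀ (m : ℕ) (f : F), f ∈ D.O → f ∈ riemannRochSpace ((m : ℤ) • Y) →
    D.redF f ∈ NS D.x₁ D.x₂ ((m : ℤ) • Y₁) ((m : ℤ) • Y₂)
  lift : ∀ (m : ℕ), 2 * (g₁ : ℤ) - 2 + D.s < m * Divisor.degree Y₁ →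
    2 * (g₂ : ℤ) - 2 + D.s < m * Divisor.degree Y₂ →
    ∀ φ ∈ NS D.x₁ D.x₂ ((m : ℤ) • Y₁) ((m : ℤ) • Y₂),
      ∃ f : F, f ∈ D.O ∧ f ∈ riemannRochSpace ((m : ℤ) • Y) ∧ D.redF f = φ

/-- `redSub L(nY - E) = NS(nY₁ - E₁, nY₂ - E₂)` in the strong range -/
def NGoodAt (D : NodalDatum A F F₁ F₂) (Y : Divisor L F) (Y₁ : Divisor k F₁)
    (Y₂ : Divisor k F₂) (g₁ g₂ : ℕ) (n : ℕ) (E : Divisor L F) (E₁ : Divisor k F₁)
    (E₂ : Divisor k F₂) : Prop :=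
  (∀ c, E₁ (D.x₁ c) = 0) ∧ (∀ c, E₂ (D.x₂ c) = 0) ∧
  Divisor.degree E₁ + Divisor.degree E₂ = Divisor.degree E ∧
  2 * (g₁ : ℤ) + D.s ≤ n * Divisor.degree Y₁ - Divisor.degree E₁ ∧
  2 * (g₂ : ℤ) + D.s ≤ n * Divisor.degree Y₂ - Divisor.degree E₂ ∧
  D.redSub (riemannRochSpace ((n : ℤ) • Y - E)) =
    NS D.x₁ D.x₂ ((n : ℤ) • Y₁ - E₁) ((n : ℤ) • Y₂ - E₂)

variable {D : NodalDatum A F F₁ F₂} {Y : Divisor L F}
  {Y₁ : Divisor (IsLocalRing.ResidueField A) F₁} {Y₂ : Divisor (IsLocalRing.ResidueField A) F₂}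
  {g g₁ g₂ : ℕ}

/-- multiplicativity of the reductions of Riemann–Roch lattices -/
theorem mul_mem_redSub_rr {E E' E'' : Divisor L F} (hE : E + E' = E'') {φ ψ : F₁ × F₂}
    (hφ : φ ∈ D.redSub (riemannRochSpace E)) (hψ : ψ ∈ D.redSub (riemannRochSpace E')) :
    φ * ψ ∈ D.redSub (riemannRochSpace E'') := by
  obtain ⟨f, hfW, hfO, rfl⟩ := hφ
  obtain ⟨f', hfW', hfO', rfl⟩ := hψ
  refine ⟨f * f', ?_, D.O.mul_mem hfO hfO', NodalDatum.redF_mul hfO hfO'⟩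
  rw [← hE]
  exact mul_mem_riemannRochSpace hfW hfW'

theorem degree_nsmul_sub' {K' F' : Type*} [Field K'] [Field F'] [Algebra K' F']
    (Y : Divisor K' F') (n : ℕ) (E : Divisor K' F') :
    Divisor.degree ((n : ℤ) • Y - E) = n * Divisor.degree Y - Divisor.degree E := by
  rw [map_sub, map_zsmul, smul_eq_mul]

namespace NCtx

variable (C : NCtx D Y Y₁ Y₂ g g₁ g₂)

include C

theorem genus_eq' : (g : ℤ) + 1 = g₁ + g₂ + D.s := by exact_mod_cast C.genus_eq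

theorem nsmul_sub_x₁ (n : ℕ) {E₁ : Divisor k F₁} (h : ∀ c, E₁ (D.x₁ c) = 0) (c : Fin D.s) :
    ((n : ℤ) • Y₁ - E₁ : Divisor k F₁) (D.x₁ c) = 0 := by
  rw [Finsupp.sub_apply, Finsupp.smul_apply, C.Y₁_x₁, h, smul_zero, sub_zero]

theorem nsmul_sub_x₂ (n : ℕ) {E₂ : Divisor k F₂} (h : ∀ c, E₂ (D.x₂ c) = 0) (c : Fin D.s) :
    ((n : ℤ) • Y₂ - E₂ : Divisor k F₂) (D.x₂ c) = 0 := by
  rw [Finsupp.sub_apply, Finsupp.smul_apply, C.Y₂_x₂, h, smul_zero, sub_zero]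

/-- dimension of `redSub L(nY - E)` in the stable range -/
theorem finrank_redSub_rr {n : ℕ} {E : Divisor L F}
    (h : 2 * (g : ℤ) - 2 < n * Divisor.degree Y - Divisor.degree E) :
    (finrank k (D.redSub (riemannRochSpace ((n : ℤ) • Y - E))) : ℤ) =
      n * Divisor.degree Y - Divisor.degree E + 1 - g := by
  have := C.curve.finiteDimensional ((n : ℤ) • Y - E)
  rw [NodalDatum.finrank_redSub C.orth,
    C.curve.riemann_eq _ (by rw [degree_nsmul_sub']; exact h), degree_nsmul_sub']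

/-- dimension of `NS(nY₁ - E₁, nY₂ - E₂)` in the stable range -/
theorem finrank_NS_k {n : ℕ} {E₁ : Divisor k F₁} {E₂ : Divisor k F₂}
    (z₁ : ∀ c, E₁ (D.x₁ c) = 0) (z₂ : ∀ c, E₂ (D.x₂ c) = 0)
    (h₁ : 2 * (g₁ : ℤ) - 2 < n * Divisor.degree Y₁ - Divisor.degree E₁)
    (h₂ : 2 * (g₂ : ℤ) - 2 + D.s < n * Divisor.degree Y₂ - Divisor.degree E₂) :
    (finrank k (NS D.x₁ D.x₂ ((n : ℤ) • Y₁ - E₁) ((n : ℤ) • Y₂ - E₂)) : ℤ) =
      (n * Divisor.degree Y₁ - Divisor.degree E₁) + (n * Divisor.degree Y₂ - Divisor.degree E₂)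
        + 2 - g₁ - g₂ - D.s := by
  rw [finrank_NS C.curve₁ C.curve₂ C.x₂_inj _ _ (C.nsmul_sub_x₁ n z₁) (C.nsmul_sub_x₂ n z₂)
    (by rw [degree_nsmul_sub']; exact h₁) (by rw [degree_nsmul_sub']; exact h₂),
    degree_nsmul_sub', degree_nsmul_sub']

/-- (R2): `redSub L(mY) = NS(mY₁, mY₂)` in large degree -/
theorem ngoodAt_zero {m : ℕ} (hm₁ : 2 * (g₁ : ℤ) + D.s ≤ m * Divisor.degree Y₁)
    (hm₂ : 2 * (g₂ : ℤ) + D.s ≤ m * Divisor.degree Y₂) :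
    NGoodAt D Y Y₁ Y₂ g₁ g₂ m 0 0 0 := by
  refine ⟨fun c => rfl, fun c => rfl, by simp, by simpa using hm₁, by simpa using hm₂, ?_⟩
  rw [sub_zero, sub_zero, sub_zero]
  apply le_antisymm
  · rintro _ ⟨f, hfW, hfO, rfl⟩
    exact C.red_mem m f hfO hfW
  · intro φ hφ
    obtain ⟨f, hfO, hfW, rfl⟩ := C.lift m (by linarith) (by linarith) φ hφ
    exact ⟨f, hfW, hfO, rfl⟩

theorem redSub_nsmul_eq {m : ℕ} (hm₁ : 2 * (g₁ : ℤ) + D.s ≤ m * Divisor.degree Y₁)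
    (hm₂ : 2 * (g₂ : ℤ) + D.s ≤ m * Divisor.degree Y₂) :
    D.redSub (riemannRochSpace ((m : ℤ) • Y)) = NS D.x₁ D.x₂ ((m : ℤ) • Y₁) ((m : ℤ) • Y₂) := by
  have := (C.ngoodAt_zero hm₁ hm₂).2.2.2.2.2
  rwa [sub_zero, sub_zero, sub_zero] at this

end NCtx

/-- **Lemma A'** (additivity, by the nodal base-point-free pencil trick) -/
theorem NGoodAt.add (C : NCtx D Y Y₁ Y₂ g g₁ g₂) [Infinite k] {n n' : ℕ} {E E' : Divisor L F}
    {E₁ E₁' : Divisor k F₁} {E₂ E₂' : Divisor k F₂}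
    (h : NGoodAt D Y Y₁ Y₂ g₁ g₂ n E E₁ E₂) (h' : NGoodAt D Y Y₁ Y₂ g₁ g₂ n' E' E₁' E₂')
    (hbig₁ : 2 * (g₁ : ℤ) - 2 < (n' * Divisor.degree Y₁ - Divisor.degree E₁') -
      (n * Divisor.degree Y₁ - Divisor.degree E₁))
    (hbig₂ : 2 * (g₂ : ℤ) - 2 + D.s < (n' * Divisor.degree Y₂ - Divisor.degree E₂') -
      (n * Divisor.degree Y₂ - Divisor.degree E₂)) :
    NGoodAt D Y Y₁ Y₂ g₁ g₂ (n + n') (E + E') (E₁ + E₁') (E₂ + E₂') := by
  obtain ⟨z1, z2, hd, r1, r2, hJ⟩ := h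
  obtain ⟨z1', z2', hd', r1', r2', hJ'⟩ := h'
  have hs0 : (0 : ℤ) ≤ D.s := Int.natCast_nonneg _
  have hg := C.genus_eq'
  have hdY := C.deg_eq
  have z1'' : ∀ c, (E₁ + E₁') (D.x₁ c) = 0 := fun c => by rw [Finsupp.add_apply, z1, z1', add_zero]
  have z2'' : ∀ c, (E₂ + E₂') (D.x₂ c) = 0 := fun c => by rw [Finsupp.add_apply, z2, z2', add_zero]
  have hdiv₁ : ((n + n' : ℕ) : ℤ) • Y₁ - (E₁ + E₁')
      = ((n : ℤ) • Y₁ - E₁) + ((n' : ℤ) • Y₁ - E₁') := by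
    rw [Nat.cast_add, add_smul]; abel
  have hdiv₂ : ((n + n' : ℕ) : ℤ) • Y₂ - (E₂ + E₂')
      = ((n : ℤ) • Y₂ - E₂) + ((n' : ℤ) • Y₂ - E₂') := by
    rw [Nat.cast_add, add_smul]; abel
  have hdivL : ((n : ℤ) • Y - E) + ((n' : ℤ) • Y - E')
      = ((n + n' : ℕ) : ℤ) • Y - (E + E') := by
    rw [Nat.cast_add, add_smul]; abel
  refine ⟨z1'', z2'', by rw [map_add, map_add, map_add]; linarith, ?_, ?_, ?_⟩
  · rw [map_add]; push_cast; linarith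
  · rw [map_add]; push_cast; linarith
  -- inclusion
  have hle : NS D.x₁ D.x₂ (((n + n' : ℕ) : ℤ) • Y₁ - (E₁ + E₁'))
      (((n + n' : ℕ) : ℤ) • Y₂ - (E₂ + E₂')) ≤
      D.redSub (riemannRochSpace (((n + n' : ℕ) : ℤ) • Y - (E + E'))) := by
    intro φ hφ
    rw [hdiv₁, hdiv₂] at hφ
    obtain ⟨σ, hσ, τ, hτ, hσ1, hσ2, hτ1, hτ2, hst₁, hst₂⟩ :=
      exists_pair_complete C.curve₁ C.curve₂ C.x₁_inj C.x₂_inj ((n : ℤ) • Y₁ - E₁)
        ((n : ℤ) • Y₂ - E₂) (C.nsmul_sub_x₁ n z1) (C.nsmul_sub_x₂ n z2)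
        (by rw [degree_nsmul_sub']; exact r1) (by rw [degree_nsmul_sub']; exact r2)
    obtain ⟨a, ha, b, hb, rfl⟩ := pencil_span_eq C.curve₁ C.curve₂ C.x₂_inj
      (C.nsmul_sub_x₁ n z1) (C.nsmul_sub_x₂ n z2) (C.nsmul_sub_x₁ n' z1') (C.nsmul_sub_x₂ n' z2')
      hσ hτ hσ1 hσ2 hτ1 hτ2 hst₁ hst₂
      (by rw [degree_nsmul_sub', degree_nsmul_sub']; exact hbig₁)
      (by rw [degree_nsmul_sub', degree_nsmul_sub']; exact hbig₂) hφ
    rw [← hJ] at hσ hτ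
    rw [← hJ'] at ha hb
    exact Submodule.add_mem _ (mul_mem_redSub_rr hdivL hσ ha) (mul_mem_redSub_rr hdivL hτ hb)
  -- dimensions
  have := C.curve.finiteDimensional (((n + n' : ℕ) : ℤ) • Y - (E + E'))
  have := NodalDatum.finiteDimensional_redSub C.orth
    (riemannRochSpace (((n + n' : ℕ) : ℤ) • Y - (E + E')))
  symm
  apply Submodule.eq_of_le_of_finrank_eq hle
  have h1 := C.finrank_redSub_rr (n := n + n') (E := E + E')
    (by rw [map_add]; push_cast; rw [← hdY]; linarith)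
  have h2 := C.finrank_NS_k (n := n + n') z1'' z2''
    (by rw [map_add]; push_cast; linarith) (by rw [map_add]; push_cast; linarith)
  rw [map_add] at h1
  rw [map_add, map_add] at h2
  have h3 : (finrank k (NS D.x₁ D.x₂ (((n + n' : ℕ) : ℤ) • Y₁ - (E₁ + E₁'))
      (((n + n' : ℕ) : ℤ) • Y₂ - (E₂ + E₂'))) : ℤ) =
      finrank k (D.redSub (riemannRochSpace (((n + n' : ℕ) : ℤ) • Y - (E + E')))) := by
    rw [h1, h2, ← hdY]; push_cast; linarith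
  exact_mod_cast h3

end Fermat.Agent.S33lib.NRed
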