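/-
S33lib / NRed / Single  (helper6)

**Lemma P' (trichotomy).**  For every place `P` of `F` and `n` large, the reduction
`V = redSub L(nY - P)` (a hyperplane of `R_n = NS(nY₁, nY₂)`) is
* `NS(nY₁ - Q, nY₂)` for a smooth point `Q` of the first component, or
* `NS(nY₁, nY₂ - Q)` for a smooth point `Q` of the second component, or
* contained in the ideal of a node `c`: all its members vanish at `x₁ c` and `x₂ c`.

Nodal port of helper2's `S37lib/Red/Good.exists_goodAt_single`.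
-/
import Fermat.Agent.S33lib.NRed.Good

set_option autoImplicit false

noncomputable section

namespace Fermat.Agent.S33lib.NRed

open AlgebraicCurve Module
open Fermat.Agent.S18lib Fermat.Agent.LSb Fermat.Agent.LSb.Core Fermat.Agent.S37lib

/-- sections of `L(E - x)` vanish at `x` when `E x = 0` -/
theorem valAt_eq_zero_of_mem_sub_single {K F : Type*} [Field K] [Field F] [Algebra K F]
    {E : Divisor K F} {x : Place K F} (hx : x.deg = 1) (hE : E x = 0) {φ : F}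
    (hφ : φ ∈ riemannRochSpace (E - Finsupp.single x 1)) : valAt x φ = 0 := by
  classical
  have hv : VanishAt x φ := by
    rw [vanishAt_iff]
    rcases (mem_riemannRochSpace_iff.1 hφ x) with h | h
    · exact Or.inl h
    · right
      rw [Finsupp.sub_apply, Finsupp.single_apply, if_pos rfl, hE] at h
      omega
  exact (valAt_eq_zero_iff x hx hv.mem).2 hv

variable {L : Type*} [Field L] {A : ValuationSubring L}
variable {F : Type*} [Field F] [Algebra L F]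
variable {F₁ F₂ : Type*} [Field F₁] [Field F₂]
variable [Algebra (IsLocalRing.ResidueField A) F₁] [Algebra (IsLocalRing.ResidueField A) F₂]

local notation "k" => IsLocalRing.ResidueField A

variable {D : NodalDatum A F F₁ F₂} {Y : Divisor L F}
  {Y₁ : Divisor (IsLocalRing.ResidueField A) F₁} {Y₂ : Divisor (IsLocalRing.ResidueField A) F₂}
  {g g₁ g₂ : ℕ}

/-- `P` reduces to the node `c` at level `n`: every section of `redSub L(nY - P)` vanishes at the
node `c` -/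
def NodeRedAt (D : NodalDatum A F F₁ F₂) (Y : Divisor L F) (n : ℕ) (P : Place L F)
    (c : Fin D.s) : Prop :=
  ∀ φ ∈ D.redSub (riemannRochSpace ((n : ℤ) • Y - Finsupp.single P 1)),
    valAt (D.x₁ c) φ.1 = 0 ∧ valAt (D.x₂ c) φ.2 = 0

omit [Algebra (IsLocalRing.ResidueField A) F₁] [Algebra (IsLocalRing.ResidueField A) F₂] in
theorem single_one_nonneg' {K' F' : Type*} [Field K'] [Field F'] [Algebra K' F']
    (P : Place K' F') : (0 : Divisor K' F') ≤ Finsupp.single P (1 : ℤ) := by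
  classical
  rw [Finsupp.le_def]
  intro v
  rw [Finsupp.zero_apply, Finsupp.single_apply]
  split_ifs <;> simp

/-- the key claim: a hyperplane of `R_n` of the form `redSub L(nY - P)` has a base point -/
theorem exists_base_point (C : NCtx D Y Y₁ Y₂ g g₁ g₂) [Infinite k] {n : ℕ}
    (hn₁ : 2 * (g₁ : ℤ) + D.s + 1 ≤ n * Divisor.degree Y₁)
    (hn₂ : 2 * (g₂ : ℤ) + D.s + 1 ≤ n * Divisor.degree Y₂) (P : Place L F) :
    (∃ Q : Place k F₁, D.redSub (riemannRochSpace ((n : ℤ) • Y - Finsupp.single P 1)) ≤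
        NS D.x₁ D.x₂ ((n : ℤ) • Y₁ - Finsupp.single Q 1) ((n : ℤ) • Y₂)) ∨
    (∃ Q : Place k F₂, D.redSub (riemannRochSpace ((n : ℤ) • Y - Finsupp.single P 1)) ≤
        NS D.x₁ D.x₂ ((n : ℤ) • Y₁) ((n : ℤ) • Y₂ - Finsupp.single Q 1)) := by
  classical
  have hs0 : (0 : ℤ) ≤ D.s := Int.natCast_nonneg _
  have hg := C.genus_eq'
  have hdY := C.deg_eq
  have hδ₁ := C.deg_pos₁
  have hδ₂ := C.deg_pos₂
  have hP1 : Divisor.degree (Finsupp.single P (1 : ℤ)) = 1 := Curve.degree_single_one C.curve P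
  set V := D.redSub (riemannRochSpace ((n : ℤ) • Y - Finsupp.single P 1)) with hV
  have hVle : V ≤ NS D.x₁ D.x₂ ((n : ℤ) • Y₁) ((n : ℤ) • Y₂) := by
    rw [← C.redSub_nsmul_eq (m := n) (by linarith) (by linarith)]
    exact NodalDatum.redSub_mono (riemannRochSpace_mono (sub_le_self _ (single_one_nonneg' P)))
  by_contra hcon
  push Not at hcon
  obtain ⟨hb₁, hb₂⟩ := hcon
  obtain ⟨σ, hσ, τ, hτ, hσ1, hσ2, hτ1, hτ2, hst₁, hst₂⟩ :=
    exists_pair_no_common_zero C.curve₁ C.curve₂ V hVle hb₁ hb₂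
  obtain ⟨m, hm⟩ : ∃ m : ℕ, m = n + (2 * g₁ + 2 * g₂ + D.s) := ⟨_, rfl⟩
  have hmZ : (m : ℤ) = n + (2 * g₁ + 2 * g₂ + D.s) := by rw [hm]; push_cast; ring
  have hgap₁ : (2 * (g₁ : ℤ) + 2 * g₂ + D.s) ≤ (2 * (g₁ : ℤ) + 2 * g₂ + D.s) * Divisor.degree Y₁ := by
    nlinarith
  have hgap₂ : (2 * (g₁ : ℤ) + 2 * g₂ + D.s) ≤ (2 * (g₁ : ℤ) + 2 * g₂ + D.s) * Divisor.degree Y₂ := by
    nlinarith
  have hm₁ : 2 * (g₁ : ℤ) + D.s ≤ m * Divisor.degree Y₁ := by rw [hmZ]; nlinarith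
  have hm₂ : 2 * (g₂ : ℤ) + D.s ≤ m * Divisor.degree Y₂ := by rw [hmZ]; nlinarith
  have h0m := C.redSub_nsmul_eq hm₁ hm₂
  have z₁ : ∀ (j : ℕ) (c : Fin D.s), ((j : ℤ) • Y₁ : Divisor k F₁) (D.x₁ c) = 0 := fun j c => by
    rw [Finsupp.smul_apply, C.Y₁_x₁, smul_zero]
  have z₂ : ∀ (j : ℕ) (c : Fin D.s), ((j : ℤ) • Y₂ : Divisor k F₂) (D.x₂ c) = 0 := fun j c => by
    rw [Finsupp.smul_apply, C.Y₂_x₂, smul_zero]
  have hle : NS D.x₁ D.x₂ (((n + m : ℕ) : ℤ) • Y₁) (((n + m : ℕ) : ℤ) • Y₂) ≤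
      D.redSub (riemannRochSpace (((n + m : ℕ) : ℤ) • Y - Finsupp.single P 1)) := by
    intro φ hφ
    have hφ' : φ ∈ NS D.x₁ D.x₂ ((n : ℤ) • Y₁ + (m : ℤ) • Y₁) ((n : ℤ) • Y₂ + (m : ℤ) • Y₂) := by
      rwa [Nat.cast_add, add_smul, add_smul] at hφ
    obtain ⟨a, ha, b, hb, rfl⟩ := pencil_span_eq C.curve₁ C.curve₂ C.x₂_inj
      (z₁ n) (z₂ n) (z₁ m) (z₂ m) (hVle hσ) (hVle hτ) hσ1 hσ2 hτ1 hτ2 hst₁ hst₂
      (by
        rw [map_zsmul, map_zsmul, smul_eq_mul, smul_eq_mul, hmZ]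
        nlinarith)
      (by
        rw [map_zsmul, map_zsmul, smul_eq_mul, smul_eq_mul, hmZ]
        nlinarith) hφ'
    rw [← h0m] at ha hb
    have hdiv : ((n : ℤ) • Y - Finsupp.single P 1) + (m : ℤ) • Y
        = ((n + m : ℕ) : ℤ) • Y - Finsupp.single P 1 := by
      rw [Nat.cast_add, add_smul]; abel
    exact Submodule.add_mem _ (mul_mem_redSub_rr hdiv hσ ha) (mul_mem_redSub_rr hdiv hτ hb)
  have := C.curve.finiteDimensional (((n + m : ℕ) : ℤ) • Y - Finsupp.single P 1)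
  have := NodalDatum.finiteDimensional_redSub C.orth
    (riemannRochSpace (((n + m : ℕ) : ℤ) • Y - Finsupp.single P 1))
  have hmono := Submodule.finrank_mono hle
  have hnm₁ : (0 : ℤ) ≤ m * Divisor.degree Y₁ := by linarith
  have hnm₂ : (0 : ℤ) ≤ m * Divisor.degree Y₂ := by linarith
  have h1 := C.finrank_redSub_rr (n := n + m) (E := Finsupp.single P 1)
    (by rw [hP1, ← hdY]; push_cast; linarith)
  have h2 := C.finrank_NS_k (n := n + m) (E₁ := 0) (E₂ := 0) (fun _ => rfl) (fun _ => rfl)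
    (by rw [map_zero]; push_cast; linarith) (by rw [map_zero]; push_cast; linarith)
  rw [sub_zero, sub_zero, map_zero, map_zero] at h2
  rw [hP1] at h1
  have h3 : (finrank k (NS D.x₁ D.x₂ (((n + m : ℕ) : ℤ) • Y₁) (((n + m : ℕ) : ℤ) • Y₂)) : ℤ) ≤
      finrank k (D.redSub (riemannRochSpace (((n + m : ℕ) : ℤ) • Y - Finsupp.single P 1))) := by
    exact_mod_cast hmono
  rw [h1, h2, ← hdY] at h3
  push_cast at h3
  linarith

/-- **Lemma P'**: the trichotomy for the reduction of a point -/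
theorem exists_red_single (C : NCtx D Y Y₁ Y₂ g g₁ g₂) [Infinite k] {n : ℕ}
    (hn₁ : 2 * (g₁ : ℤ) + D.s + 1 ≤ n * Divisor.degree Y₁)
    (hn₂ : 2 * (g₂ : ℤ) + D.s + 1 ≤ n * Divisor.degree Y₂) (P : Place L F) :
    (∃ Q : Place k F₁, (∀ c, D.x₁ c ≠ Q) ∧
      NGoodAt D Y Y₁ Y₂ g₁ g₂ n (Finsupp.single P 1) (Finsupp.single Q 1) 0) ∨
    (∃ Q : Place k F₂, (∀ c, D.x₂ c ≠ Q) ∧
      NGoodAt D Y Y₁ Y₂ g₁ g₂ n (Finsupp.single P 1) 0 (Finsupp.single Q 1)) ∨
    (∃ c, NodeRedAt D Y n P c) := by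
  classical
  have hs0 : (0 : ℤ) ≤ D.s := Int.natCast_nonneg _
  have hg := C.genus_eq'
  have hdY := C.deg_eq
  have hP1 : Divisor.degree (Finsupp.single P (1 : ℤ)) = 1 := Curve.degree_single_one C.curve P
  have hVdim : (finrank k (D.redSub (riemannRochSpace ((n : ℤ) • Y - Finsupp.single P 1))) : ℤ)
      = n * Divisor.degree Y - g := by
    have := C.finrank_redSub_rr (n := n) (E := Finsupp.single P 1)
      (by rw [hP1, ← hdY]; linarith)
    rw [this, hP1]; ring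
  have := C.curve.finiteDimensional ((n : ℤ) • Y - Finsupp.single P 1)
  have hfdV := NodalDatum.finiteDimensional_redSub C.orth
    (riemannRochSpace ((n : ℤ) • Y - Finsupp.single P 1))
  have glue : ∀ φ ∈ D.redSub (riemannRochSpace ((n : ℤ) • Y - Finsupp.single P 1)), ∀ c,
      valAt (D.x₂ c) φ.2 = valAt (D.x₁ c) φ.1 := by
    intro φ hφ c
    have hφ' : φ ∈ NS D.x₁ D.x₂ ((n : ℤ) • Y₁) ((n : ℤ) • Y₂) := by
      rw [← C.redSub_nsmul_eq (m := n) (by linarith) (by linarith)]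
      exact NodalDatum.redSub_mono
        (riemannRochSpace_mono (sub_le_self _ (single_one_nonneg' P))) hφ
    have := ((gluedAt_iff C.curve₁.deg_eq_one C.curve₂.deg_eq_one c _ φ).1 (hφ'.2.2 c)).2.2
    rwa [one_mul] at this
  have zY₁ : ∀ c, ((n : ℤ) • Y₁ : Divisor k F₁) (D.x₁ c) = 0 := fun c => by
    rw [Finsupp.smul_apply, C.Y₁_x₁, smul_zero]
  have zY₂ : ∀ c, ((n : ℤ) • Y₂ : Divisor k F₂) (D.x₂ c) = 0 := fun c => by
    rw [Finsupp.smul_apply, C.Y₂_x₂, smul_zero]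
  rcases exists_base_point C hn₁ hn₂ P with ⟨Q, hQ⟩ | ⟨Q, hQ⟩
  · by_cases hnode : ∃ c, D.x₁ c = Q
    · obtain ⟨c, rfl⟩ := hnode
      refine Or.inr (Or.inr ⟨c, fun φ hφ => ?_⟩)
      have h1 : valAt (D.x₁ c) φ.1 = 0 :=
        valAt_eq_zero_of_mem_sub_single (C.curve₁.deg_eq_one _) (zY₁ c) (hQ hφ).1
      exact ⟨h1, by rw [glue φ hφ c, h1]⟩
    · push Not at hnode
      have hQ1 : Divisor.degree (Finsupp.single Q (1 : ℤ)) = 1 :=
        Curve.degree_single_one C.curve₁ Q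
      have zQ : ∀ c, (Finsupp.single Q (1 : ℤ)) (D.x₁ c) = 0 := fun c => by
        rw [Finsupp.single_apply, if_neg (Ne.symm (hnode c))]
      refine Or.inl ⟨Q, hnode, zQ, fun _ => rfl, by rw [hP1, hQ1, map_zero, add_zero],
        by rw [hQ1]; linarith, by rw [map_zero]; linarith, ?_⟩
      rw [sub_zero]
      have := finiteDimensional_nodalSpace (x₁ := D.x₁) (x₂ := D.x₂) C.curve₁ C.curve₂
        (fun _ => 1) ((n : ℤ) • Y₁ - Finsupp.single Q 1) ((n : ℤ) • Y₂)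
      apply Submodule.eq_of_le_of_finrank_eq hQ
      have h2 := C.finrank_NS_k (n := n) (E₁ := Finsupp.single Q 1) (E₂ := 0) zQ (fun _ => rfl)
        (by rw [hQ1]; linarith) (by rw [map_zero]; linarith)
      rw [hQ1, map_zero, sub_zero] at h2
      have h3 : (finrank k (D.redSub (riemannRochSpace ((n : ℤ) • Y - Finsupp.single P 1))) : ℤ) =
          finrank k (NS D.x₁ D.x₂ ((n : ℤ) • Y₁ - Finsupp.single Q 1) ((n : ℤ) • Y₂)) := by
        rw [hVdim, h2, ← hdY]; linarith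
      exact_mod_cast h3
  · by_cases hnode : ∃ c, D.x₂ c = Q
    · obtain ⟨c, rfl⟩ := hnode
      refine Or.inr (Or.inr ⟨c, fun φ hφ => ?_⟩)
      have h2 : valAt (D.x₂ c) φ.2 = 0 :=
        valAt_eq_zero_of_mem_sub_single (C.curve₂.deg_eq_one _) (zY₂ c) (hQ hφ).2.1
      exact ⟨by rw [← glue φ hφ c, h2], h2⟩
    · push Not at hnode
      have hQ1 : Divisor.degree (Finsupp.single Q (1 : ℤ)) = 1 :=
        Curve.degree_single_one C.curve₂ Q
      have zQ : ∀ c, (Finsupp.single Q (1 : ℤ)) (D.x₂ c) = 0 := fun c => by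
        rw [Finsupp.single_apply, if_neg (Ne.symm (hnode c))]
      refine Or.inr (Or.inl ⟨Q, hnode, fun _ => rfl, zQ, by rw [hP1, hQ1, map_zero, zero_add],
        by rw [map_zero]; linarith, by rw [hQ1]; linarith, ?_⟩)
      rw [sub_zero]
      have := finiteDimensional_nodalSpace (x₁ := D.x₁) (x₂ := D.x₂) C.curve₁ C.curve₂
        (fun _ => 1) ((n : ℤ) • Y₁) ((n : ℤ) • Y₂ - Finsupp.single Q 1)
      apply Submodule.eq_of_le_of_finrank_eq hQ
      have h2 := C.finrank_NS_k (n := n) (E₁ := 0) (E₂ := Finsupp.single Q 1) (fun _ => rfl) zQ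
        (by rw [map_zero]; linarith) (by rw [hQ1]; linarith)
      rw [hQ1, map_zero, sub_zero] at h2
      have h3 : (finrank k (D.redSub (riemannRochSpace ((n : ℤ) • Y - Finsupp.single P 1))) : ℤ) =
          finrank k (NS D.x₁ D.x₂ ((n : ℤ) • Y₁) ((n : ℤ) • Y₂ - Finsupp.single Q 1)) := by
        rw [hVdim, h2, ← hdY]; linarith
      exact_mod_cast h3

end Fermat.Agent.S33lib.NRed
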