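/-
S33lib / NRed / PlaceMap  (helper6)

`NGood E E₁ E₂` : `NGoodAt n E E₁ E₂` for all large `n`.  The reduction of POINTS on the nodal model:

* `RedTo P q`   : the place `P` of `F` reduces to the SMOOTH point `q` of the special fibre
                  (`q : Place k F₁ ⊕ Place k F₂`, not a node point);
* `SmoothRed P` : `P` reduces to some smooth point;  otherwise `P` reduces to a node
                  (`exists_nodeRedAt`);
* `push E`      : the push-forward `r_* E ∈ Div F₁ × Div F₂` (points which reduce to a node are dropped);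
* `ngood_push`  : `redSub L(nY - E) = NS(nY - r_* E)` for `E ≥ 0` supported on the smooth locus.

Nodal port of helper2's `S37lib/Red/PlaceMap`.
-/
import Fermat.Agent.S33lib.NRed.Single

set_option autoImplicit false

noncomputable section

namespace Fermat.Agent.S33lib.NRed

open AlgebraicCurve Module
open Fermat.Agent.S18lib Fermat.Agent.LSb Fermat.Agent.LSb.Core Fermat.Agent.S37lib

variable {L : Type*} [Field L] {A : ValuationSubring L}
variable {F : Type*} [Field F] [Algebra L F]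
variable {F₁ F₂ : Type*} [Field F₁] [Field F₂]
variable [Algebra (IsLocalRing.ResidueField A) F₁] [Algebra (IsLocalRing.ResidueField A) F₂]

local notation "k" => IsLocalRing.ResidueField A

/-- `NGoodAt n E E₁ E₂` for all large `n` -/
def NGood (D : NodalDatum A F F₁ F₂) (Y : Divisor L F) (Y₁ : Divisor k F₁)
    (Y₂ : Divisor k F₂) (g₁ g₂ : ℕ) (E : Divisor L F) (E₁ : Divisor k F₁)
    (E₂ : Divisor k F₂) : Prop :=
  ∃ n₀ : ℕ, ∀ n, n₀ ≤ n → NGoodAt D Y Y₁ Y₂ g₁ g₂ n E E₁ E₂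

variable {D : NodalDatum A F F₁ F₂} {Y : Divisor L F}
  {Y₁ : Divisor (IsLocalRing.ResidueField A) F₁} {Y₂ : Divisor (IsLocalRing.ResidueField A) F₂}
  {g g₁ g₂ : ℕ}

theorem NCtx.le_mul_deg₁ (C : NCtx D Y Y₁ Y₂ g g₁ g₂) (n : ℕ) :
    (n : ℤ) ≤ n * Divisor.degree Y₁ := by
  have h2 := C.deg_pos₁
  have h3 : (0 : ℤ) ≤ n * (Divisor.degree Y₁ - 1) := mul_nonneg (by positivity) (by linarith)
  nlinarith

theorem NCtx.le_mul_deg₂ (C : NCtx D Y Y₁ Y₂ g g₁ g₂) (n : ℕ) :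
    (n : ℤ) ≤ n * Divisor.degree Y₂ := by
  have h2 := C.deg_pos₂
  have h3 : (0 : ℤ) ≤ n * (Divisor.degree Y₂ - 1) := mul_nonneg (by positivity) (by linarith)
  nlinarith

theorem ngood_zero (C : NCtx D Y Y₁ Y₂ g g₁ g₂) : NGood D Y Y₁ Y₂ g₁ g₂ 0 0 0 := by
  refine ⟨2 * g₁ + 2 * g₂ + D.s, fun n hn => C.ngoodAt_zero ?_ ?_⟩
  · have h1 : ((2 * g₁ + 2 * g₂ + D.s : ℕ) : ℤ) ≤ n := by exact_mod_cast hn
    have := C.le_mul_deg₁ n
    push_cast at h1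
    linarith
  · have h1 : ((2 * g₁ + 2 * g₂ + D.s : ℕ) : ℤ) ≤ n := by exact_mod_cast hn
    have := C.le_mul_deg₂ n
    push_cast at h1
    linarith

theorem ngood_add_of_ngoodAt (C : NCtx D Y Y₁ Y₂ g g₁ g₂) [Infinite k] {n : ℕ}
    {E E' : Divisor L F} {E₁ E₁' : Divisor k F₁} {E₂ E₂' : Divisor k F₂}
    (h : NGoodAt D Y Y₁ Y₂ g₁ g₂ n E E₁ E₂) (h' : NGood D Y Y₁ Y₂ g₁ g₂ E' E₁' E₂') :
    NGood D Y Y₁ Y₂ g₁ g₂ (E + E') (E₁ + E₁') (E₂ + E₂') := by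
  obtain ⟨n₀', hn₀'⟩ := h'
  obtain ⟨B₁, hB₁⟩ : ∃ B : ℕ, B = (2 * (g₁ : ℤ) - 1 + Divisor.degree E₁' +
      (n * Divisor.degree Y₁ - Divisor.degree E₁)).toNat := ⟨_, rfl⟩
  obtain ⟨B₂, hB₂⟩ : ∃ B : ℕ, B = (2 * (g₂ : ℤ) - 1 + D.s + Divisor.degree E₂' +
      (n * Divisor.degree Y₂ - Divisor.degree E₂)).toNat := ⟨_, rfl⟩
  refine ⟨n + max n₀' (max B₁ B₂), fun N hN => ?_⟩
  obtain ⟨n', rfl⟩ := Nat.exists_eq_add_of_le (le_trans (Nat.le_add_right _ _) hN)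
  have hn' : max n₀' (max B₁ B₂) ≤ n' := by omega
  have hn'0 : n₀' ≤ n' := le_trans (le_max_left _ _) hn'
  have hn'1 : B₁ ≤ n' := le_trans (le_trans (le_max_left _ _) (le_max_right _ _)) hn'
  have hn'2 : B₂ ≤ n' := le_trans (le_trans (le_max_right _ _) (le_max_right _ _)) hn'
  apply NGoodAt.add C h (hn₀' n' hn'0)
  · have hB' : (B₁ : ℤ) ≤ n' := by exact_mod_cast hn'1
    have h1 := Int.self_le_toNat (2 * (g₁ : ℤ) - 1 + Divisor.degree E₁' +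
      (n * Divisor.degree Y₁ - Divisor.degree E₁))
    rw [← hB₁] at h1
    have := C.le_mul_deg₁ n'
    linarith
  · have hB' : (B₂ : ℤ) ≤ n' := by exact_mod_cast hn'2
    have h1 := Int.self_le_toNat (2 * (g₂ : ℤ) - 1 + D.s + Divisor.degree E₂' +
      (n * Divisor.degree Y₂ - Divisor.degree E₂))
    rw [← hB₂] at h1
    have := C.le_mul_deg₂ n'
    linarith

theorem NGood.add (C : NCtx D Y Y₁ Y₂ g g₁ g₂) [Infinite k] {E E' : Divisor L F}
    {E₁ E₁' : Divisor k F₁} {E₂ E₂' : Divisor k F₂}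
    (h : NGood D Y Y₁ Y₂ g₁ g₂ E E₁ E₂) (h' : NGood D Y Y₁ Y₂ g₁ g₂ E' E₁' E₂') :
    NGood D Y Y₁ Y₂ g₁ g₂ (E + E') (E₁ + E₁') (E₂ + E₂') := by
  obtain ⟨n₀, hn₀⟩ := h
  exact ngood_add_of_ngoodAt C (hn₀ n₀ le_rfl) h'

theorem ngood_of_ngoodAt (C : NCtx D Y Y₁ Y₂ g g₁ g₂) [Infinite k] {n : ℕ} {E : Divisor L F}
    {E₁ : Divisor k F₁} {E₂ : Divisor k F₂} (h : NGoodAt D Y Y₁ Y₂ g₁ g₂ n E E₁ E₂) :
    NGood D Y Y₁ Y₂ g₁ g₂ E E₁ E₂ := by
  have := ngood_add_of_ngoodAt C h (ngood_zero C)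
  rwa [add_zero, add_zero, add_zero] at this

/-- two `NGood` statements hold simultaneously at a large level `n` (with `n ≥ N`) -/
theorem NGood.exists_common {E E' : Divisor L F} {E₁ E₁' : Divisor k F₁} {E₂ E₂' : Divisor k F₂}
    (h : NGood D Y Y₁ Y₂ g₁ g₂ E E₁ E₂) (h' : NGood D Y Y₁ Y₂ g₁ g₂ E' E₁' E₂') (N : ℕ) :
    ∃ n, N ≤ n ∧ NGoodAt D Y Y₁ Y₂ g₁ g₂ n E E₁ E₂ ∧ NGoodAt D Y Y₁ Y₂ g₁ g₂ n E' E₁' E₂' := by
  obtain ⟨n₀, hn₀⟩ := h
  obtain ⟨n₀', hn₀'⟩ := h'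
  exact ⟨max N (max n₀ n₀'), le_max_left _ _,
    hn₀ _ (le_trans (le_max_left _ _) (le_max_right _ _)),
    hn₀' _ (le_trans (le_max_right _ _) (le_max_right _ _))⟩

/-! ### smooth points of the special fibre -/

/-- the divisor (pair) of a point of one of the two components -/
def ptDiv : Place k F₁ ⊕ Place k F₂ → Divisor k F₁ × Divisor k F₂
  | Sum.inl Q => (Finsupp.single Q 1, 0)
  | Sum.inr Q => (0, Finsupp.single Q 1)

/-- the point is not a node point -/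
def IsSmoothPt (D : NodalDatum A F F₁ F₂) : Place k F₁ ⊕ Place k F₂ → Prop
  | Sum.inl Q => ∀ c, D.x₁ c ≠ Q
  | Sum.inr Q => ∀ c, D.x₂ c ≠ Q

/-- the place `P` reduces to the smooth point `q` of the special fibre -/
def RedTo (D : NodalDatum A F F₁ F₂) (Y : Divisor L F) (Y₁ : Divisor k F₁)
    (Y₂ : Divisor k F₂) (g₁ g₂ : ℕ) (P : Place L F) (q : Place k F₁ ⊕ Place k F₂) : Prop :=
  IsSmoothPt D q ∧ NGood D Y Y₁ Y₂ g₁ g₂ (Finsupp.single P 1) (ptDiv q).1 (ptDiv q).2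

/-- the place `P` reduces to a smooth point of the special fibre -/
def SmoothRed (D : NodalDatum A F F₁ F₂) (Y : Divisor L F) (Y₁ : Divisor k F₁)
    (Y₂ : Divisor k F₂) (g₁ g₂ : ℕ) (P : Place L F) : Prop :=
  ∃ q, RedTo D Y Y₁ Y₂ g₁ g₂ P q

/-- **trichotomy, final form**: a place which does not reduce to a smooth point reduces to a node
at every large level -/
theorem exists_nodeRedAt (C : NCtx D Y Y₁ Y₂ g g₁ g₂) [Infinite k] {P : Place L F}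
    (hP : ¬ SmoothRed D Y Y₁ Y₂ g₁ g₂ P) {n : ℕ}
    (hn₁ : 2 * (g₁ : ℤ) + D.s + 1 ≤ n * Divisor.degree Y₁)
    (hn₂ : 2 * (g₂ : ℤ) + D.s + 1 ≤ n * Divisor.degree Y₂) : ∃ c, NodeRedAt D Y n P c := by
  rcases exists_red_single C hn₁ hn₂ P with ⟨Q, hQ, h⟩ | ⟨Q, hQ, h⟩ | h
  · exact absurd ⟨Sum.inl Q, hQ, ngood_of_ngoodAt C h⟩ hP
  · exact absurd ⟨Sum.inr Q, hQ, ngood_of_ngoodAt C h⟩ hP
  · exact h

/-- the level from which on the trichotomy applies -/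
theorem NCtx.exists_level (C : NCtx D Y Y₁ Y₂ g g₁ g₂) :
    ∃ N : ℕ, ∀ n, N ≤ n → 2 * (g₁ : ℤ) + D.s + 1 ≤ n * Divisor.degree Y₁ ∧
      2 * (g₂ : ℤ) + D.s + 1 ≤ n * Divisor.degree Y₂ := by
  refine ⟨2 * g₁ + 2 * g₂ + D.s + 1, fun n hn => ?_⟩
  have h1 : ((2 * g₁ + 2 * g₂ + D.s + 1 : ℕ) : ℤ) ≤ n := by exact_mod_cast hn
  have := C.le_mul_deg₁ n
  have := C.le_mul_deg₂ n
  push_cast at h1
  constructor <;> linarith

/-! ### the push-forward of divisors -/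

/-- the reduction of a point, as a divisor on the special fibre (`0` if `P` reduces to a node) -/
def pushPt (D : NodalDatum A F F₁ F₂) (Y : Divisor L F) (Y₁ : Divisor k F₁)
    (Y₂ : Divisor k F₂) (g₁ g₂ : ℕ) (P : Place L F) : Divisor k F₁ × Divisor k F₂ :=
  letI := Classical.propDecidable
  if h : SmoothRed D Y Y₁ Y₂ g₁ g₂ P then ptDiv h.choose else 0

/-- the push-forward `r_* E` -/
def push (D : NodalDatum A F F₁ F₂) (Y : Divisor L F) (Y₁ : Divisor k F₁)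
    (Y₂ : Divisor k F₂) (g₁ g₂ : ℕ) (E : Divisor L F) : Divisor k F₁ × Divisor k F₂ :=
  E.sum fun P n => n • pushPt D Y Y₁ Y₂ g₁ g₂ P

theorem push_zero : push D Y Y₁ Y₂ g₁ g₂ 0 = 0 := Finsupp.sum_zero_index

theorem push_add (E E' : Divisor L F) :
    push D Y Y₁ Y₂ g₁ g₂ (E + E') = push D Y Y₁ Y₂ g₁ g₂ E + push D Y Y₁ Y₂ g₁ g₂ E' :=
  Finsupp.sum_add_index' (fun _ => zero_smul _ _) (fun _ _ _ => add_smul _ _ _)

theorem push_single (P : Place L F) (n : ℤ) :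
    push D Y Y₁ Y₂ g₁ g₂ (Finsupp.single P n) = n • pushPt D Y Y₁ Y₂ g₁ g₂ P :=
  Finsupp.sum_single_index (zero_smul _ _)

theorem push_neg (E : Divisor L F) :
    push D Y Y₁ Y₂ g₁ g₂ (-E) = -push D Y Y₁ Y₂ g₁ g₂ E := by
  have := push_add (D := D) (Y := Y) (Y₁ := Y₁) (Y₂ := Y₂) (g₁ := g₁) (g₂ := g₂) E (-E)
  rw [add_neg_cancel, push_zero] at this
  exact (neg_eq_of_add_eq_zero_right this.symm).symm

theorem push_sub (E E' : Divisor L F) :
    push D Y Y₁ Y₂ g₁ g₂ (E - E') = push D Y Y₁ Y₂ g₁ g₂ E - push D Y Y₁ Y₂ g₁ g₂ E' := by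
  rw [sub_eq_add_neg, push_add, push_neg, sub_eq_add_neg]

theorem ngood_pushPt {P : Place L F} (hP : SmoothRed D Y Y₁ Y₂ g₁ g₂ P) :
    NGood D Y Y₁ Y₂ g₁ g₂ (Finsupp.single P 1) (pushPt D Y Y₁ Y₂ g₁ g₂ P).1
      (pushPt D Y Y₁ Y₂ g₁ g₂ P).2 := by
  rw [pushPt, dif_pos hP]
  exact hP.choose_spec.2

theorem ngood_single_nat (C : NCtx D Y Y₁ Y₂ g g₁ g₂) [Infinite k] {P : Place L F}
    (hP : SmoothRed D Y Y₁ Y₂ g₁ g₂ P) (m : ℕ) :
    NGood D Y Y₁ Y₂ g₁ g₂ (Finsupp.single P (m : ℤ)) ((m : ℤ) • pushPt D Y Y₁ Y₂ g₁ g₂ P).1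
      ((m : ℤ) • pushPt D Y Y₁ Y₂ g₁ g₂ P).2 := by
  induction m with
  | zero => simpa using ngood_zero C
  | succ m ih =>
    rw [Nat.cast_succ, Finsupp.single_add, add_smul, one_smul]
    exact ih.add C (ngood_pushPt hP)

/-- **reduction of effective divisors supported on the smooth locus**:
`redSub L(nY - E) = NS(nY - r_* E)` for `n` large -/
theorem ngood_push (C : NCtx D Y Y₁ Y₂ g g₁ g₂) [Infinite k] (E : Divisor L F) (hE : 0 ≤ E)
    (hsm : ∀ P, E P ≠ 0 → SmoothRed D Y Y₁ Y₂ g₁ g₂ P) :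
    NGood D Y Y₁ Y₂ g₁ g₂ E (push D Y Y₁ Y₂ g₁ g₂ E).1 (push D Y Y₁ Y₂ g₁ g₂ E).2 := by
  classical
  induction E using Finsupp.induction with
  | zero => simpa [push_zero] using ngood_zero C
  | single_add P b f hP hb ih =>
    have hfP : f P = 0 := Finsupp.notMem_support_iff.1 hP
    have hb0 : 0 ≤ b := by
      have := Finsupp.le_def.1 hE P
      rwa [Finsupp.zero_apply, Finsupp.add_apply, Finsupp.single_eq_same, hfP, add_zero] at this
    have hf0 : 0 ≤ f := by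
      rw [Finsupp.le_def]
      intro v
      by_cases hv : v = P
      · subst hv; rw [hfP]; simp
      · have := Finsupp.le_def.1 hE v
        rwa [Finsupp.zero_apply, Finsupp.add_apply, Finsupp.single_apply, if_neg (Ne.symm hv),
          zero_add] at this
    have hPsm : SmoothRed D Y Y₁ Y₂ g₁ g₂ P := hsm P (by
      rw [Finsupp.add_apply, Finsupp.single_eq_same, hfP, add_zero]; exact hb)
    have hfsm : ∀ v, f v ≠ 0 → SmoothRed D Y Y₁ Y₂ g₁ g₂ v := fun v hv => hsm v (by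
      have hvP : v ≠ P := by rintro rfl; exact hv hfP
      rwa [Finsupp.add_apply, Finsupp.single_apply, if_neg (Ne.symm hvP), zero_add])
    obtain ⟨m, rfl⟩ := Int.eq_ofNat_of_zero_le hb0
    rw [push_add, push_single]
    exact (ngood_single_nat C hPsm m).add C (ih hf0 hfsm)

end Fermat.Agent.S33lib.NRed
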