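/-
S33lib / NRed / Main  (helper6)

Consequences of `NGoodAt` for individual functions:

* `redF_mem_NS`        : **(RED)** `f ∈ L(E⁺ - E⁻) ∩ O ⟹ red f ∈ NS(Ē⁺ - Ē⁻)` when `E⁺, E⁻` are good at
                         a common level (pole/zero bounds via sections of exact order, gluing via a
                         section with value `1` at the nodes);
* `redF_mem_NS_push`   : the same for an arbitrary divisor supported on the smooth locus;
* `exists_node_zero`   : **(c′)** if `f ∈ L(E - P) ∩ O`, `E` good, and `P` reduces to a node, then `red f`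
                         vanishes at some node; hence `smoothRed_of_unit`.
-/
import Fermat.Agent.S33lib.NRed.PlaceMap

set_option autoImplicit false

noncomputable section

namespace Fermat.Agent.S33lib.NRed

open AlgebraicCurve Module
open Fermat.Agent.S18lib Fermat.Agent.LSb Fermat.Agent.LSb.Core Fermat.Agent.S37lib

variable {L : Type*} [Field L] {A : ValuationSubring L}
variable {F : Type*} [Field F] [Algebra L F]
variable {F₁ F₂ : Type*} [Field F₁] [Field F₂]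
variable [Algebra (IsLocalRing.ResidueField A) F₁] [Algebra (IsLocalRing.ResidueField A) F₂]

local notation "k" => IsLocalRing.ResidueField A

variable {D : NodalDatum A F F₁ F₂} {Y : Divisor L F}
  {Y₁ : Divisor (IsLocalRing.ResidueField A) F₁} {Y₂ : Divisor (IsLocalRing.ResidueField A) F₂}
  {g g₁ g₂ : ℕ}

/-- multiplication by `f ∈ L(E⁺ - E⁻) ∩ O` maps `redSub L(nY - E⁺)` into `redSub L(nY - E⁻)` -/
theorem redF_mul_mem_redSub {n : ℕ} {Ep Em : Divisor L F} {f : F} (hfO : f ∈ D.O)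
    (hf : f ∈ riemannRochSpace (Ep - Em)) {ψ : F₁ × F₂}
    (hψ : ψ ∈ D.redSub (riemannRochSpace ((n : ℤ) • Y - Ep))) :
    D.redF f * ψ ∈ D.redSub (riemannRochSpace ((n : ℤ) • Y - Em)) :=
  mul_mem_redSub_rr (E := Ep - Em) (E' := (n : ℤ) • Y - Ep) (by abel)
    (NodalDatum.redF_mem_redSub hf hfO) hψ

/-- **(RED)**: the reduction of `L(E⁺ - E⁻) ∩ O` lies in `NS(Ē⁺ - Ē⁻)` -/
theorem redF_mem_NS (C : NCtx D Y Y₁ Y₂ g g₁ g₂) {n : ℕ} {Ep Em : Divisor L F}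
    {Ep₁ Em₁ : Divisor k F₁} {Ep₂ Em₂ : Divisor k F₂}
    (hp : NGoodAt D Y Y₁ Y₂ g₁ g₂ n Ep Ep₁ Ep₂) (hm : NGoodAt D Y Y₁ Y₂ g₁ g₂ n Em Em₁ Em₂)
    {f : F} (hfO : f ∈ D.O) (hf : f ∈ riemannRochSpace (Ep - Em)) :
    D.redF f ∈ NS D.x₁ D.x₂ (Ep₁ - Em₁) (Ep₂ - Em₂) := by
  obtain ⟨zp1, zp2, -, rp1, rp2, hJp⟩ := hp
  obtain ⟨zm1, zm2, -, -, -, hJm⟩ := hm
  have hs0 : (0 : ℤ) ≤ D.s := Int.natCast_nonneg _
  have key : ∀ ψ ∈ NS D.x₁ D.x₂ ((n : ℤ) • Y₁ - Ep₁) ((n : ℤ) • Y₂ - Ep₂),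
      D.redF f * ψ ∈ NS D.x₁ D.x₂ ((n : ℤ) • Y₁ - Em₁) ((n : ℤ) • Y₂ - Em₂) := by
    intro ψ hψ
    rw [← hJp] at hψ
    rw [← hJm]
    exact redF_mul_mem_redSub hfO hf hψ
  have d1 : Divisor.degree ((n : ℤ) • Y₁ - Ep₁) = n * Divisor.degree Y₁ - Divisor.degree Ep₁ :=
    degree_nsmul_sub' _ _ _
  have d2 : Divisor.degree ((n : ℤ) • Y₂ - Ep₂) = n * Divisor.degree Y₂ - Divisor.degree Ep₂ :=
    degree_nsmul_sub' _ _ _
  refine ⟨?_, ?_, fun c => ?_⟩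
  · -- pole bound on the first component
    rw [mem_riemannRochSpace_iff]
    intro Q
    by_cases h0 : (D.redF f).1 = 0
    · exact Or.inl h0
    right
    obtain ⟨ψ, hψ, hψ0, hord⟩ := exists_mem_NS_ord_eq₁ C.curve₁ C.curve₂ C.x₁_inj C.x₂_inj
      ((n : ℤ) • Y₁ - Ep₁) ((n : ℤ) • Y₂ - Ep₂) (C.nsmul_sub_x₁ n zp1) (C.nsmul_sub_x₂ n zp2)
      (by rw [d1]; exact rp1) (by rw [d2]; linarith) Q
    have h1 := (mem_riemannRochSpace_iff.1 (key ψ hψ).1 Q).resolve_left (mul_ne_zero h0 hψ0)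
    have e : (D.redF f * ψ).1 = (D.redF f).1 * ψ.1 := rfl
    rw [e, Q.ord_mul h0 hψ0, hord] at h1
    rw [Finsupp.sub_apply] at h1 ⊢
    rw [Finsupp.sub_apply] at h1
    linarith
  · -- pole bound on the second component
    rw [mem_riemannRochSpace_iff]
    intro Q
    by_cases h0 : (D.redF f).2 = 0
    · exact Or.inl h0
    right
    obtain ⟨ψ, hψ, hψ0, hord⟩ := exists_mem_NS_ord_eq₂ C.curve₁ C.curve₂ C.x₁_inj C.x₂_inj
      ((n : ℤ) • Y₁ - Ep₁) ((n : ℤ) • Y₂ - Ep₂) (C.nsmul_sub_x₁ n zp1) (C.nsmul_sub_x₂ n zp2)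
      (by rw [d1]; linarith) (by rw [d2]; exact rp2) Q
    have h1 := (mem_riemannRochSpace_iff.1 (key ψ hψ).2.1 Q).resolve_left (mul_ne_zero h0 hψ0)
    have e : (D.redF f * ψ).2 = (D.redF f).2 * ψ.2 := rfl
    rw [e, Q.ord_mul h0 hψ0, hord] at h1
    rw [Finsupp.sub_apply] at h1 ⊢
    rw [Finsupp.sub_apply] at h1
    linarith
  · -- gluing at the node `c`
    obtain ⟨ψ, hψ, hv⟩ := exists_mem_NS_valAt_one C.curve₁ C.curve₂ C.x₁_inj C.x₂_inj
      ((n : ℤ) • Y₁ - Ep₁) ((n : ℤ) • Y₂ - Ep₂) (C.nsmul_sub_x₁ n zp1) (C.nsmul_sub_x₂ n zp2)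
      (by rw [d1]; linarith) (by rw [d2]; linarith)
    have hv1 : valAt (D.x₁ c) ψ.1 ≠ 0 := by rw [(hv c).1]; exact one_ne_zero
    have hv2 : valAt (D.x₂ c) ψ.2 ≠ 0 := by rw [(hv c).2]; exact one_ne_zero
    have hψ1 : ψ.1 ≠ 0 := ne_zero_of_valAt_ne_zero _ hv1
    have hψ2 : ψ.2 ≠ 0 := ne_zero_of_valAt_ne_zero _ hv2
    have hord : (D.x₁ c).ord ψ.1 = 0 := ord_eq_zero_of_valAt_ne_zero _ (C.curve₁.deg_eq_one _)
      (mem_of_mem_rr (le_of_eq (C.nsmul_sub_x₁ n zp1 c)) hψ.1) hv1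
    have hi := gluedAt_inv C.curve₁.deg_eq_one C.curve₂.deg_eq_one (hψ.2.2 c) hψ1 hord
    have := gluedAt_mul ((key ψ hψ).2.2 c) hi
    have e : D.redF f * ψ * (ψ.1⁻¹, ψ.2⁻¹) = D.redF f := by
      refine Prod.ext ?_ ?_
      · show (D.redF f).1 * ψ.1 * ψ.1⁻¹ = (D.redF f).1
        field_simp
      · show (D.redF f).2 * ψ.2 * ψ.2⁻¹ = (D.redF f).2
        field_simp
    rwa [e] at this

/-! ### positive and negative parts of a divisor -/

section Parts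

variable {K' F' : Type*} [Field K'] [Field F'] [Algebra K' F']

/-- the positive part of a divisor -/
def posD (E : Divisor K' F') : Divisor K' F' := E.mapRange (fun a => max a 0) (by simp)

/-- the negative part of a divisor -/
def negD (E : Divisor K' F') : Divisor K' F' := E.mapRange (fun a => max (-a) 0) (by simp)

theorem posD_apply (E : Divisor K' F') (P : Place K' F') : posD E P = max (E P) 0 :=
  Finsupp.mapRange_apply (hf := by simp)

theorem negD_apply (E : Divisor K' F') (P : Place K' F') : negD E P = max (-E P) 0 :=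
  Finsupp.mapRange_apply (hf := by simp)

theorem posD_sub_negD (E : Divisor K' F') : posD E - negD E = E := by
  ext P
  rw [Finsupp.sub_apply, posD_apply, negD_apply]
  rcases le_total (E P) 0 with h | h
  · rw [max_eq_right h, max_eq_left (by linarith)]; ring
  · rw [max_eq_left h, max_eq_right (by linarith)]; ring

theorem posD_nonneg (E : Divisor K' F') : 0 ≤ posD E := by
  rw [Finsupp.le_def]
  intro P
  rw [Finsupp.zero_apply, posD_apply]
  exact le_max_right _ _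

theorem negD_nonneg (E : Divisor K' F') : 0 ≤ negD E := by
  rw [Finsupp.le_def]
  intro P
  rw [Finsupp.zero_apply, negD_apply]
  exact le_max_right _ _

theorem ne_zero_of_posD_ne_zero {E : Divisor K' F'} {P : Place K' F'} (h : posD E P ≠ 0) :
    E P ≠ 0 := by
  intro h0
  apply h
  rw [posD_apply, h0, max_self]

theorem ne_zero_of_negD_ne_zero {E : Divisor K' F'} {P : Place K' F'} (h : negD E P ≠ 0) :
    E P ≠ 0 := by
  intro h0
  apply h
  rw [negD_apply, h0, neg_zero, max_self]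

end Parts

/-- **(RED) for divisors supported on the smooth locus** -/
theorem redF_mem_NS_push (C : NCtx D Y Y₁ Y₂ g g₁ g₂) [Infinite k] (E : Divisor L F)
    (hsm : ∀ P, E P ≠ 0 → SmoothRed D Y Y₁ Y₂ g₁ g₂ P) {f : F} (hfO : f ∈ D.O)
    (hf : f ∈ riemannRochSpace E) :
    D.redF f ∈ NS D.x₁ D.x₂ (push D Y Y₁ Y₂ g₁ g₂ E).1 (push D Y Y₁ Y₂ g₁ g₂ E).2 := by
  have hp := ngood_push C (posD E) (posD_nonneg E) fun P hP => hsm P (ne_zero_of_posD_ne_zero hP)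
  have hm := ngood_push C (negD E) (negD_nonneg E) fun P hP => hsm P (ne_zero_of_negD_ne_zero hP)
  obtain ⟨n, -, h1, h2⟩ := hp.exists_common hm 0
  have := redF_mem_NS C h1 h2 hfO (by rw [posD_sub_negD]; exact hf)
  have e : push D Y Y₁ Y₂ g₁ g₂ E =
      push D Y Y₁ Y₂ g₁ g₂ (posD E) - push D Y Y₁ Y₂ g₁ g₂ (negD E) := by
    rw [← push_sub, posD_sub_negD]
  rw [e]
  exact this

/-- **(c′)**: if `f ∈ L(E - P) ∩ O` with `E` good and `P` reduces to a node, then the reduction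
of `f` vanishes at some node -/
theorem exists_node_zero (C : NCtx D Y Y₁ Y₂ g g₁ g₂) [Infinite k] {n : ℕ}
    (hn₁ : 2 * (g₁ : ℤ) + D.s + 1 ≤ n * Divisor.degree Y₁)
    (hn₂ : 2 * (g₂ : ℤ) + D.s + 1 ≤ n * Divisor.degree Y₂)
    {E : Divisor L F} {E₁ : Divisor k F₁} {E₂ : Divisor k F₂}
    (hE : NGoodAt D Y Y₁ Y₂ g₁ g₂ n E E₁ E₂) {f : F} (hfO : f ∈ D.O) {P : Place L F}
    (hP : ¬ SmoothRed D Y Y₁ Y₂ g₁ g₂ P)
    (hf : f ∈ riemannRochSpace (E - Finsupp.single P 1)) :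
    ∃ c, valAt (D.x₁ c) (D.redF f).1 = 0 ∧ valAt (D.x₂ c) (D.redF f).2 = 0 := by
  have hs0 : (0 : ℤ) ≤ D.s := Int.natCast_nonneg _
  obtain ⟨c, hc⟩ := exists_nodeRedAt C hP hn₁ hn₂
  refine ⟨c, ?_⟩
  have hfE : f ∈ riemannRochSpace E :=
    riemannRochSpace_mono (sub_le_self _ (single_one_nonneg' P)) hf
  have h0 := C.ngoodAt_zero (m := n) (by linarith) (by linarith)
  have hred := redF_mem_NS C hE h0 hfO (by rw [sub_zero]; exact hfE)
  rw [sub_zero, sub_zero] at hred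
  obtain ⟨z1, z2, -, r1, r2, hJ⟩ := hE
  have d1 : Divisor.degree ((n : ℤ) • Y₁ - E₁) = n * Divisor.degree Y₁ - Divisor.degree E₁ :=
    degree_nsmul_sub' _ _ _
  have d2 : Divisor.degree ((n : ℤ) • Y₂ - E₂) = n * Divisor.degree Y₂ - Divisor.degree E₂ :=
    degree_nsmul_sub' _ _ _
  obtain ⟨ψ, hψ, hv⟩ := exists_mem_NS_valAt_one C.curve₁ C.curve₂ C.x₁_inj C.x₂_inj
    ((n : ℤ) • Y₁ - E₁) ((n : ℤ) • Y₂ - E₂) (C.nsmul_sub_x₁ n z1) (C.nsmul_sub_x₂ n z2)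
    (by rw [d1]; linarith) (by rw [d2]; linarith)
  have hψ' := hψ
  rw [← hJ] at hψ'
  have hmem : D.redF f * ψ ∈ D.redSub (riemannRochSpace ((n : ℤ) • Y - Finsupp.single P 1)) :=
    mul_mem_redSub_rr (E := E - Finsupp.single P 1) (E' := (n : ℤ) • Y - E) (by abel)
      (NodalDatum.redF_mem_redSub hf hfO) hψ'
  obtain ⟨v1, v2⟩ := hc _ hmem
  have m1 : (D.redF f).1 ∈ (D.x₁ c).toValuationSubring := mem_of_mem_rr (le_of_eq (z1 c)) hred.1
  have m2 : (D.redF f).2 ∈ (D.x₂ c).toValuationSubring := mem_of_mem_rr (le_of_eq (z2 c)) hred.2.1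
  have mψ1 : ψ.1 ∈ (D.x₁ c).toValuationSubring :=
    mem_of_mem_rr (le_of_eq (C.nsmul_sub_x₁ n z1 c)) hψ.1
  have mψ2 : ψ.2 ∈ (D.x₂ c).toValuationSubring :=
    mem_of_mem_rr (le_of_eq (C.nsmul_sub_x₂ n z2 c)) hψ.2.1
  have e1 : (D.redF f * ψ).1 = (D.redF f).1 * ψ.1 := rfl
  have e2 : (D.redF f * ψ).2 = (D.redF f).2 * ψ.2 := rfl
  rw [e1, valAt_mul _ (C.curve₁.deg_eq_one _) m1 mψ1, (hv c).1, mul_one] at v1
  rw [e2, valAt_mul _ (C.curve₂.deg_eq_one _) m2 mψ2, (hv c).2, mul_one] at v2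
  exact ⟨v1, v2⟩

/-- **(c′), contrapositive**: if the reduction of `f ∈ L(E - P) ∩ O` (`E ≥ 0` supported on the smooth
locus) is a unit at all nodes, then `P` reduces to a smooth point -/
theorem smoothRed_of_unit (C : NCtx D Y Y₁ Y₂ g g₁ g₂) [Infinite k] {E : Divisor L F}
    (hE0 : 0 ≤ E) (hsm : ∀ P, E P ≠ 0 → SmoothRed D Y Y₁ Y₂ g₁ g₂ P) {f : F} (hfO : f ∈ D.O)
    (hunit : ∀ c, valAt (D.x₁ c) (D.redF f).1 ≠ 0) {P : Place L F}
    (hf : f ∈ riemannRochSpace (E - Finsupp.single P 1)) : SmoothRed D Y Y₁ Y₂ g₁ g₂ P := by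
  by_contra hP
  obtain ⟨N, hN⟩ := C.exists_level
  obtain ⟨n₀, hn₀⟩ := ngood_push C E hE0 hsm
  obtain ⟨hn₁, hn₂⟩ := hN (max N n₀) (le_max_left _ _)
  obtain ⟨c, hc, -⟩ := exists_node_zero C hn₁ hn₂ (hn₀ _ (le_max_right _ _)) hfO hP hf
  exact hunit c hc

end Fermat.Agent.S33lib.NRed
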