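/-
S33lib / NRed / Frame  (helper6)

The reduction of the frame divisor: for an effective frame `Y`

* `smoothRed_of_Y_ne_zero` : every point of the support of `Y` reduces to a smooth point
                             (`1 ∈ L(nY - P) ∩ O` reduces to `(1,1)`, which vanishes at no node);
* `push_Y`                 : `r_* Y = (Y₁, Y₂)`.
-/
import Fermat.Agent.S33lib.NRed.Main

set_option autoImplicit false

noncomputable section

namespace Fermat.Agent.S33lib.NRed

open AlgebraicCurve Module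
open Fermat.Agent.S18lib Fermat.Agent.LSb Fermat.Agent.LSb.Core Fermat.Agent.S37lib

variable {L : Type*} [Field L] {A : ValuationSubring L}
variable {F : Type*} [Field F] [Algebra L F]
variable {F₁ F₂ : Type*} [Field F₁] [Field F₂]
variable [Algebra (IsLocalRing.ResidueField A) F₁] [Algebra (IsLocalRing.ResidueField A) F₂]

local notation "k" => IsLocalRing.ResidueField A

variable {D : NodalDatum A F F₁ F₂} {Y : Divisor L F}
  {Y₁ : Divisor (IsLocalRing.ResidueField A) F₁} {Y₂ : Divisor (IsLocalRing.ResidueField A) F₂}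
  {g g₁ g₂ : ℕ}

/-- the points of the frame divisor reduce to smooth points -/
theorem smoothRed_of_Y_ne_zero (C : NCtx D Y Y₁ Y₂ g g₁ g₂) [Infinite k] {P : Place L F}
    (hP : Y P ≠ 0) : SmoothRed D Y Y₁ Y₂ g₁ g₂ P := by
  classical
  by_contra hcon
  obtain ⟨N, hN⟩ := C.exists_level
  obtain ⟨hn₁, hn₂⟩ := hN (N + 1) (Nat.le_succ N)
  obtain ⟨c, hc⟩ := exists_nodeRedAt C hcon hn₁ hn₂
  have hY0 : ∀ v, 0 ≤ Y v := fun v => by
    have := Finsupp.le_def.1 C.Y_nonneg v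
    simpa using this
  have hYP : 1 ≤ Y P := by
    have := hY0 P
    omega
  have h1 : (1 : F) ∈ riemannRochSpace (((N + 1 : ℕ) : ℤ) • Y - Finsupp.single P 1) := by
    apply Cech.one_mem_rr
    intro v
    rw [Finsupp.sub_apply, Finsupp.smul_apply, smul_eq_mul, Finsupp.single_apply]
    have hN1 : (1 : ℤ) ≤ ((N + 1 : ℕ) : ℤ) := by push_cast; linarith [Int.natCast_nonneg N]
    split_ifs with hv
    · subst hv
      nlinarith
    · have := hY0 v
      nlinarith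
  have hmem : D.redF (1 : F) ∈
      D.redSub (riemannRochSpace (((N + 1 : ℕ) : ℤ) • Y - Finsupp.single P 1)) :=
    NodalDatum.redF_mem_redSub h1 D.O.one_mem
  have := (hc _ hmem).1
  rw [NodalDatum.redF_one'] at this
  have e : ((1 : F₁ × F₂)).1 = (1 : F₁) := rfl
  rw [e, valAt_one] at this
  exact one_ne_zero this

/-- **the reduction of the frame divisor** -/
theorem push_Y (C : NCtx D Y Y₁ Y₂ g g₁ g₂) [Infinite k] :
    push D Y Y₁ Y₂ g₁ g₂ Y = (Y₁, Y₂) := by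
  have hs0 : (0 : ℤ) ≤ D.s := Int.natCast_nonneg _
  have hgood := ngood_push C Y C.Y_nonneg fun P hP => smoothRed_of_Y_ne_zero C hP
  obtain ⟨N, hN⟩ := C.exists_level
  obtain ⟨n₀, hn₀⟩ := hgood
  obtain ⟨m, hm⟩ : ∃ m : ℕ, m = max N n₀ := ⟨_, rfl⟩
  obtain ⟨hm₁, hm₂⟩ := hN m (by rw [hm]; exact le_max_left _ _)
  obtain ⟨z1, z2, hd, r1, r2, hJ⟩ := hn₀ (m + 1) (by rw [hm]; exact le_trans (le_max_right _ _) (Nat.le_succ _))
  have hdiv : ((m + 1 : ℕ) : ℤ) • Y - Y = (m : ℤ) • Y := by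
    rw [Nat.cast_succ, add_smul, one_smul, add_sub_cancel_right]
  rw [hdiv, C.redSub_nsmul_eq (m := m) (by linarith) (by linarith)] at hJ
  set p := push D Y Y₁ Y₂ g₁ g₂ Y with hp
  have zm₁ : ∀ c, ((m : ℤ) • Y₁ : Divisor k F₁) (D.x₁ c) = 0 := fun c => by
    rw [Finsupp.smul_apply, C.Y₁_x₁, smul_zero]
  have zm₂ : ∀ c, ((m : ℤ) • Y₂ : Divisor k F₂) (D.x₂ c) = 0 := fun c => by
    rw [Finsupp.smul_apply, C.Y₂_x₂, smul_zero]
  have hle := le_of_NS_le C.curve₁ C.curve₂ C.x₁_inj C.x₂_inj zm₁ zm₂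
    (by rw [map_zsmul, smul_eq_mul]; linarith) (by rw [map_zsmul, smul_eq_mul]; linarith) hJ.le
  have hge := le_of_NS_le C.curve₁ C.curve₂ C.x₁_inj C.x₂_inj
    (C.nsmul_sub_x₁ (m + 1) z1) (C.nsmul_sub_x₂ (m + 1) z2)
    (by rw [degree_nsmul_sub']; exact r1) (by rw [degree_nsmul_sub']; exact r2) hJ.ge
  have e1 : ((m + 1 : ℕ) : ℤ) • Y₁ - p.1 = (m : ℤ) • Y₁ := le_antisymm hge.1 hle.1
  have e2 : ((m + 1 : ℕ) : ℤ) • Y₂ - p.2 = (m : ℤ) • Y₂ := le_antisymm hge.2 hle.2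
  rw [Nat.cast_succ, add_smul, one_smul] at e1 e2
  refine Prod.ext ?_ ?_
  · exact (add_left_cancel (sub_eq_iff_eq_add.1 e1)).symm
  · exact (add_left_cancel (sub_eq_iff_eq_add.1 e2)).symm

end Fermat.Agent.S33lib.NRed
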