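/-
S33lib / NRed / Exact  (helper6)

**Sections of exact order** ("Claim A").  For an effective divisor `E` on `F` (arbitrary support:
points reducing to nodes allowed) and a SMOOTH point `Q` of the first component, for all large `n`
there is `h ∈ L(nY - E) ∩ O` with `(red h).1 ≠ 0` and

  `ord_Q (red h).1 = - n Y₁(Q) + (r_* E).1 (Q)`

(`= -n Y₁(Q) + #(points of E in the residue disc of Q)`).  Similarly on the second component.

Ingredients: base point freeness of `NS` in the strong range (points reducing to smooth points),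
and for a point `P` reducing to a node: `redSub L(nY - P)` IS the ideal of that node, which contains
`(φ₁, 0)` with `φ₁ ∈ L(nY₁ - Σ x₁ c)` of exact order at `Q`.
-/
import Fermat.Agent.S33lib.NRed.Frame

set_option autoImplicit false

noncomputable section

namespace Fermat.Agent.S33lib.NRed

open AlgebraicCurve Module
open Fermat.Agent.S18lib Fermat.Agent.LSb Fermat.Agent.LSb.Core Fermat.Agent.S37lib

/-- a section of `L(E)` vanishing at `x` (where `E x = 0`) lies in `L(E - x)` -/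
theorem mem_sub_single_of_valAt_eq_zero {K F : Type*} [Field K] [Field F] [Algebra K F]
    {E : Divisor K F} {x : Place K F} (hx : x.deg = 1) (hE : E x = 0) {φ : F}
    (hφ : φ ∈ riemannRochSpace E) (hv : valAt x φ = 0) :
    φ ∈ riemannRochSpace (E - Finsupp.single x 1) := by
  classical
  have hreg : φ ∈ x.toValuationSubring := mem_of_mem_rr (le_of_eq hE) hφ
  have hvan := (valAt_eq_zero_iff x hx hreg).1 hv
  rw [vanishAt_iff] at hvan
  rw [mem_riemannRochSpace_iff] at hφ ⊢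
  intro v
  rcases hvan with h0 | h1
  · exact Or.inl h0
  rcases hφ v with h0 | h2
  · exact Or.inl h0
  right
  rw [Finsupp.sub_apply, Finsupp.single_apply]
  split_ifs with hv'
  · subst hv'
    rw [hE]; omega
  · linarith

variable {L : Type*} [Field L] {A : ValuationSubring L}
variable {F : Type*} [Field F] [Algebra L F]
variable {F₁ F₂ : Type*} [Field F₁] [Field F₂]
variable [Algebra (IsLocalRing.ResidueField A) F₁] [Algebra (IsLocalRing.ResidueField A) F₂]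

local notation "k" => IsLocalRing.ResidueField A

variable {D : NodalDatum A F F₁ F₂} {Y : Divisor L F}
  {Y₁ : Divisor (IsLocalRing.ResidueField A) F₁} {Y₂ : Divisor (IsLocalRing.ResidueField A) F₂}
  {g g₁ g₂ : ℕ}

/-- **the node ideal**: if `P` reduces to the node `c` at level `n`, then `redSub L(nY - P)` is the
space of ALL sections of `NS(nY₁, nY₂)` vanishing at the node `c` -/
theorem redSub_eq_of_nodeRedAt (C : NCtx D Y Y₁ Y₂ g g₁ g₂) {n : ℕ}
    (hn₁ : 2 * (g₁ : ℤ) + D.s + 1 ≤ n * Divisor.degree Y₁)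
    (hn₂ : 2 * (g₂ : ℤ) + D.s + 1 ≤ n * Divisor.degree Y₂) {P : Place L F} {c : Fin D.s}
    (hc : NodeRedAt D Y n P c) :
    D.redSub (riemannRochSpace ((n : ℤ) • Y - Finsupp.single P 1)) =
      NS D.x₁ D.x₂ ((n : ℤ) • Y₁ - Finsupp.single (D.x₁ c) 1) ((n : ℤ) • Y₂) := by
  classical
  have hs0 : (0 : ℤ) ≤ D.s := Int.natCast_nonneg _
  have hg := C.genus_eq'
  have hdY := C.deg_eq
  have hP1 : Divisor.degree (Finsupp.single P (1 : ℤ)) = 1 := Curve.degree_single_one C.curve P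
  have zY₁ : ∀ c, ((n : ℤ) • Y₁ : Divisor k F₁) (D.x₁ c) = 0 := fun c => by
    rw [Finsupp.smul_apply, C.Y₁_x₁, smul_zero]
  have zY₂ : ∀ c, ((n : ℤ) • Y₂ : Divisor k F₂) (D.x₂ c) = 0 := fun c => by
    rw [Finsupp.smul_apply, C.Y₂_x₂, smul_zero]
  set V := D.redSub (riemannRochSpace ((n : ℤ) • Y - Finsupp.single P 1)) with hV
  set M := NS D.x₁ D.x₂ ((n : ℤ) • Y₁ - Finsupp.single (D.x₁ c) 1) ((n : ℤ) • Y₂) with hM
  set R := NS D.x₁ D.x₂ ((n : ℤ) • Y₁) ((n : ℤ) • Y₂) with hR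
  have hVR : V ≤ R := by
    rw [hR, ← C.redSub_nsmul_eq (m := n) (by linarith) (by linarith)]
    exact NodalDatum.redSub_mono (riemannRochSpace_mono (sub_le_self _ (single_one_nonneg' P)))
  have hVM : V ≤ M := by
    intro ψ hψ
    have h1 := hVR hψ
    exact ⟨mem_sub_single_of_valAt_eq_zero (C.curve₁.deg_eq_one _) (zY₁ c) h1.1 (hc ψ hψ).1,
      h1.2.1, h1.2.2⟩
  have hMR : M ≤ R := NS_sub_single_le₁ _ _ _
  have hne : M ≠ R := by
    intro h
    obtain ⟨ψ, hψ, hv⟩ := exists_mem_NS_valAt_one C.curve₁ C.curve₂ C.x₁_inj C.x₂_inj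
      ((n : ℤ) • Y₁) ((n : ℤ) • Y₂) zY₁ zY₂
      (by rw [map_zsmul, smul_eq_mul]; linarith) (by rw [map_zsmul, smul_eq_mul]; linarith)
    have hψ' : ψ ∈ M := by rw [h]; exact hψ
    have := valAt_eq_zero_of_mem_sub_single (C.curve₁.deg_eq_one _) (zY₁ c) hψ'.1
    rw [(hv c).1] at this
    exact one_ne_zero this
  have hfdR : FiniteDimensional k R :=
    finiteDimensional_nodalSpace (x₁ := D.x₁) (x₂ := D.x₂) C.curve₁ C.curve₂ (fun _ => 1) _ _
  have hfdM : FiniteDimensional k M :=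
    finiteDimensional_nodalSpace (x₁ := D.x₁) (x₂ := D.x₂) C.curve₁ C.curve₂ (fun _ => 1) _ _
  have hlt : finrank k M < finrank k R :=
    Submodule.finrank_lt_finrank_of_lt (lt_of_le_of_ne hMR hne)
  have hVdim : (finrank k V : ℤ) = n * Divisor.degree Y - g := by
    have := C.finrank_redSub_rr (n := n) (E := Finsupp.single P 1)
      (by rw [hP1, ← hdY]; linarith)
    rw [hV, this, hP1]; ring
  have hRdim : (finrank k R : ℤ) = n * Divisor.degree Y + 1 - g := by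
    have h2 := C.finrank_NS_k (n := n) (E₁ := 0) (E₂ := 0) (fun _ => rfl) (fun _ => rfl)
      (by rw [map_zero]; linarith) (by rw [map_zero]; linarith)
    rw [sub_zero, sub_zero, map_zero, map_zero] at h2
    rw [hR, h2, ← hdY]; linarith
  apply Submodule.eq_of_le_of_finrank_le hVM
  have : (finrank k M : ℤ) < finrank k R := by exact_mod_cast hlt
  have h3 : (finrank k M : ℤ) ≤ finrank k V := by rw [hVdim]; rw [hRdim] at this; linarith
  exact_mod_cast h3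

/-- the section `(φ₁, 0)`, `φ₁ ∈ L(E₁ - Σ x₁ c)`, of the nodal space -/
theorem pair_zero_mem_NS {k' F₁' F₂' : Type*} [Field k'] [Field F₁'] [Field F₂']
    [Algebra k' F₁'] [Algebra k' F₂'] {s : ℕ} {x₁ : Fin s → Place k' F₁'}
    {x₂ : Fin s → Place k' F₂'} (hx₁ : Function.Injective x₁) {E₁ : Divisor k' F₁'}
    (E₂ : Divisor k' F₂') (hE₁ : ∀ c, E₁ (x₁ c) = 0) {φ₁ : F₁'}
    (hφ : φ₁ ∈ riemannRochSpace (E₁ - sumPts x₁)) : (φ₁, (0 : F₂')) ∈ NS x₁ x₂ E₁ E₂ := by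
  refine ⟨?_, Submodule.zero_mem _, fun c => ⟨0, ?_, ?_⟩⟩
  · refine Cech.rr_mono (fun v => ?_) hφ
    rw [Finsupp.sub_apply]
    have := sumPts_nonneg x₁ v
    omega
  · rw [map_zero, sub_zero, vanishAt_iff]
    rcases (mem_riemannRochSpace_iff.1 hφ (x₁ c)) with h | h
    · exact Or.inl h
    · right
      rw [Finsupp.sub_apply, hE₁, sumPts_apply_self hx₁] at h
      show 1 ≤ (x₁ c).ord φ₁
      omega
  · show VanishAt (x₂ c) ((0 : F₂') - algebraMap k' F₂' (1 * 0))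
    rw [mul_zero, map_zero, sub_zero]
    exact vanishAt_zero _

/-- the predicate of Claim A on the first component -/
def Exact₁ (D : NodalDatum A F F₁ F₂) (Y : Divisor L F) (Y₁ : Divisor k F₁) (Y₂ : Divisor k F₂)
    (g₁ g₂ : ℕ) (Q : Place k F₁) (E : Divisor L F) : Prop :=
  ∃ n₀ : ℕ, ∀ n, n₀ ≤ n → ∃ h ∈ riemannRochSpace ((n : ℤ) • Y - E), h ∈ D.O ∧
    (D.redF h).1 ≠ 0 ∧
    Q.ord (D.redF h).1 = -((n : ℤ) * Y₁ Q) + (push D Y Y₁ Y₂ g₁ g₂ E).1 Q

/-- sections of exact order from a good pair -/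
theorem exact₁_of_ngood (C : NCtx D Y Y₁ Y₂ g g₁ g₂) {E : Divisor L F} {E₁ : Divisor k F₁}
    {E₂ : Divisor k F₂} (hE : NGood D Y Y₁ Y₂ g₁ g₂ E E₁ E₂) (Q : Place k F₁)
    (hpush : E₁ Q = (push D Y Y₁ Y₂ g₁ g₂ E).1 Q) : Exact₁ D Y Y₁ Y₂ g₁ g₂ Q E := by
  have hs0 : (0 : ℤ) ≤ D.s := Int.natCast_nonneg _
  obtain ⟨n₀, hn₀⟩ := hE
  refine ⟨n₀, fun n hn => ?_⟩
  obtain ⟨z1, z2, -, r1, r2, hJ⟩ := hn₀ n hn
  obtain ⟨ψ, hψ, hψ0, hord⟩ := exists_mem_NS_ord_eq₁ C.curve₁ C.curve₂ C.x₁_inj C.x₂_inj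
    ((n : ℤ) • Y₁ - E₁) ((n : ℤ) • Y₂ - E₂) (C.nsmul_sub_x₁ n z1) (C.nsmul_sub_x₂ n z2)
    (by rw [degree_nsmul_sub']; exact r1) (by rw [degree_nsmul_sub']; linarith) Q
  rw [← hJ] at hψ
  obtain ⟨h, hW, hO, rfl⟩ := hψ
  refine ⟨h, hW, hO, hψ0, ?_⟩
  rw [hord, Finsupp.sub_apply, Finsupp.smul_apply, smul_eq_mul, hpush]
  ring

theorem exact₁_zero (C : NCtx D Y Y₁ Y₂ g g₁ g₂) (Q : Place k F₁) :
    Exact₁ D Y Y₁ Y₂ g₁ g₂ Q 0 :=
  exact₁_of_ngood C (ngood_zero C) Q (by rw [push_zero]; rfl)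

theorem exact₁_single_of_smoothRed (C : NCtx D Y Y₁ Y₂ g g₁ g₂) (Q : Place k F₁)
    {P : Place L F} (hP : SmoothRed D Y Y₁ Y₂ g₁ g₂ P) :
    Exact₁ D Y Y₁ Y₂ g₁ g₂ Q (Finsupp.single P 1) :=
  exact₁_of_ngood C (ngood_pushPt hP) Q (by rw [push_single, one_smul])

theorem exact₁_add {Q : Place k F₁} {E E' : Divisor L F}
    (h : Exact₁ D Y Y₁ Y₂ g₁ g₂ Q E) (h' : Exact₁ D Y Y₁ Y₂ g₁ g₂ Q E') :
    Exact₁ D Y Y₁ Y₂ g₁ g₂ Q (E + E') := by
  obtain ⟨n₀, hn₀⟩ := h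
  obtain ⟨n₀', hn₀'⟩ := h'
  refine ⟨n₀ + n₀', fun N hN => ?_⟩
  obtain ⟨n', rfl⟩ := Nat.exists_eq_add_of_le (le_trans (Nat.le_add_right _ _) hN)
  have hn' : n₀' ≤ n' := by omega
  obtain ⟨h, hW, hO, h0, hord⟩ := hn₀ n₀ le_rfl
  obtain ⟨h', hW', hO', h0', hord'⟩ := hn₀' n' hn'
  have hdiv : ((n₀ : ℤ) • Y - E) + ((n' : ℤ) • Y - E') = ((n₀ + n' : ℕ) : ℤ) • Y - (E + E') := by
    rw [Nat.cast_add, add_smul]; abel
  have hred : D.redF (h * h') = D.redF h * D.redF h' := NodalDatum.redF_mul hO hO'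
  have e1 : (D.redF h * D.redF h').1 = (D.redF h).1 * (D.redF h').1 := rfl
  refine ⟨h * h', ?_, D.O.mul_mem hO hO', ?_, ?_⟩
  · rw [← hdiv]
    exact mul_mem_riemannRochSpace hW hW'
  · rw [hred, e1]
    exact mul_ne_zero h0 h0'
  · rw [hred, e1, Q.ord_mul h0 h0', hord, hord', push_add, Prod.fst_add, Finsupp.add_apply]
    push_cast
    ring

/-- a point reducing to a node: sections of `redSub L(nY - P)` not vanishing at `Q` -/
theorem exact₁_single_of_not_smoothRed (C : NCtx D Y Y₁ Y₂ g g₁ g₂) [Infinite k]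
    {Q : Place k F₁} (hQ : ∀ c, D.x₁ c ≠ Q) {P : Place L F}
    (hP : ¬ SmoothRed D Y Y₁ Y₂ g₁ g₂ P) :
    Exact₁ D Y Y₁ Y₂ g₁ g₂ Q (Finsupp.single P 1) := by
  have hs0 : (0 : ℤ) ≤ D.s := Int.natCast_nonneg _
  obtain ⟨N, hN⟩ := C.exists_level
  refine ⟨N, fun n hn => ?_⟩
  obtain ⟨hn₁, hn₂⟩ := hN n hn
  obtain ⟨c, hc⟩ := exists_nodeRedAt C hP hn₁ hn₂
  have hV := redSub_eq_of_nodeRedAt C hn₁ hn₂ hc
  have zY₁ : ∀ c, ((n : ℤ) • Y₁ : Divisor k F₁) (D.x₁ c) = 0 := fun c => by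
    rw [Finsupp.smul_apply, C.Y₁_x₁, smul_zero]
  -- a section of `L(nY₁ - Σ x₁ c)` of exact order at `Q`
  obtain ⟨φ₁, hφ, hφ0, hord⟩ := Curve.exists_ord_eq_neg C.curve₁
    (D := (n : ℤ) • Y₁ - sumPts D.x₁) (by
      rw [map_sub, map_zsmul, smul_eq_mul, degree_sumPts D.x₁ C.curve₁.deg_eq_one]; linarith) Q
  have hmemR : (φ₁, (0 : F₂)) ∈ NS D.x₁ D.x₂ ((n : ℤ) • Y₁) ((n : ℤ) • Y₂) :=
    pair_zero_mem_NS C.x₁_inj _ zY₁ hφ
  have hmem : (φ₁, (0 : F₂)) ∈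
      NS D.x₁ D.x₂ ((n : ℤ) • Y₁ - Finsupp.single (D.x₁ c) 1) ((n : ℤ) • Y₂) := by
    refine ⟨?_, hmemR.2.1, hmemR.2.2⟩
    refine Cech.rr_mono (fun v => ?_) hφ
    classical
    rw [Finsupp.sub_apply, Finsupp.sub_apply, Finsupp.single_apply]
    split_ifs with hv
    · subst hv
      rw [sumPts_apply_self C.x₁_inj]
    · have := sumPts_nonneg D.x₁ v
      omega
  rw [← hV] at hmem
  obtain ⟨h, hW, hO, hh⟩ := hmem
  have h1 : (D.redF h).1 = φ₁ := by rw [hh]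
  refine ⟨h, hW, hO, by rw [h1]; exact hφ0, ?_⟩
  rw [h1, hord, Finsupp.sub_apply, Finsupp.smul_apply, smul_eq_mul,
    sumPts_apply_of_forall_ne hQ, push_single, one_smul, pushPt, dif_neg hP]
  simp

theorem exact₁_single (C : NCtx D Y Y₁ Y₂ g g₁ g₂) [Infinite k]
    {Q : Place k F₁} (hQ : ∀ c, D.x₁ c ≠ Q) (P : Place L F) :
    Exact₁ D Y Y₁ Y₂ g₁ g₂ Q (Finsupp.single P 1) := by
  by_cases hP : SmoothRed D Y Y₁ Y₂ g₁ g₂ P
  · exact exact₁_single_of_smoothRed C Q hP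
  · exact exact₁_single_of_not_smoothRed C hQ hP

theorem exact₁_single_nat (C : NCtx D Y Y₁ Y₂ g g₁ g₂) [Infinite k]
    {Q : Place k F₁} (hQ : ∀ c, D.x₁ c ≠ Q) (P : Place L F) (m : ℕ) :
    Exact₁ D Y Y₁ Y₂ g₁ g₂ Q (Finsupp.single P (m : ℤ)) := by
  induction m with
  | zero => simpa using exact₁_zero C Q
  | succ m ih =>
    rw [Nat.cast_succ, Finsupp.single_add]
    exact exact₁_add ih (exact₁_single C hQ P)

/-- **Claim A** on the first component -/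
theorem exact₁ (C : NCtx D Y Y₁ Y₂ g g₁ g₂) [Infinite k]
    {Q : Place k F₁} (hQ : ∀ c, D.x₁ c ≠ Q) (E : Divisor L F) (hE : 0 ≤ E) :
    Exact₁ D Y Y₁ Y₂ g₁ g₂ Q E := by
  classical
  induction E using Finsupp.induction with
  | zero => exact exact₁_zero C Q
  | single_add P b f hP hb ih =>
    have hfP : f P = 0 := Finsupp.notMem_support_iff.1 hP
    have hb0 : 0 ≤ b := by
      have := Finsupp.le_def.1 hE P
      rwa [Finsupp.zero_apply, Finsupp.add_apply, Finsupp.single_eq_same, hfP, add_zero] at this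
    have hf0 : 0 ≤ f := by
      rw [Finsupp.le_def]
      intro v
      by_cases hv : v = P
      · subst hv; rw [hfP]; simp
      · have := Finsupp.le_def.1 hE v
        rwa [Finsupp.zero_apply, Finsupp.add_apply, Finsupp.single_apply, if_neg (Ne.symm hv),
          zero_add] at this
    obtain ⟨m, rfl⟩ := Int.eq_ofNat_of_zero_le hb0
    exact exact₁_add (exact₁_single_nat C hQ P m) (ih hf0)

end Fermat.Agent.S33lib.NRed
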