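/-
S33lib / NRed / Exact2  (helper6)

Sections of exact order ("Claim A") on the SECOND component: mirror image of `NRed/Exact`.
-/
import Fermat.Agent.S33lib.NRed.Exact

set_option autoImplicit false

noncomputable section

namespace Fermat.Agent.S33lib.NRed

open AlgebraicCurve Module
open Fermat.Agent.S18lib Fermat.Agent.LSb Fermat.Agent.LSb.Core Fermat.Agent.S37lib

variable {L : Type*} [Field L] {A : ValuationSubring L}
variable {F : Type*} [Field F] [Algebra L F]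
variable {F₁ F₂ : Type*} [Field F₁] [Field F₂]
variable [Algebra (IsLocalRing.ResidueField A) F₁] [Algebra (IsLocalRing.ResidueField A) F₂]

local notation "k" => IsLocalRing.ResidueField A

variable {D : NodalDatum A F F₁ F₂} {Y : Divisor L F}
  {Y₁ : Divisor (IsLocalRing.ResidueField A) F₁} {Y₂ : Divisor (IsLocalRing.ResidueField A) F₂}
  {g g₁ g₂ : ℕ}

/-- the section `(0, φ₂)`, `φ₂ ∈ L(E₂ - Σ x₂ c)`, of the nodal space -/
theorem zero_pair_mem_NS {k' F₁' F₂' : Type*} [Field k'] [Field F₁'] [Field F₂']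
    [Algebra k' F₁'] [Algebra k' F₂'] {s : ℕ} {x₁ : Fin s → Place k' F₁'}
    {x₂ : Fin s → Place k' F₂'} (hx₂ : Function.Injective x₂) (E₁ : Divisor k' F₁')
    {E₂ : Divisor k' F₂'} (hE₂ : ∀ c, E₂ (x₂ c) = 0) {φ₂ : F₂'}
    (hφ : φ₂ ∈ riemannRochSpace (E₂ - sumPts x₂)) : ((0 : F₁'), φ₂) ∈ NS x₁ x₂ E₁ E₂ := by
  refine ⟨Submodule.zero_mem _, ?_, fun c => ⟨0, ?_, ?_⟩⟩
  · refine Cech.rr_mono (fun v => ?_) hφ
    rw [Finsupp.sub_apply]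
    have := sumPts_nonneg x₂ v
    omega
  · show VanishAt (x₁ c) ((0 : F₁') - algebraMap k' F₁' 0)
    rw [map_zero, sub_zero]
    exact vanishAt_zero _
  · show VanishAt (x₂ c) (φ₂ - algebraMap k' F₂' (1 * 0))
    rw [mul_zero, map_zero, sub_zero, vanishAt_iff]
    rcases (mem_riemannRochSpace_iff.1 hφ (x₂ c)) with h | h
    · exact Or.inl h
    · right
      rw [Finsupp.sub_apply, hE₂, sumPts_apply_self hx₂] at h
      omega

/-- the predicate of Claim A on the second component -/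
def Exact₂ (D : NodalDatum A F F₁ F₂) (Y : Divisor L F) (Y₁ : Divisor k F₁) (Y₂ : Divisor k F₂)
    (g₁ g₂ : ℕ) (Q : Place k F₂) (E : Divisor L F) : Prop :=
  ∃ n₀ : ℕ, ∀ n, n₀ ≤ n → ∃ h ∈ riemannRochSpace ((n : ℤ) • Y - E), h ∈ D.O ∧
    (D.redF h).2 ≠ 0 ∧
    Q.ord (D.redF h).2 = -((n : ℤ) * Y₂ Q) + (push D Y Y₁ Y₂ g₁ g₂ E).2 Q

/-- sections of exact order from a good pair -/
theorem exact₂_of_ngood (C : NCtx D Y Y₁ Y₂ g g₁ g₂) {E : Divisor L F} {E₁ : Divisor k F₁}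
    {E₂ : Divisor k F₂} (hE : NGood D Y Y₁ Y₂ g₁ g₂ E E₁ E₂) (Q : Place k F₂)
    (hpush : E₂ Q = (push D Y Y₁ Y₂ g₁ g₂ E).2 Q) : Exact₂ D Y Y₁ Y₂ g₁ g₂ Q E := by
  have hs0 : (0 : ℤ) ≤ D.s := Int.natCast_nonneg _
  obtain ⟨n₀, hn₀⟩ := hE
  refine ⟨n₀, fun n hn => ?_⟩
  obtain ⟨z1, z2, -, r1, r2, hJ⟩ := hn₀ n hn
  obtain ⟨ψ, hψ, hψ0, hord⟩ := exists_mem_NS_ord_eq₂ C.curve₁ C.curve₂ C.x₁_inj C.x₂_inj
    ((n : ℤ) • Y₁ - E₁) ((n : ℤ) • Y₂ - E₂) (C.nsmul_sub_x₁ n z1) (C.nsmul_sub_x₂ n z2)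
    (by rw [degree_nsmul_sub']; linarith) (by rw [degree_nsmul_sub']; exact r2) Q
  rw [← hJ] at hψ
  obtain ⟨h, hW, hO, rfl⟩ := hψ
  refine ⟨h, hW, hO, hψ0, ?_⟩
  rw [hord, Finsupp.sub_apply, Finsupp.smul_apply, smul_eq_mul, hpush]
  ring

theorem exact₂_zero (C : NCtx D Y Y₁ Y₂ g g₁ g₂) (Q : Place k F₂) :
    Exact₂ D Y Y₁ Y₂ g₁ g₂ Q 0 :=
  exact₂_of_ngood C (ngood_zero C) Q (by rw [push_zero]; rfl)

theorem exact₂_single_of_smoothRed (C : NCtx D Y Y₁ Y₂ g g₁ g₂) (Q : Place k F₂)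
    {P : Place L F} (hP : SmoothRed D Y Y₁ Y₂ g₁ g₂ P) :
    Exact₂ D Y Y₁ Y₂ g₁ g₂ Q (Finsupp.single P 1) :=
  exact₂_of_ngood C (ngood_pushPt hP) Q (by rw [push_single, one_smul])

theorem exact₂_add {Q : Place k F₂} {E E' : Divisor L F}
    (h : Exact₂ D Y Y₁ Y₂ g₁ g₂ Q E) (h' : Exact₂ D Y Y₁ Y₂ g₁ g₂ Q E') :
    Exact₂ D Y Y₁ Y₂ g₁ g₂ Q (E + E') := by
  obtain ⟨n₀, hn₀⟩ := h
  obtain ⟨n₀', hn₀'⟩ := h'
  refine ⟨n₀ + n₀', fun N hN => ?_⟩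
  obtain ⟨n', rfl⟩ := Nat.exists_eq_add_of_le (le_trans (Nat.le_add_right _ _) hN)
  have hn' : n₀' ≤ n' := by omega
  obtain ⟨h, hW, hO, h0, hord⟩ := hn₀ n₀ le_rfl
  obtain ⟨h', hW', hO', h0', hord'⟩ := hn₀' n' hn'
  have hdiv : ((n₀ : ℤ) • Y - E) + ((n' : ℤ) • Y - E') = ((n₀ + n' : ℕ) : ℤ) • Y - (E + E') := by
    rw [Nat.cast_add, add_smul]; abel
  have hred : D.redF (h * h') = D.redF h * D.redF h' := NodalDatum.redF_mul hO hO'
  have e1 : (D.redF h * D.redF h').2 = (D.redF h).2 * (D.redF h').2 := rfl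
  refine ⟨h * h', ?_, D.O.mul_mem hO hO', ?_, ?_⟩
  · rw [← hdiv]
    exact mul_mem_riemannRochSpace hW hW'
  · rw [hred, e1]
    exact mul_ne_zero h0 h0'
  · rw [hred, e1, Q.ord_mul h0 h0', hord, hord', push_add, Prod.snd_add, Finsupp.add_apply]
    push_cast
    ring

/-- a point reducing to a node: sections of `redSub L(nY - P)` not vanishing at `Q` -/
theorem exact₂_single_of_not_smoothRed (C : NCtx D Y Y₁ Y₂ g g₁ g₂) [Infinite k]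
    {Q : Place k F₂} (hQ : ∀ c, D.x₂ c ≠ Q) {P : Place L F}
    (hP : ¬ SmoothRed D Y Y₁ Y₂ g₁ g₂ P) :
    Exact₂ D Y Y₁ Y₂ g₁ g₂ Q (Finsupp.single P 1) := by
  have hs0 : (0 : ℤ) ≤ D.s := Int.natCast_nonneg _
  obtain ⟨N, hN⟩ := C.exists_level
  refine ⟨N, fun n hn => ?_⟩
  obtain ⟨hn₁, hn₂⟩ := hN n hn
  obtain ⟨c, hc⟩ := exists_nodeRedAt C hP hn₁ hn₂
  have hV := redSub_eq_of_nodeRedAt C hn₁ hn₂ hc
  have zY₂ : ∀ c, ((n : ℤ) • Y₂ : Divisor k F₂) (D.x₂ c) = 0 := fun c => by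
    rw [Finsupp.smul_apply, C.Y₂_x₂, smul_zero]
  -- a section of `L(nY₂ - Σ x₂ c)` of exact order at `Q`
  obtain ⟨φ₂, hφ, hφ0, hord⟩ := Curve.exists_ord_eq_neg C.curve₂
    (D := (n : ℤ) • Y₂ - sumPts D.x₂) (by
      rw [map_sub, map_zsmul, smul_eq_mul, degree_sumPts D.x₂ C.curve₂.deg_eq_one]; linarith) Q
  have hmemR : ((0 : F₁), φ₂) ∈ NS D.x₁ D.x₂ ((n : ℤ) • Y₁) ((n : ℤ) • Y₂) :=
    zero_pair_mem_NS C.x₂_inj _ zY₂ hφ
  have hmem : ((0 : F₁), φ₂) ∈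
      NS D.x₁ D.x₂ ((n : ℤ) • Y₁ - Finsupp.single (D.x₁ c) 1) ((n : ℤ) • Y₂) :=
    ⟨Submodule.zero_mem _, hmemR.2.1, hmemR.2.2⟩
  rw [← hV] at hmem
  obtain ⟨h, hW, hO, hh⟩ := hmem
  have h1 : (D.redF h).2 = φ₂ := by rw [hh]
  refine ⟨h, hW, hO, by rw [h1]; exact hφ0, ?_⟩
  rw [h1, hord, Finsupp.sub_apply, Finsupp.smul_apply, smul_eq_mul,
    sumPts_apply_of_forall_ne hQ, push_single, one_smul, pushPt, dif_neg hP]
  simp

theorem exact₂_single (C : NCtx D Y Y₁ Y₂ g g₁ g₂) [Infinite k]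
    {Q : Place k F₂} (hQ : ∀ c, D.x₂ c ≠ Q) (P : Place L F) :
    Exact₂ D Y Y₁ Y₂ g₁ g₂ Q (Finsupp.single P 1) := by
  by_cases hP : SmoothRed D Y Y₁ Y₂ g₁ g₂ P
  · exact exact₂_single_of_smoothRed C Q hP
  · exact exact₂_single_of_not_smoothRed C hQ hP

theorem exact₂_single_nat (C : NCtx D Y Y₁ Y₂ g g₁ g₂) [Infinite k]
    {Q : Place k F₂} (hQ : ∀ c, D.x₂ c ≠ Q) (P : Place L F) (m : ℕ) :
    Exact₂ D Y Y₁ Y₂ g₁ g₂ Q (Finsupp.single P (m : ℤ)) := by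
  induction m with
  | zero => simpa using exact₂_zero C Q
  | succ m ih =>
    rw [Nat.cast_succ, Finsupp.single_add]
    exact exact₂_add ih (exact₂_single C hQ P)

/-- **Claim A** on the second component -/
theorem exact₂ (C : NCtx D Y Y₁ Y₂ g g₁ g₂) [Infinite k]
    {Q : Place k F₂} (hQ : ∀ c, D.x₂ c ≠ Q) (E : Divisor L F) (hE : 0 ≤ E) :
    Exact₂ D Y Y₁ Y₂ g₁ g₂ Q E := by
  classical
  induction E using Finsupp.induction with
  | zero => exact exact₂_zero C Q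
  | single_add P b f hP hb ih =>
    have hfP : f P = 0 := Finsupp.notMem_support_iff.1 hP
    have hb0 : 0 ≤ b := by
      have := Finsupp.le_def.1 hE P
      rwa [Finsupp.zero_apply, Finsupp.add_apply, Finsupp.single_eq_same, hfP, add_zero] at this
    have hf0 : 0 ≤ f := by
      rw [Finsupp.le_def]
      intro v
      by_cases hv : v = P
      · subst hv; rw [hfP]; simp
      · have := Finsupp.le_def.1 hE v
        rwa [Finsupp.zero_apply, Finsupp.add_apply, Finsupp.single_apply, if_neg (Ne.symm hv),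
          zero_add] at this
    obtain ⟨m, rfl⟩ := Int.eq_ofNat_of_zero_le hb0
    exact exact₂_add (exact₂_single_nat C hQ P m) (ih hf0)

end Fermat.Agent.S33lib.NRed
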