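/-
S33lib / NRed / Local  (helper6)

**Local conservation (LC) on the first component.**  For `y ∈ F` with `V₁.redF y ≠ 0` (NO hypothesis
with respect to the second valuation) and a smooth point `Q` of the first component:

  `(r_* div y).1 (Q) = ord_Q (V₁.redF y)`,   i.e.   `Σ_{P ↦ Q} ord_P y = ord_Q ȳ₁`.

Steps: push-forward bookkeeping; the local lower bound for `u ∈ L(nY - Z) ∩ O`; the inequality `≤`
for `f ∈ O` (sections of exact order, `NRed/Exact`); the damping function `e` with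
`red e = (φ₁, 0)` and rank one, for `f ∈ V₁.O` only; finally `f` and `f⁻¹`.
-/
import Fermat.Agent.S33lib.NRed.Exact
import Fermat.Agent.S18lib.Setup.DatumFibre

set_option autoImplicit false

noncomputable section

namespace Fermat.Agent.S33lib.NRed

open AlgebraicCurve Module
open Fermat.Agent.S18lib Fermat.Agent.LSb Fermat.Agent.LSb.Core Fermat.Agent.S37lib

variable {L : Type*} [Field L] {A : ValuationSubring L}
variable {F : Type*} [Field F] [Algebra L F]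
variable {F₁ F₂ : Type*} [Field F₁] [Field F₂]
variable [Algebra (IsLocalRing.ResidueField A) F₁] [Algebra (IsLocalRing.ResidueField A) F₂]

local notation "k" => IsLocalRing.ResidueField A

/-! ### rank one and damping -/

/-- rank one: powers of an element of the maximal ideal eventually absorb any constant -/
theorem exists_pow_mul_inv_mem
    (hr : ∀ c : A, c ∈ IsLocalRing.maximalIdeal A → ∀ d : A, d ≠ 0 → ∃ n : ℕ, ¬ c ^ n ∣ d)
    {a : A} (ha : a ∈ IsLocalRing.maximalIdeal A) {c : L} (hc : c ≠ 0) :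
    ∃ N : ℕ, ∀ n, N ≤ n → (a : L) ^ n * c⁻¹ ∈ A := by
  rcases A.mem_or_inv_mem c with hcA | hcinv
  · have hd : (⟨c, hcA⟩ : A) ≠ 0 := fun h => hc (congrArg Subtype.val h)
    obtain ⟨N, hN⟩ := hr a ha ⟨c, hcA⟩ hd
    have hmem : (a : L) ^ N * c⁻¹ ∈ A := by
      by_contra h
      have h2 := (A.mem_or_inv_mem ((a : L) ^ N * c⁻¹)).resolve_left h
      have haN : (a : L) ^ N ≠ 0 := by
        intro h0
        apply h
        rw [h0, zero_mul]
        exact A.zero_mem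
      apply hN
      refine ⟨⟨((a : L) ^ N * c⁻¹)⁻¹, h2⟩, Subtype.ext ?_⟩
      show c = ((a ^ N : A) : L) * ((a : L) ^ N * c⁻¹)⁻¹
      push_cast
      field_simp
    refine ⟨N, fun n hn => ?_⟩
    obtain ⟨j, rfl⟩ := Nat.exists_eq_add_of_le hn
    have e : (a : L) ^ (N + j) * c⁻¹ = (a : L) ^ j * ((a : L) ^ N * c⁻¹) := by
      rw [pow_add]; ring
    rw [e]
    exact A.mul_mem _ _ (pow_mem a.2 j) hmem
  · exact ⟨0, fun n _ => A.mul_mem _ _ (pow_mem a.2 n) hcinv⟩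

/-- **damping**: if `e ∈ O` has zero reduction then `y eⁿ ∈ O` for all large `n` -/
theorem damp_mul_mem {Fk : Type*} [Field Fk] [Algebra (IsLocalRing.ResidueField A) Fk]
    (V : GaussDatum A F Fk)
    (hr : ∀ c : A, c ∈ IsLocalRing.maximalIdeal A → ∀ d : A, d ≠ 0 → ∃ n : ℕ, ¬ c ^ n ∣ d)
    {e : F} (he : e ∈ V.O) (he0 : V.redF e = 0) (y : F) :
    ∃ N : ℕ, ∀ n, N ≤ n → y * e ^ n ∈ V.O := by
  rcases eq_or_ne y 0 with rfl | hy
  · exact ⟨0, fun n _ => by rw [zero_mul]; exact V.O.zero_mem⟩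
  rcases eq_or_ne e 0 with rfl | hee
  · refine ⟨1, fun n hn => ?_⟩
    rw [zero_pow (by omega), mul_zero]
    exact V.O.zero_mem
  obtain ⟨a, e', ha, he', rfl⟩ := V.exists_eq_mul_of_redF_eq_zero he hee he0
  have he'O : e' ∈ V.O := V.mem_of_redF_ne_zero he'
  obtain ⟨c, hc, u, hu⟩ := V.exists_const_mul_isUnit y hy
  obtain ⟨N, hN⟩ := exists_pow_mul_inv_mem hr ha hc
  refine ⟨N, fun n hn => ?_⟩
  have hcF : algebraMap L F c ≠ 0 := (map_ne_zero _).2 hc
  have hy' : y = algebraMap L F c⁻¹ * ((u : V.O) : F) := by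
    rw [← hu, map_inv₀, ← mul_assoc, inv_mul_cancel₀ hcF, one_mul]
  have e1 : y * (algebraMap L F (a : L) * e') ^ n =
      algebraMap L F ((a : L) ^ n * c⁻¹) * (((u : V.O) : F) * e' ^ n) := by
    rw [hy', mul_pow, map_mul, map_pow]; ring
  rw [e1]
  exact V.smul_mem ⟨_, hN n hn⟩ (V.O.mul_mem _ _ (u : V.O).2 (V.O.pow_mem he'O n))

/-! ### bookkeeping for the push-forward -/

variable {D : NodalDatum A F F₁ F₂} {Y : Divisor L F}
  {Y₁ : Divisor (IsLocalRing.ResidueField A) F₁} {Y₂ : Divisor (IsLocalRing.ResidueField A) F₂}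
  {g g₁ g₂ : ℕ}

/-- the push-forward as an additive map -/
def pushHom (D : NodalDatum A F F₁ F₂) (Y : Divisor L F) (Y₁ : Divisor k F₁)
    (Y₂ : Divisor k F₂) (g₁ g₂ : ℕ) : Divisor L F →+ Divisor k F₁ × Divisor k F₂ where
  toFun := push D Y Y₁ Y₂ g₁ g₂
  map_zero' := push_zero
  map_add' := push_add

theorem push_zsmul (n : ℤ) (E : Divisor L F) :
    push D Y Y₁ Y₂ g₁ g₂ (n • E) = n • push D Y Y₁ Y₂ g₁ g₂ E :=
  map_zsmul (pushHom D Y Y₁ Y₂ g₁ g₂) n E

theorem push_nsmul (n : ℕ) (E : Divisor L F) :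
    push D Y Y₁ Y₂ g₁ g₂ (n • E) = n • push D Y Y₁ Y₂ g₁ g₂ E :=
  map_nsmul (pushHom D Y Y₁ Y₂ g₁ g₂) n E

theorem pushPt_eq_zero_or (P : Place L F) :
    pushPt D Y Y₁ Y₂ g₁ g₂ P = 0 ∨
      ∃ q, RedTo D Y Y₁ Y₂ g₁ g₂ P q ∧ pushPt D Y Y₁ Y₂ g₁ g₂ P = ptDiv q := by
  by_cases h : SmoothRed D Y Y₁ Y₂ g₁ g₂ P
  · right
    refine ⟨h.choose, h.choose_spec, ?_⟩
    rw [pushPt, dif_pos h]
  · left
    rw [pushPt, dif_neg h]

theorem ptDiv_fst_nonneg (q : Place k F₁ ⊕ Place k F₂) (Q : Place k F₁) :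
    0 ≤ (ptDiv q).1 Q := by
  classical
  rcases q with Q' | Q'
  · show 0 ≤ (Finsupp.single Q' (1 : ℤ)) Q
    rw [Finsupp.single_apply]; split_ifs <;> simp
  · show 0 ≤ (0 : Divisor k F₁) Q
    simp

theorem ptDiv_snd_nonneg (q : Place k F₁ ⊕ Place k F₂) (Q : Place k F₂) :
    0 ≤ (ptDiv q).2 Q := by
  classical
  rcases q with Q' | Q'
  · show 0 ≤ (0 : Divisor k F₂) Q
    simp
  · show 0 ≤ (Finsupp.single Q' (1 : ℤ)) Q
    rw [Finsupp.single_apply]; split_ifs <;> simp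

theorem pushPt_fst_nonneg (P : Place L F) (Q : Place k F₁) :
    0 ≤ (pushPt D Y Y₁ Y₂ g₁ g₂ P).1 Q := by
  rcases pushPt_eq_zero_or (D := D) (Y := Y) (Y₁ := Y₁) (Y₂ := Y₂) (g₁ := g₁) (g₂ := g₂) P with
    h | ⟨q, -, h⟩
  · rw [h]; simp
  · rw [h]; exact ptDiv_fst_nonneg q Q

theorem pushPt_snd_nonneg (P : Place L F) (Q : Place k F₂) :
    0 ≤ (pushPt D Y Y₁ Y₂ g₁ g₂ P).2 Q := by
  rcases pushPt_eq_zero_or (D := D) (Y := Y) (Y₁ := Y₁) (Y₂ := Y₂) (g₁ := g₁) (g₂ := g₂) P with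
    h | ⟨q, -, h⟩
  · rw [h]; simp
  · rw [h]; exact ptDiv_snd_nonneg q Q

/-- the first component of the push-forward, evaluated at a point -/
theorem push_fst_apply (E : Divisor L F) (Q : Place k F₁) :
    (push D Y Y₁ Y₂ g₁ g₂ E).1 Q = E.sum fun P n => n * (pushPt D Y Y₁ Y₂ g₁ g₂ P).1 Q := by
  rw [push, Finsupp.sum, Finsupp.sum, Prod.fst_sum, Finsupp.finsetSum_apply]
  refine Finset.sum_congr rfl fun P _ => ?_
  rw [Prod.smul_fst, Finsupp.smul_apply, smul_eq_mul]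

/-- the second component of the push-forward, evaluated at a point -/
theorem push_snd_apply (E : Divisor L F) (Q : Place k F₂) :
    (push D Y Y₁ Y₂ g₁ g₂ E).2 Q = E.sum fun P n => n * (pushPt D Y Y₁ Y₂ g₁ g₂ P).2 Q := by
  rw [push, Finsupp.sum, Finsupp.sum, Prod.snd_sum, Finsupp.finsetSum_apply]
  refine Finset.sum_congr rfl fun P _ => ?_
  rw [Prod.smul_snd, Finsupp.smul_apply, smul_eq_mul]

theorem push_fst_nonneg {E : Divisor L F} (hE : 0 ≤ E) (Q : Place k F₁) :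
    0 ≤ (push D Y Y₁ Y₂ g₁ g₂ E).1 Q := by
  rw [push_fst_apply]
  refine Finset.sum_nonneg fun P _ => mul_nonneg ?_ (pushPt_fst_nonneg P Q)
  have := Finsupp.le_def.1 hE P
  simpa using this

theorem push_snd_nonneg {E : Divisor L F} (hE : 0 ≤ E) (Q : Place k F₂) :
    0 ≤ (push D Y Y₁ Y₂ g₁ g₂ E).2 Q := by
  rw [push_snd_apply]
  refine Finset.sum_nonneg fun P _ => mul_nonneg ?_ (pushPt_snd_nonneg P Q)
  have := Finsupp.le_def.1 hE P
  simpa using this

/-- the part of `Z` in the residue disc of `Q` (first component) -/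
def discPart₁ (D : NodalDatum A F F₁ F₂) (Y : Divisor L F) (Y₁ : Divisor k F₁)
    (Y₂ : Divisor k F₂) (g₁ g₂ : ℕ) (Q : Place k F₁) (Z : Divisor L F) : Divisor L F :=
  letI := Classical.decPred fun P : Place L F => (pushPt D Y Y₁ Y₂ g₁ g₂ P).1 Q ≠ 0
  Z.filter fun P => (pushPt D Y Y₁ Y₂ g₁ g₂ P).1 Q ≠ 0

theorem discPart₁_apply (Q : Place k F₁) (Z : Divisor L F) (P : Place L F) :
    discPart₁ D Y Y₁ Y₂ g₁ g₂ Q Z P =
      (letI := Classical.propDecidable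
       if (pushPt D Y Y₁ Y₂ g₁ g₂ P).1 Q ≠ 0 then Z P else 0) := by
  classical
  rw [discPart₁, Finsupp.filter_apply]

theorem discPart₁_le {Z : Divisor L F} (hZ : 0 ≤ Z) (Q : Place k F₁) :
    discPart₁ D Y Y₁ Y₂ g₁ g₂ Q Z ≤ Z := by
  classical
  rw [Finsupp.le_def]
  intro P
  rw [discPart₁_apply]
  split_ifs
  · exact le_rfl
  · have := Finsupp.le_def.1 hZ P
    simpa using this

theorem discPart₁_nonneg {Z : Divisor L F} (hZ : 0 ≤ Z) (Q : Place k F₁) :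
    0 ≤ discPart₁ D Y Y₁ Y₂ g₁ g₂ Q Z := by
  classical
  rw [Finsupp.le_def]
  intro P
  rw [discPart₁_apply, Finsupp.zero_apply]
  split_ifs
  · have := Finsupp.le_def.1 hZ P
    simpa using this
  · exact le_rfl

theorem smoothRed_of_discPart₁_ne_zero {Z : Divisor L F} {Q : Place k F₁} {P : Place L F}
    (h : discPart₁ D Y Y₁ Y₂ g₁ g₂ Q Z P ≠ 0) : SmoothRed D Y Y₁ Y₂ g₁ g₂ P := by
  classical
  rw [discPart₁_apply] at h
  by_contra hP
  apply h
  rw [if_neg]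
  rw [not_not, pushPt, dif_neg hP]
  rfl

theorem push_discPart₁ (Q : Place k F₁) (Z : Divisor L F) :
    (push D Y Y₁ Y₂ g₁ g₂ (discPart₁ D Y Y₁ Y₂ g₁ g₂ Q Z)).1 Q =
      (push D Y Y₁ Y₂ g₁ g₂ Z).1 Q := by
  classical
  rw [push_fst_apply, push_fst_apply, Finsupp.sum, Finsupp.sum]
  have hsub : (discPart₁ D Y Y₁ Y₂ g₁ g₂ Q Z).support ⊆ Z.support := by
    intro P hP
    rw [Finsupp.mem_support_iff, discPart₁_apply] at hP
    rw [Finsupp.mem_support_iff]
    intro h0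
    apply hP
    rw [h0]; simp
  rw [Finset.sum_subset hsub (fun P _ hP => by
    rw [Finsupp.notMem_support_iff.1 hP, zero_mul])]
  refine Finset.sum_congr rfl fun P _ => ?_
  rw [discPart₁_apply]
  split_ifs with h
  · rfl
  · rw [not_not] at h
    rw [h, mul_zero, mul_zero]

end Fermat.Agent.S33lib.NRed
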