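/-
S33lib / NRed / LC1  (helper6)

**(LC) on the first component**: `lc₁ : (r_* div y).1 Q = ord_Q (V₁.redF y)` for `V₁.redF y ≠ 0` and
`Q` a smooth point of the first component.
-/
import Fermat.Agent.S33lib.NRed.Local

set_option autoImplicit false

noncomputable section

namespace Fermat.Agent.S33lib.NRed

open AlgebraicCurve Module
open Fermat.Agent.S18lib Fermat.Agent.LSb Fermat.Agent.LSb.Core Fermat.Agent.S37lib

variable {L : Type*} [Field L] {A : ValuationSubring L}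
variable {F : Type*} [Field F] [Algebra L F]
variable {F₁ F₂ : Type*} [Field F₁] [Field F₂]
variable [Algebra (IsLocalRing.ResidueField A) F₁] [Algebra (IsLocalRing.ResidueField A) F₂]

local notation "k" => IsLocalRing.ResidueField A

variable {D : NodalDatum A F F₁ F₂} {Y : Divisor L F}
  {Y₁ : Divisor (IsLocalRing.ResidueField A) F₁} {Y₂ : Divisor (IsLocalRing.ResidueField A) F₂}
  {g g₁ g₂ : ℕ}

/-- **local lower bound**: for `Z ≥ 0` (arbitrary support) and `n` large, every `u ∈ L(nY - Z) ∩ O`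
with `(red u).1 ≠ 0` vanishes at `Q` to order at least `(r_* Z).1 Q` relative to `nY₁` -/
theorem exists_level_ord_ge₁ (C : NCtx D Y Y₁ Y₂ g g₁ g₂) [Infinite k] (Q : Place k F₁)
    {Z : Divisor L F} (hZ : 0 ≤ Z) :
    ∃ n₁ : ℕ, ∀ n, n₁ ≤ n → ∀ u ∈ riemannRochSpace ((n : ℤ) • Y - Z), u ∈ D.O →
      (D.redF u).1 ≠ 0 →
      -((n : ℤ) * Y₁ Q) + (push D Y Y₁ Y₂ g₁ g₂ Z).1 Q ≤ Q.ord (D.redF u).1 := by
  obtain ⟨n₁, hn₁⟩ := ngood_push C (discPart₁ D Y Y₁ Y₂ g₁ g₂ Q Z) (discPart₁_nonneg hZ Q)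
    fun P hP => smoothRed_of_discPart₁_ne_zero hP
  refine ⟨n₁, fun n hn u hu huO hu0 => ?_⟩
  obtain ⟨-, -, -, -, -, hJ⟩ := hn₁ n hn
  have hu' : u ∈ riemannRochSpace ((n : ℤ) • Y - discPart₁ D Y Y₁ Y₂ g₁ g₂ Q Z) :=
    riemannRochSpace_mono (sub_le_sub_left (discPart₁_le hZ Q) _) hu
  have hmem : D.redF u ∈ D.redSub
      (riemannRochSpace ((n : ℤ) • Y - discPart₁ D Y Y₁ Y₂ g₁ g₂ Q Z)) :=
    NodalDatum.redF_mem_redSub hu' huO
  rw [hJ] at hmem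
  have := (mem_riemannRochSpace_iff.1 hmem.1 Q).resolve_left hu0
  rw [Finsupp.sub_apply, Finsupp.smul_apply, smul_eq_mul, push_discPart₁] at this
  linarith

variable [HasPrincipalDivisors L F]

omit [Algebra (IsLocalRing.ResidueField A) F₁] [Algebra (IsLocalRing.ResidueField A) F₂] in
/-- `f ∈ L(polesOf f - zerosOf f)` -/
theorem mem_rr_polesOf_sub_zerosOf {f : F} (hf : f ≠ 0) :
    f ∈ riemannRochSpace (polesOf (K := L) f - zerosOf (K := L) f) := by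
  have e : polesOf (K := L) f - zerosOf (K := L) f = -divOf (K := L) f := by
    rw [← zerosOf_sub_polesOf]; abel
  rw [e]
  exact Cech.mem_rr_neg_of_div hf fun v => divOf_apply hf v

/-- the inequality `≤` of (LC) for `f ∈ O` -/
theorem push_divOf_le_ord₁_of_mem_O (C : NCtx D Y Y₁ Y₂ g g₁ g₂) [Infinite k] {f : F}
    (hfO : f ∈ D.O) (hf1 : (D.redF f).1 ≠ 0) {Q : Place k F₁} (hQ : ∀ c, D.x₁ c ≠ Q) :
    (push D Y Y₁ Y₂ g₁ g₂ (divOf (K := L) f)).1 Q ≤ Q.ord (D.redF f).1 := by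
  have hf0 : f ≠ 0 := by
    rintro rfl
    exact hf1 (by rw [NodalDatum.redF_zero']; rfl)
  obtain ⟨n₀, hn₀⟩ := exact₁ C hQ (polesOf (K := L) f) (polesOf_nonneg f)
  obtain ⟨n₁, hn₁⟩ := exists_level_ord_ge₁ C Q (zerosOf_nonneg (K := L) f)
  obtain ⟨n, hn⟩ : ∃ n : ℕ, n = max n₀ n₁ := ⟨_, rfl⟩
  obtain ⟨h, hW, hO, h0, hord⟩ := hn₀ n (by rw [hn]; exact le_max_left _ _)
  have hdiv : (polesOf (K := L) f - zerosOf (K := L) f) + ((n : ℤ) • Y - polesOf (K := L) f)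
      = (n : ℤ) • Y - zerosOf (K := L) f := by abel
  have hu : f * h ∈ riemannRochSpace ((n : ℤ) • Y - zerosOf (K := L) f) := by
    rw [← hdiv]
    exact mul_mem_riemannRochSpace (mem_rr_polesOf_sub_zerosOf hf0) hW
  have hred : D.redF (f * h) = D.redF f * D.redF h := NodalDatum.redF_mul hfO hO
  have e1 : (D.redF f * D.redF h).1 = (D.redF f).1 * (D.redF h).1 := rfl
  have hge := hn₁ n (by rw [hn]; exact le_max_right _ _) (f * h) hu (D.O.mul_mem hfO hO)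
    (by rw [hred, e1]; exact mul_ne_zero hf1 h0)
  rw [hred, e1, Q.ord_mul hf1 h0, hord] at hge
  have hpush : push D Y Y₁ Y₂ g₁ g₂ (divOf (K := L) f) =
      push D Y Y₁ Y₂ g₁ g₂ (zerosOf (K := L) f) - push D Y Y₁ Y₂ g₁ g₂ (polesOf (K := L) f) := by
    rw [← push_sub, zerosOf_sub_polesOf]
  rw [hpush, Prod.fst_sub, Finsupp.sub_apply]
  linarith

omit [HasPrincipalDivisors L F] in
/-- a damping function for the first component: `e ∈ L(mY) ∩ O` with `red e = (φ₁, 0)` and `φ₁` of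
exact order at `Q` -/
theorem exists_damp₁ (C : NCtx D Y Y₁ Y₂ g g₁ g₂) {Q : Place k F₁} (hQ : ∀ c, D.x₁ c ≠ Q) :
    ∃ (m : ℕ) (e : F), e ∈ riemannRochSpace ((m : ℤ) • Y) ∧ e ∈ D.O ∧ (D.redF e).1 ≠ 0 ∧
      (D.redF e).2 = 0 ∧ Q.ord (D.redF e).1 = -((m : ℤ) * Y₁ Q) := by
  have hs0 : (0 : ℤ) ≤ D.s := Int.natCast_nonneg _
  obtain ⟨N, hN⟩ := C.exists_level
  obtain ⟨hn₁, hn₂⟩ := hN N le_rfl
  have zY₁ : ∀ c, ((N : ℤ) • Y₁ : Divisor k F₁) (D.x₁ c) = 0 := fun c => by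
    rw [Finsupp.smul_apply, C.Y₁_x₁, smul_zero]
  obtain ⟨φ₁, hφ, hφ0, hord⟩ := Curve.exists_ord_eq_neg C.curve₁
    (D := (N : ℤ) • Y₁ - sumPts D.x₁) (by
      rw [map_sub, map_zsmul, smul_eq_mul, degree_sumPts D.x₁ C.curve₁.deg_eq_one]; linarith) Q
  have hmemR : (φ₁, (0 : F₂)) ∈ NS D.x₁ D.x₂ ((N : ℤ) • Y₁) ((N : ℤ) • Y₂) :=
    pair_zero_mem_NS C.x₁_inj _ zY₁ hφ
  obtain ⟨e, heO, heW, he⟩ := C.lift N (by linarith) (by linarith) _ hmemR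
  refine ⟨N, e, heW, heO, by rw [he]; exact hφ0, by rw [he], ?_⟩
  rw [he]
  show Q.ord φ₁ = _
  rw [hord, Finsupp.sub_apply, Finsupp.smul_apply, smul_eq_mul, sumPts_apply_of_forall_ne hQ]
  ring

/-- the inequality `≤` of (LC) for `f ∈ V₁.O` with nonzero reduction (no hypothesis on `V₂`) -/
theorem push_divOf_le_ord₁ (C : NCtx D Y Y₁ Y₂ g g₁ g₂) [Infinite k] {f : F}
    (hf1 : D.V₁.redF f ≠ 0) {Q : Place k F₁} (hQ : ∀ c, D.x₁ c ≠ Q) :
    (push D Y Y₁ Y₂ g₁ g₂ (divOf (K := L) f)).1 Q ≤ Q.ord (D.V₁.redF f) := by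
  have hfO₁ : f ∈ D.V₁.O := D.V₁.mem_of_redF_ne_zero hf1
  have hf0 : f ≠ 0 := by
    rintro rfl
    exact hf1 D.V₁.redF_zero
  obtain ⟨m, e, heW, heO, he1, he2, hord⟩ := exists_damp₁ C hQ
  have he1' : D.V₁.redF e ≠ 0 := he1
  have he2' : D.V₂.redF e = 0 := he2
  have heO' := NodalDatum.mem_O.1 heO
  have he0 : e ≠ 0 := by
    rintro rfl
    exact he1' D.V₁.redF_zero
  obtain ⟨N, hN⟩ := damp_mul_mem D.V₂ C.rankOne heO'.2 he2' f
  have hmem₂ : f * e ^ N ∈ D.V₂.O := hN N le_rfl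
  have hmem₁ : f * e ^ N ∈ D.V₁.O := D.V₁.O.mul_mem _ _ hfO₁ (D.V₁.O.pow_mem heO'.1 N)
  have hmemO : f * e ^ N ∈ D.O := NodalDatum.mem_O.2 ⟨hmem₁, hmem₂⟩
  have hred : (D.redF (f * e ^ N)).1 = D.V₁.redF f * D.V₁.redF e ^ N := by
    show D.V₁.redF (f * e ^ N) = _
    rw [D.V₁.redF_mul hfO₁ (D.V₁.O.pow_mem heO'.1 N), D.V₁.redF_pow heO'.1]
  have hne : (D.redF (f * e ^ N)).1 ≠ 0 := by
    rw [hred]; exact mul_ne_zero hf1 (pow_ne_zero N he1')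
  have key := push_divOf_le_ord₁_of_mem_O C hmemO hne hQ
  rw [hred, Q.ord_mul hf1 (pow_ne_zero N he1'), Cech.ord_pow,
    divOf_mul hf0 (pow_ne_zero N he0), divOf_pow, push_add, push_nsmul, Prod.fst_add,
    Finsupp.add_apply, Prod.smul_fst, Finsupp.smul_apply, nsmul_eq_mul] at key
  -- the poles of `e` in the disc of `Q` are bounded by `m Y₁ Q`
  have hepush : -((m : ℤ) * Y₁ Q) ≤ (push D Y Y₁ Y₂ g₁ g₂ (divOf (K := L) e)).1 Q := by
    have h1 : 0 ≤ divOf (K := L) e + (m : ℤ) • Y :=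
      ((mem_riemannRochSpace_iff_divOf (K := L)).1 heW).resolve_left he0
    have h2 := push_fst_nonneg (D := D) (Y := Y) (Y₁ := Y₁) (Y₂ := Y₂) (g₁ := g₁) (g₂ := g₂) h1 Q
    rw [push_add, push_zsmul, push_Y C, Prod.fst_add, Finsupp.add_apply, Prod.smul_fst,
      Finsupp.smul_apply, smul_eq_mul] at h2
    linarith
  have hN0 : (0 : ℤ) ≤ N := Int.natCast_nonneg N
  have he1'' : Q.ord (D.V₁.redF e) = -((m : ℤ) * Y₁ Q) := hord
  rw [he1''] at key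
  nlinarith

/-- **(LC) on the first component** -/
theorem lc₁ (C : NCtx D Y Y₁ Y₂ g g₁ g₂) [Infinite k] {y : F}
    (hy : D.V₁.redF y ≠ 0) {Q : Place k F₁} (hQ : ∀ c, D.x₁ c ≠ Q) :
    (push D Y Y₁ Y₂ g₁ g₂ (divOf (K := L) y)).1 Q = Q.ord (D.V₁.redF y) := by
  apply le_antisymm (push_divOf_le_ord₁ C hy hQ)
  have hinv : D.V₁.redF y⁻¹ ≠ 0 := by
    rw [D.V₁.redF_inv hy]; exact inv_ne_zero hy
  have := push_divOf_le_ord₁ C hinv hQ
  rw [divOf_inv, push_neg, Prod.fst_neg, Finsupp.neg_apply, D.V₁.redF_inv hy, Q.ord_inv] at this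
  linarith

end Fermat.Agent.S33lib.NRed
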