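/-
S33lib / NRed / LC2  (helper6)

**(LC) on the second component**: mirror image of `NRed/Local` (disc parts) and `NRed/LC1`.
`lc₂ : (r_* div y).2 Q = ord_Q (V₂.redF y)` for `V₂.redF y ≠ 0`, `Q` a smooth point of the second
component.
-/
import Fermat.Agent.S33lib.NRed.LC1
import Fermat.Agent.S33lib.NRed.Exact2

set_option autoImplicit false

noncomputable section

namespace Fermat.Agent.S33lib.NRed

open AlgebraicCurve Module
open Fermat.Agent.S18lib Fermat.Agent.LSb Fermat.Agent.LSb.Core Fermat.Agent.S37lib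

variable {L : Type*} [Field L] {A : ValuationSubring L}
variable {F : Type*} [Field F] [Algebra L F]
variable {F₁ F₂ : Type*} [Field F₁] [Field F₂]
variable [Algebra (IsLocalRing.ResidueField A) F₁] [Algebra (IsLocalRing.ResidueField A) F₂]

local notation "k" => IsLocalRing.ResidueField A

variable {D : NodalDatum A F F₁ F₂} {Y : Divisor L F}
  {Y₁ : Divisor (IsLocalRing.ResidueField A) F₁} {Y₂ : Divisor (IsLocalRing.ResidueField A) F₂}
  {g g₁ g₂ : ℕ}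

/-- the part of `Z` in the residue disc of `Q` (second component) -/
def discPart₂ (D : NodalDatum A F F₁ F₂) (Y : Divisor L F) (Y₁ : Divisor k F₁)
    (Y₂ : Divisor k F₂) (g₁ g₂ : ℕ) (Q : Place k F₂) (Z : Divisor L F) : Divisor L F :=
  letI := Classical.decPred fun P : Place L F => (pushPt D Y Y₁ Y₂ g₁ g₂ P).2 Q ≠ 0
  Z.filter fun P => (pushPt D Y Y₁ Y₂ g₁ g₂ P).2 Q ≠ 0

theorem discPart₂_apply (Q : Place k F₂) (Z : Divisor L F) (P : Place L F) :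
    discPart₂ D Y Y₁ Y₂ g₁ g₂ Q Z P =
      (letI := Classical.propDecidable
       if (pushPt D Y Y₁ Y₂ g₁ g₂ P).2 Q ≠ 0 then Z P else 0) := by
  classical
  rw [discPart₂, Finsupp.filter_apply]

theorem discPart₂_le {Z : Divisor L F} (hZ : 0 ≤ Z) (Q : Place k F₂) :
    discPart₂ D Y Y₁ Y₂ g₁ g₂ Q Z ≤ Z := by
  classical
  rw [Finsupp.le_def]
  intro P
  rw [discPart₂_apply]
  split_ifs
  · exact le_rfl
  · have := Finsupp.le_def.1 hZ P
    simpa using this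

theorem discPart₂_nonneg {Z : Divisor L F} (hZ : 0 ≤ Z) (Q : Place k F₂) :
    0 ≤ discPart₂ D Y Y₁ Y₂ g₁ g₂ Q Z := by
  classical
  rw [Finsupp.le_def]
  intro P
  rw [discPart₂_apply, Finsupp.zero_apply]
  split_ifs
  · have := Finsupp.le_def.1 hZ P
    simpa using this
  · exact le_rfl

theorem smoothRed_of_discPart₂_ne_zero {Z : Divisor L F} {Q : Place k F₂} {P : Place L F}
    (h : discPart₂ D Y Y₁ Y₂ g₁ g₂ Q Z P ≠ 0) : SmoothRed D Y Y₁ Y₂ g₁ g₂ P := by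
  classical
  rw [discPart₂_apply] at h
  by_contra hP
  apply h
  rw [if_neg]
  rw [not_not, pushPt, dif_neg hP]
  rfl

theorem push_discPart₂ (Q : Place k F₂) (Z : Divisor L F) :
    (push D Y Y₁ Y₂ g₁ g₂ (discPart₂ D Y Y₁ Y₂ g₁ g₂ Q Z)).2 Q =
      (push D Y Y₁ Y₂ g₁ g₂ Z).2 Q := by
  classical
  rw [push_snd_apply, push_snd_apply, Finsupp.sum, Finsupp.sum]
  have hsub : (discPart₂ D Y Y₁ Y₂ g₁ g₂ Q Z).support ⊆ Z.support := by
    intro P hP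
    rw [Finsupp.mem_support_iff, discPart₂_apply] at hP
    rw [Finsupp.mem_support_iff]
    intro h0
    apply hP
    rw [h0]; simp
  rw [Finset.sum_subset hsub (fun P _ hP => by
    rw [Finsupp.notMem_support_iff.1 hP, zero_mul])]
  refine Finset.sum_congr rfl fun P _ => ?_
  rw [discPart₂_apply]
  split_ifs with h
  · rfl
  · rw [not_not] at h
    rw [h, mul_zero, mul_zero]

/-- **local lower bound**: for `Z ≥ 0` (arbitrary support) and `n` large, every `u ∈ L(nY - Z) ∩ O`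
with `(red u).1 ≠ 0` vanishes at `Q` to order at least `(r_* Z).1 Q` relative to `nY₁` -/
theorem exists_level_ord_ge₂ (C : NCtx D Y Y₁ Y₂ g g₁ g₂) [Infinite k] (Q : Place k F₂)
    {Z : Divisor L F} (hZ : 0 ≤ Z) :
    ∃ n₁ : ℕ, ∀ n, n₁ ≤ n → ∀ u ∈ riemannRochSpace ((n : ℤ) • Y - Z), u ∈ D.O →
      (D.redF u).2 ≠ 0 →
      -((n : ℤ) * Y₂ Q) + (push D Y Y₁ Y₂ g₁ g₂ Z).2 Q ≤ Q.ord (D.redF u).2 := by
  obtain ⟨n₁, hn₁⟩ := ngood_push C (discPart₂ D Y Y₁ Y₂ g₁ g₂ Q Z) (discPart₂_nonneg hZ Q)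
    fun P hP => smoothRed_of_discPart₂_ne_zero hP
  refine ⟨n₁, fun n hn u hu huO hu0 => ?_⟩
  obtain ⟨-, -, -, -, -, hJ⟩ := hn₁ n hn
  have hu' : u ∈ riemannRochSpace ((n : ℤ) • Y - discPart₂ D Y Y₁ Y₂ g₁ g₂ Q Z) :=
    riemannRochSpace_mono (sub_le_sub_left (discPart₂_le hZ Q) _) hu
  have hmem : D.redF u ∈ D.redSub
      (riemannRochSpace ((n : ℤ) • Y - discPart₂ D Y Y₁ Y₂ g₁ g₂ Q Z)) :=
    NodalDatum.redF_mem_redSub hu' huO
  rw [hJ] at hmem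
  have := (mem_riemannRochSpace_iff.1 hmem.2.1 Q).resolve_left hu0
  rw [Finsupp.sub_apply, Finsupp.smul_apply, smul_eq_mul, push_discPart₂] at this
  linarith

variable [HasPrincipalDivisors L F]

/-- the inequality `≤` of (LC) for `f ∈ O` -/
theorem push_divOf_le_ord₂_of_mem_O (C : NCtx D Y Y₁ Y₂ g g₁ g₂) [Infinite k] {f : F}
    (hfO : f ∈ D.O) (hf1 : (D.redF f).2 ≠ 0) {Q : Place k F₂} (hQ : ∀ c, D.x₂ c ≠ Q) :
    (push D Y Y₁ Y₂ g₁ g₂ (divOf (K := L) f)).2 Q ≤ Q.ord (D.redF f).2 := by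
  have hf0 : f ≠ 0 := by
    rintro rfl
    exact hf1 (by rw [NodalDatum.redF_zero']; rfl)
  obtain ⟨n₀, hn₀⟩ := exact₂ C hQ (polesOf (K := L) f) (polesOf_nonneg f)
  obtain ⟨n₁, hn₁⟩ := exists_level_ord_ge₂ C Q (zerosOf_nonneg (K := L) f)
  obtain ⟨n, hn⟩ : ∃ n : ℕ, n = max n₀ n₁ := ⟨_, rfl⟩
  obtain ⟨h, hW, hO, h0, hord⟩ := hn₀ n (by rw [hn]; exact le_max_left _ _)
  have hdiv : (polesOf (K := L) f - zerosOf (K := L) f) + ((n : ℤ) • Y - polesOf (K := L) f)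
      = (n : ℤ) • Y - zerosOf (K := L) f := by abel
  have hu : f * h ∈ riemannRochSpace ((n : ℤ) • Y - zerosOf (K := L) f) := by
    rw [← hdiv]
    exact mul_mem_riemannRochSpace (mem_rr_polesOf_sub_zerosOf hf0) hW
  have hred : D.redF (f * h) = D.redF f * D.redF h := NodalDatum.redF_mul hfO hO
  have e1 : (D.redF f * D.redF h).2 = (D.redF f).2 * (D.redF h).2 := rfl
  have hge := hn₁ n (by rw [hn]; exact le_max_right _ _) (f * h) hu (D.O.mul_mem hfO hO)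
    (by rw [hred, e1]; exact mul_ne_zero hf1 h0)
  rw [hred, e1, Q.ord_mul hf1 h0, hord] at hge
  have hpush : push D Y Y₁ Y₂ g₁ g₂ (divOf (K := L) f) =
      push D Y Y₁ Y₂ g₁ g₂ (zerosOf (K := L) f) - push D Y Y₁ Y₂ g₁ g₂ (polesOf (K := L) f) := by
    rw [← push_sub, zerosOf_sub_polesOf]
  rw [hpush, Prod.snd_sub, Finsupp.sub_apply]
  linarith

omit [HasPrincipalDivisors L F] in
/-- a damping function for the second component: `e ∈ L(mY) ∩ O` with `red e = (0, φ₂)` and `φ₂` of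
exact order at `Q` -/
theorem exists_damp₂ (C : NCtx D Y Y₁ Y₂ g g₁ g₂) {Q : Place k F₂} (hQ : ∀ c, D.x₂ c ≠ Q) :
    ∃ (m : ℕ) (e : F), e ∈ riemannRochSpace ((m : ℤ) • Y) ∧ e ∈ D.O ∧ (D.redF e).2 ≠ 0 ∧
      (D.redF e).1 = 0 ∧ Q.ord (D.redF e).2 = -((m : ℤ) * Y₂ Q) := by
  have hs0 : (0 : ℤ) ≤ D.s := Int.natCast_nonneg _
  obtain ⟨N, hN⟩ := C.exists_level
  obtain ⟨hn₁, hn₂⟩ := hN N le_rfl
  have zY₂ : ∀ c, ((N : ℤ) • Y₂ : Divisor k F₂) (D.x₂ c) = 0 := fun c => by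
    rw [Finsupp.smul_apply, C.Y₂_x₂, smul_zero]
  obtain ⟨φ₂, hφ, hφ0, hord⟩ := Curve.exists_ord_eq_neg C.curve₂
    (D := (N : ℤ) • Y₂ - sumPts D.x₂) (by
      rw [map_sub, map_zsmul, smul_eq_mul, degree_sumPts D.x₂ C.curve₂.deg_eq_one]; linarith) Q
  have hmemR : ((0 : F₁), φ₂) ∈ NS D.x₁ D.x₂ ((N : ℤ) • Y₁) ((N : ℤ) • Y₂) :=
    zero_pair_mem_NS C.x₂_inj _ zY₂ hφ
  obtain ⟨e, heO, heW, he⟩ := C.lift N (by linarith) (by linarith) _ hmemR
  refine ⟨N, e, heW, heO, by rw [he]; exact hφ0, by rw [he], ?_⟩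
  rw [he]
  show Q.ord φ₂ = _
  rw [hord, Finsupp.sub_apply, Finsupp.smul_apply, smul_eq_mul, sumPts_apply_of_forall_ne hQ]
  ring

/-- the inequality `≤` of (LC) for `f ∈ V₂.O` with nonzero reduction (no hypothesis on `V₁`) -/
theorem push_divOf_le_ord₂ (C : NCtx D Y Y₁ Y₂ g g₁ g₂) [Infinite k] {f : F}
    (hf1 : D.V₂.redF f ≠ 0) {Q : Place k F₂} (hQ : ∀ c, D.x₂ c ≠ Q) :
    (push D Y Y₁ Y₂ g₁ g₂ (divOf (K := L) f)).2 Q ≤ Q.ord (D.V₂.redF f) := by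
  have hfO₂ : f ∈ D.V₂.O := D.V₂.mem_of_redF_ne_zero hf1
  have hf0 : f ≠ 0 := by
    rintro rfl
    exact hf1 D.V₂.redF_zero
  obtain ⟨m, e, heW, heO, he1, he2, hord⟩ := exists_damp₂ C hQ
  have he1' : D.V₂.redF e ≠ 0 := he1
  have he2' : D.V₁.redF e = 0 := he2
  have heO' := NodalDatum.mem_O.1 heO
  have he0 : e ≠ 0 := by
    rintro rfl
    exact he1' D.V₂.redF_zero
  obtain ⟨N, hN⟩ := damp_mul_mem D.V₁ C.rankOne heO'.1 he2' f
  have hmem₁ : f * e ^ N ∈ D.V₁.O := hN N le_rfl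
  have hmem₂ : f * e ^ N ∈ D.V₂.O := D.V₂.O.mul_mem _ _ hfO₂ (D.V₂.O.pow_mem heO'.2 N)
  have hmemO : f * e ^ N ∈ D.O := NodalDatum.mem_O.2 ⟨hmem₁, hmem₂⟩
  have hred : (D.redF (f * e ^ N)).2 = D.V₂.redF f * D.V₂.redF e ^ N := by
    show D.V₂.redF (f * e ^ N) = _
    rw [D.V₂.redF_mul hfO₂ (D.V₂.O.pow_mem heO'.2 N), D.V₂.redF_pow heO'.2]
  have hne : (D.redF (f * e ^ N)).2 ≠ 0 := by
    rw [hred]; exact mul_ne_zero hf1 (pow_ne_zero N he1')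
  have key := push_divOf_le_ord₂_of_mem_O C hmemO hne hQ
  rw [hred, Q.ord_mul hf1 (pow_ne_zero N he1'), Cech.ord_pow,
    divOf_mul hf0 (pow_ne_zero N he0), divOf_pow, push_add, push_nsmul, Prod.snd_add,
    Finsupp.add_apply, Prod.smul_snd, Finsupp.smul_apply, nsmul_eq_mul] at key
  -- the poles of `e` in the disc of `Q` are bounded by `m Y₂ Q`
  have hepush : -((m : ℤ) * Y₂ Q) ≤ (push D Y Y₁ Y₂ g₁ g₂ (divOf (K := L) e)).2 Q := by
    have h1 : 0 ≤ divOf (K := L) e + (m : ℤ) • Y :=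
      ((mem_riemannRochSpace_iff_divOf (K := L)).1 heW).resolve_left he0
    have h2 := push_snd_nonneg (D := D) (Y := Y) (Y₁ := Y₁) (Y₂ := Y₂) (g₁ := g₁) (g₂ := g₂) h1 Q
    rw [push_add, push_zsmul, push_Y C, Prod.snd_add, Finsupp.add_apply, Prod.smul_snd,
      Finsupp.smul_apply, smul_eq_mul] at h2
    linarith
  have hN0 : (0 : ℤ) ≤ N := Int.natCast_nonneg N
  have he1'' : Q.ord (D.V₂.redF e) = -((m : ℤ) * Y₂ Q) := hord
  rw [he1''] at key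
  nlinarith

/-- **(LC) on the second component** -/
theorem lc₂ (C : NCtx D Y Y₁ Y₂ g g₁ g₂) [Infinite k] {y : F}
    (hy : D.V₂.redF y ≠ 0) {Q : Place k F₂} (hQ : ∀ c, D.x₂ c ≠ Q) :
    (push D Y Y₁ Y₂ g₁ g₂ (divOf (K := L) y)).2 Q = Q.ord (D.V₂.redF y) := by
  apply le_antisymm (push_divOf_le_ord₂ C hy hQ)
  have hinv : D.V₂.redF y⁻¹ ≠ 0 := by
    rw [D.V₂.redF_inv hy]; exact inv_ne_zero hy
  have := push_divOf_le_ord₂ C hinv hQ
  rw [divOf_inv, push_neg, Prod.snd_neg, Finsupp.neg_apply, D.V₂.redF_inv hy, Q.ord_inv] at this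
  linarith

end Fermat.Agent.S33lib.NRed
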