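/-
S33lib / NRed / Surj  (helper6)

**Every smooth point of the special fibre is the reduction of a place** (`exists_redTo₁/₂`), as a
consequence of (LC) applied to a function whose reduction has a simple zero at the given point.
Also `eq_of_pushPt_ne_zero`: a place contributing to `r_* E` at `Q` reduces to `Q`.
-/
import Fermat.Agent.S33lib.NRed.LC2

set_option autoImplicit false

noncomputable section

namespace Fermat.Agent.S33lib.NRed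

open AlgebraicCurve Module
open Fermat.Agent.S18lib Fermat.Agent.LSb Fermat.Agent.LSb.Core Fermat.Agent.S37lib

variable {L : Type*} [Field L] {A : ValuationSubring L}
variable {F : Type*} [Field F] [Algebra L F]
variable {F₁ F₂ : Type*} [Field F₁] [Field F₂]
variable [Algebra (IsLocalRing.ResidueField A) F₁] [Algebra (IsLocalRing.ResidueField A) F₂]

local notation "k" => IsLocalRing.ResidueField A

variable {D : NodalDatum A F F₁ F₂} {Y : Divisor L F}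
  {Y₁ : Divisor (IsLocalRing.ResidueField A) F₁} {Y₂ : Divisor (IsLocalRing.ResidueField A) F₂}
  {g g₁ g₂ : ℕ}

/-- a place contributing to the first component of the push-forward at `Q` reduces to `Q` -/
theorem redTo_of_pushPt_fst_ne_zero {P : Place L F} {Q : Place k F₁}
    (h : (pushPt D Y Y₁ Y₂ g₁ g₂ P).1 Q ≠ 0) : RedTo D Y Y₁ Y₂ g₁ g₂ P (Sum.inl Q) := by
  classical
  rcases pushPt_eq_zero_or (D := D) (Y := Y) (Y₁ := Y₁) (Y₂ := Y₂) (g₁ := g₁) (g₂ := g₂) P with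
    h0 | ⟨q, hq, h1⟩
  · rw [h0] at h
    exact absurd rfl h
  · rw [h1] at h
    rcases q with Q' | Q'
    · have h2 : (Finsupp.single Q' (1 : ℤ)) Q ≠ 0 := h
      rw [Finsupp.single_apply] at h2
      by_cases hQ : Q' = Q
      · subst hQ; exact hq
      · rw [if_neg hQ] at h2; exact absurd rfl h2
    · exact absurd rfl h

/-- a place contributing to the second component of the push-forward at `Q` reduces to `Q` -/
theorem redTo_of_pushPt_snd_ne_zero {P : Place L F} {Q : Place k F₂}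
    (h : (pushPt D Y Y₁ Y₂ g₁ g₂ P).2 Q ≠ 0) : RedTo D Y Y₁ Y₂ g₁ g₂ P (Sum.inr Q) := by
  classical
  rcases pushPt_eq_zero_or (D := D) (Y := Y) (Y₁ := Y₁) (Y₂ := Y₂) (g₁ := g₁) (g₂ := g₂) P with
    h0 | ⟨q, hq, h1⟩
  · rw [h0] at h
    exact absurd rfl h
  · rw [h1] at h
    rcases q with Q' | Q'
    · exact absurd rfl h
    · have h2 : (Finsupp.single Q' (1 : ℤ)) Q ≠ 0 := h
      rw [Finsupp.single_apply] at h2
      by_cases hQ : Q' = Q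
      · subst hQ; exact hq
      · rw [if_neg hQ] at h2; exact absurd rfl h2

variable [HasPrincipalDivisors L F]

/-- **surjectivity of the reduction onto the smooth points of the first component** -/
theorem exists_redTo₁ (C : NCtx D Y Y₁ Y₂ g g₁ g₂) [Infinite k] {Q : Place k F₁}
    (hQ : ∀ c, D.x₁ c ≠ Q) : ∃ P, RedTo D Y Y₁ Y₂ g₁ g₂ P (Sum.inl Q) := by
  classical
  have hs0 : (0 : ℤ) ≤ D.s := Int.natCast_nonneg _
  obtain ⟨N, hN⟩ := C.exists_level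
  obtain ⟨n₀, hn₀⟩ := exact₁_zero C Q
  obtain ⟨n, hn⟩ : ∃ n : ℕ, n = max N n₀ := ⟨_, rfl⟩
  obtain ⟨hn₁, hn₂⟩ := hN n (by rw [hn]; exact le_max_left _ _)
  obtain ⟨h₁, -, hO₁, h₁0, hord₁⟩ := hn₀ n (by rw [hn]; exact le_max_right _ _)
  rw [push_zero] at hord₁
  -- a section vanishing simply at `Q` (relative to `nY₁`)
  have zQ : ∀ c, ((n : ℤ) • Y₁ - Finsupp.single Q 1 : Divisor k F₁) (D.x₁ c) = 0 := fun c => by
    rw [sub_single_apply_of_ne _ (hQ c), Finsupp.smul_apply, C.Y₁_x₁, smul_zero]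
  have zY₂ : ∀ c, ((n : ℤ) • Y₂ : Divisor k F₂) (D.x₂ c) = 0 := fun c => by
    rw [Finsupp.smul_apply, C.Y₂_x₂, smul_zero]
  obtain ⟨ψ, hψ, hψ0, hordψ⟩ := exists_mem_NS_ord_eq₁ C.curve₁ C.curve₂ C.x₁_inj C.x₂_inj
    ((n : ℤ) • Y₁ - Finsupp.single Q 1) ((n : ℤ) • Y₂) zQ zY₂
    (by rw [map_sub, map_zsmul, smul_eq_mul, Curve.degree_single_one C.curve₁]; linarith)
    (by rw [map_zsmul, smul_eq_mul]; linarith) Q
  have hψR : ψ ∈ NS D.x₁ D.x₂ ((n : ℤ) • Y₁) ((n : ℤ) • Y₂) := NS_sub_single_le₁ _ _ _ hψ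
  rw [← C.redSub_nsmul_eq (m := n) (by linarith) (by linarith)] at hψR
  obtain ⟨h₂, -, hO₂, rfl⟩ := hψR
  have hO₁' := NodalDatum.mem_O.1 hO₁
  have hO₂' := NodalDatum.mem_O.1 hO₂
  have h₁0' : D.V₁.redF h₁ ≠ 0 := h₁0
  have hψ0' : D.V₁.redF h₂ ≠ 0 := hψ0
  have hinv : h₁⁻¹ ∈ D.V₁.O := D.V₁.inv_mem_of_redF_ne_zero h₁0'
  have hred : D.V₁.redF (h₂ * h₁⁻¹) = D.V₁.redF h₂ * (D.V₁.redF h₁)⁻¹ := by
    rw [D.V₁.redF_mul hO₂'.1 hinv, D.V₁.redF_inv h₁0']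
  have hne : D.V₁.redF (h₂ * h₁⁻¹) ≠ 0 := by
    rw [hred]; exact mul_ne_zero hψ0' (inv_ne_zero h₁0')
  have hlc := lc₁ C hne hQ
  have hord₁' : Q.ord (D.V₁.redF h₁) = -((n : ℤ) * Y₁ Q) + (0 : Divisor k F₁ × Divisor k F₂).1 Q :=
    hord₁
  have hordψ' : Q.ord (D.V₁.redF h₂) =
      -((n : ℤ) • Y₁ - Finsupp.single Q 1 : Divisor k F₁) Q := hordψ
  rw [hred, Q.ord_mul hψ0' (inv_ne_zero h₁0'), Q.ord_inv, hord₁', hordψ', Finsupp.sub_apply,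
    Finsupp.smul_apply, smul_eq_mul, Finsupp.single_eq_same] at hlc
  have hone : (push D Y Y₁ Y₂ g₁ g₂ (divOf (K := L) (h₂ * h₁⁻¹))).1 Q = 1 := by
    rw [hlc]
    show -((n : ℤ) * Y₁ Q - 1) - (-((n : ℤ) * Y₁ Q) + (0 : Divisor k F₁) Q) = 1
    rw [Finsupp.zero_apply]; ring
  rw [push_fst_apply, Finsupp.sum] at hone
  have hne0 : (∑ P ∈ (divOf (K := L) (h₂ * h₁⁻¹)).support,
      (divOf (K := L) (h₂ * h₁⁻¹)) P * (pushPt D Y Y₁ Y₂ g₁ g₂ P).1 Q) ≠ 0 := by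
    rw [hone]; exact one_ne_zero
  obtain ⟨P, -, hP⟩ := Finset.exists_ne_zero_of_sum_ne_zero hne0
  exact ⟨P, redTo_of_pushPt_fst_ne_zero (right_ne_zero_of_mul hP)⟩

/-- **surjectivity of the reduction onto the smooth points of the second component** -/
theorem exists_redTo₂ (C : NCtx D Y Y₁ Y₂ g g₁ g₂) [Infinite k] {Q : Place k F₂}
    (hQ : ∀ c, D.x₂ c ≠ Q) : ∃ P, RedTo D Y Y₁ Y₂ g₁ g₂ P (Sum.inr Q) := by
  classical
  have hs0 : (0 : ℤ) ≤ D.s := Int.natCast_nonneg _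
  obtain ⟨N, hN⟩ := C.exists_level
  obtain ⟨n₀, hn₀⟩ := exact₂_zero C Q
  obtain ⟨n, hn⟩ : ∃ n : ℕ, n = max N n₀ := ⟨_, rfl⟩
  obtain ⟨hn₁, hn₂⟩ := hN n (by rw [hn]; exact le_max_left _ _)
  obtain ⟨h₁, -, hO₁, h₁0, hord₁⟩ := hn₀ n (by rw [hn]; exact le_max_right _ _)
  rw [push_zero] at hord₁
  have zQ : ∀ c, ((n : ℤ) • Y₂ - Finsupp.single Q 1 : Divisor k F₂) (D.x₂ c) = 0 := fun c => by
    rw [sub_single_apply_of_ne _ (hQ c), Finsupp.smul_apply, C.Y₂_x₂, smul_zero]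
  have zY₁ : ∀ c, ((n : ℤ) • Y₁ : Divisor k F₁) (D.x₁ c) = 0 := fun c => by
    rw [Finsupp.smul_apply, C.Y₁_x₁, smul_zero]
  obtain ⟨ψ, hψ, hψ0, hordψ⟩ := exists_mem_NS_ord_eq₂ C.curve₁ C.curve₂ C.x₁_inj C.x₂_inj
    ((n : ℤ) • Y₁) ((n : ℤ) • Y₂ - Finsupp.single Q 1) zY₁ zQ
    (by rw [map_zsmul, smul_eq_mul]; linarith)
    (by rw [map_sub, map_zsmul, smul_eq_mul, Curve.degree_single_one C.curve₂]; linarith) Q
  have hψR : ψ ∈ NS D.x₁ D.x₂ ((n : ℤ) • Y₁) ((n : ℤ) • Y₂) := NS_sub_single_le₂ _ _ _ hψ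
  rw [← C.redSub_nsmul_eq (m := n) (by linarith) (by linarith)] at hψR
  obtain ⟨h₂, -, hO₂, rfl⟩ := hψR
  have hO₁' := NodalDatum.mem_O.1 hO₁
  have hO₂' := NodalDatum.mem_O.1 hO₂
  have h₁0' : D.V₂.redF h₁ ≠ 0 := h₁0
  have hψ0' : D.V₂.redF h₂ ≠ 0 := hψ0
  have hinv : h₁⁻¹ ∈ D.V₂.O := D.V₂.inv_mem_of_redF_ne_zero h₁0'
  have hred : D.V₂.redF (h₂ * h₁⁻¹) = D.V₂.redF h₂ * (D.V₂.redF h₁)⁻¹ := by
    rw [D.V₂.redF_mul hO₂'.2 hinv, D.V₂.redF_inv h₁0']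
  have hne : D.V₂.redF (h₂ * h₁⁻¹) ≠ 0 := by
    rw [hred]; exact mul_ne_zero hψ0' (inv_ne_zero h₁0')
  have hlc := lc₂ C hne hQ
  have hord₁' : Q.ord (D.V₂.redF h₁) = -((n : ℤ) * Y₂ Q) + (0 : Divisor k F₁ × Divisor k F₂).2 Q :=
    hord₁
  have hordψ' : Q.ord (D.V₂.redF h₂) =
      -((n : ℤ) • Y₂ - Finsupp.single Q 1 : Divisor k F₂) Q := hordψ
  rw [hred, Q.ord_mul hψ0' (inv_ne_zero h₁0'), Q.ord_inv, hord₁', hordψ', Finsupp.sub_apply,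
    Finsupp.smul_apply, smul_eq_mul, Finsupp.single_eq_same] at hlc
  have hone : (push D Y Y₁ Y₂ g₁ g₂ (divOf (K := L) (h₂ * h₁⁻¹))).2 Q = 1 := by
    rw [hlc]
    show -((n : ℤ) * Y₂ Q - 1) - (-((n : ℤ) * Y₂ Q) + (0 : Divisor k F₂) Q) = 1
    rw [Finsupp.zero_apply]; ring
  rw [push_snd_apply, Finsupp.sum] at hone
  have hne0 : (∑ P ∈ (divOf (K := L) (h₂ * h₁⁻¹)).support,
      (divOf (K := L) (h₂ * h₁⁻¹)) P * (pushPt D Y Y₁ Y₂ g₁ g₂ P).2 Q) ≠ 0 := by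
    rw [hone]; exact one_ne_zero
  obtain ⟨P, -, hP⟩ := Finset.exists_ne_zero_of_sum_ne_zero hne0
  exact ⟨P, redTo_of_pushPt_snd_ne_zero (right_ne_zero_of_mul hP)⟩

end Fermat.Agent.S33lib.NRed
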