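/-
S33lib / NRed / Export  (helper6)

The output of `S33lib/NRed` in the shape of helper3's interface `S33lib/N/Datum`:

* `RedTo.unique`     : the smooth reduction of a place is unique;
* `rOf`              : the place map `Place L F → Option (Pt₁ ⊕ Pt₂)` (`none` = reduces to a node);
  `rOf_eq_some_iff`  : `rOf P = some q ↔ RedTo P q`;  `redTo_congr` : `RedTo` depends only on the
                       family `n ↦ redSub L(nY - P)`;
* `push_fst_eq_pushO`, `push_snd_eq_pushO` : bridge to `N.pushO`;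
* **`toNRedDatum`**  : `NCtx D Y Y₁ Y₂ g g₁ g₂ → N.NRedDatum A F F₁ F₂` with `nod = D`, `r = rOf`.
-/
import Fermat.Agent.S33lib.NRed.Surj
import Fermat.Agent.S33lib.N.Datum

set_option autoImplicit false

noncomputable section

namespace Fermat.Agent.S33lib.NRed

open AlgebraicCurve Module
open Fermat.Agent.S18lib Fermat.Agent.LSb Fermat.Agent.LSb.Core Fermat.Agent.S37lib

variable {L : Type*} [Field L] {A : ValuationSubring L}
variable {F : Type*} [Field F] [Algebra L F]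
variable {F₁ F₂ : Type*} [Field F₁] [Field F₂]
variable [Algebra (IsLocalRing.ResidueField A) F₁] [Algebra (IsLocalRing.ResidueField A) F₂]

local notation "k" => IsLocalRing.ResidueField A

variable {D : NodalDatum A F F₁ F₂} {Y : Divisor L F}
  {Y₁ : Divisor (IsLocalRing.ResidueField A) F₁} {Y₂ : Divisor (IsLocalRing.ResidueField A) F₂}
  {g g₁ g₂ : ℕ}

theorem ptDiv_injective :
    Function.Injective (ptDiv : Place k F₁ ⊕ Place k F₂ → Divisor k F₁ × Divisor k F₂) := by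
  classical
  rintro (Q | Q) (Q' | Q') h
  · have h1 : Finsupp.single Q (1 : ℤ) = Finsupp.single Q' 1 := congrArg Prod.fst h
    rw [(Finsupp.single_left_inj one_ne_zero).1 h1]
  · have h1 : Finsupp.single Q (1 : ℤ) = 0 := congrArg Prod.fst h
    exact absurd (Finsupp.single_eq_zero.1 h1) one_ne_zero
  · have h1 : (0 : Divisor k F₁) = Finsupp.single Q' 1 := congrArg Prod.fst h
    exact absurd (Finsupp.single_eq_zero.1 h1.symm) one_ne_zero
  · have h1 : Finsupp.single Q (1 : ℤ) = Finsupp.single Q' 1 := congrArg Prod.snd h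
    rw [(Finsupp.single_left_inj one_ne_zero).1 h1]

theorem ptDiv_fst_x₁ {q : Place k F₁ ⊕ Place k F₂} (hq : IsSmoothPt D q) (c : Fin D.s) :
    (ptDiv q).1 (D.x₁ c) = 0 := by
  classical
  rcases q with Q | Q
  · show (Finsupp.single Q (1 : ℤ)) (D.x₁ c) = 0
    rw [Finsupp.single_apply, if_neg (Ne.symm (hq c))]
  · rfl

theorem ptDiv_snd_x₂ {q : Place k F₁ ⊕ Place k F₂} (hq : IsSmoothPt D q) (c : Fin D.s) :
    (ptDiv q).2 (D.x₂ c) = 0 := by
  classical
  rcases q with Q | Q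
  · rfl
  · show (Finsupp.single Q (1 : ℤ)) (D.x₂ c) = 0
    rw [Finsupp.single_apply, if_neg (Ne.symm (hq c))]

/-- **uniqueness of the smooth reduction** -/
theorem RedTo.unique (C : NCtx D Y Y₁ Y₂ g g₁ g₂) {P : Place L F}
    {q q' : Place k F₁ ⊕ Place k F₂} (h : RedTo D Y Y₁ Y₂ g₁ g₂ P q)
    (h' : RedTo D Y Y₁ Y₂ g₁ g₂ P q') : q = q' := by
  obtain ⟨n, -, h1, h2⟩ := h.2.exists_common h'.2 0
  obtain ⟨z1, z2, -, r1, r2, hJ⟩ := h1
  obtain ⟨z1', z2', -, r1', r2', hJ'⟩ := h2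
  have heq := hJ.symm.trans hJ'
  have hle := le_of_NS_le C.curve₁ C.curve₂ C.x₁_inj C.x₂_inj
    (C.nsmul_sub_x₁ n z1) (C.nsmul_sub_x₂ n z2)
    (by rw [degree_nsmul_sub']; exact r1) (by rw [degree_nsmul_sub']; exact r2) heq.le
  have hge := le_of_NS_le C.curve₁ C.curve₂ C.x₁_inj C.x₂_inj
    (C.nsmul_sub_x₁ n z1') (C.nsmul_sub_x₂ n z2')
    (by rw [degree_nsmul_sub']; exact r1') (by rw [degree_nsmul_sub']; exact r2') heq.ge
  have e1 : (n : ℤ) • Y₁ - (ptDiv q).1 = (n : ℤ) • Y₁ - (ptDiv q').1 := le_antisymm hle.1 hge.1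
  have e2 : (n : ℤ) • Y₂ - (ptDiv q).2 = (n : ℤ) • Y₂ - (ptDiv q').2 := le_antisymm hle.2 hge.2
  exact ptDiv_injective (Prod.ext (sub_right_injective e1) (sub_right_injective e2))

/-- `RedTo` depends only on the family `n ↦ redSub L(nY - P)` -/
theorem redTo_congr (C : NCtx D Y Y₁ Y₂ g g₁ g₂) {P P' : Place L F}
    (h : ∀ n : ℕ, D.redSub (riemannRochSpace ((n : ℤ) • Y - Finsupp.single P 1)) =
      D.redSub (riemannRochSpace ((n : ℤ) • Y - Finsupp.single P' 1)))
    (q : Place k F₁ ⊕ Place k F₂) :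
    RedTo D Y Y₁ Y₂ g₁ g₂ P q ↔ RedTo D Y Y₁ Y₂ g₁ g₂ P' q := by
  have hdeg : Divisor.degree (Finsupp.single P (1 : ℤ)) = Divisor.degree (Finsupp.single P' (1 : ℤ)) := by
    rw [Curve.degree_single_one C.curve, Curve.degree_single_one C.curve]
  constructor
  · rintro ⟨hq, n₀, hn₀⟩
    refine ⟨hq, n₀, fun n hn => ?_⟩
    obtain ⟨z1, z2, hd, r1, r2, hJ⟩ := hn₀ n hn
    exact ⟨z1, z2, by rw [← hdeg]; exact hd, r1, r2, by rw [← h n]; exact hJ⟩
  · rintro ⟨hq, n₀, hn₀⟩
    refine ⟨hq, n₀, fun n hn => ?_⟩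
    obtain ⟨z1, z2, hd, r1, r2, hJ⟩ := hn₀ n hn
    exact ⟨z1, z2, by rw [hdeg]; exact hd, r1, r2, by rw [h n]; exact hJ⟩

/-- **the place map** (`none` = the place reduces to a node) -/
def rOf (D : NodalDatum A F F₁ F₂) (Y : Divisor L F) (Y₁ : Divisor k F₁) (Y₂ : Divisor k F₂)
    (g₁ g₂ : ℕ) (P : Place L F) : Option (N.Pt A F₁ F₂) :=
  letI := Classical.propDecidable
  if h : SmoothRed D Y Y₁ Y₂ g₁ g₂ P then some h.choose else none

theorem rOf_eq_some_iff (C : NCtx D Y Y₁ Y₂ g g₁ g₂) {P : Place L F} {q : N.Pt A F₁ F₂} :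
    rOf D Y Y₁ Y₂ g₁ g₂ P = some q ↔ RedTo D Y Y₁ Y₂ g₁ g₂ P q := by
  classical
  constructor
  · intro h
    by_cases hs : SmoothRed D Y Y₁ Y₂ g₁ g₂ P
    · rw [rOf, dif_pos hs] at h
      rw [← Option.some_injective _ h]
      exact hs.choose_spec
    · rw [rOf, dif_neg hs] at h
      exact absurd h (by simp)
  · intro h
    have hs : SmoothRed D Y Y₁ Y₂ g₁ g₂ P := ⟨q, h⟩
    rw [rOf, dif_pos hs]
    exact congrArg some (RedTo.unique C hs.choose_spec h)

theorem rOf_eq_none_iff {P : Place L F} :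
    rOf D Y Y₁ Y₂ g₁ g₂ P = none ↔ ¬ SmoothRed D Y Y₁ Y₂ g₁ g₂ P := by
  classical
  by_cases hs : SmoothRed D Y Y₁ Y₂ g₁ g₂ P
  · rw [rOf, dif_pos hs]; simp [hs]
  · rw [rOf, dif_neg hs]; simp [hs]

theorem pushPt_eq_of_rOf_eq_some {P : Place L F} {q : N.Pt A F₁ F₂}
    (h : rOf D Y Y₁ Y₂ g₁ g₂ P = some q) : pushPt D Y Y₁ Y₂ g₁ g₂ P = ptDiv q := by
  classical
  by_cases hs : SmoothRed D Y Y₁ Y₂ g₁ g₂ P
  · rw [rOf, dif_pos hs] at h
    rw [pushPt, dif_pos hs, Option.some_injective _ h]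
  · rw [rOf, dif_neg hs] at h
    exact absurd h (by simp)

theorem pushPt_eq_of_rOf_eq_none {P : Place L F}
    (h : rOf D Y Y₁ Y₂ g₁ g₂ P = none) : pushPt D Y Y₁ Y₂ g₁ g₂ P = 0 := by
  rw [pushPt, dif_neg (rOf_eq_none_iff.1 h)]

/-- bridge to helper3's push-forward, first component -/
theorem push_fst_eq_pushO (E : Divisor L F) :
    (push D Y Y₁ Y₂ g₁ g₂ E).1 = N.pushO (N.fst? (rOf D Y Y₁ Y₂ g₁ g₂)) E := by
  classical
  induction E using Finsupp.induction_linear with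
  | zero => rw [push_zero, map_zero]; rfl
  | add E E' h h' => rw [push_add, Prod.fst_add, h, h', map_add]
  | single P n =>
    rw [push_single, Prod.smul_fst]
    cases hr : rOf D Y Y₁ Y₂ g₁ g₂ P with
    | none =>
      rw [pushPt_eq_of_rOf_eq_none hr, N.pushO_single_of_none]
      · exact smul_zero _
      · unfold N.fst?; rw [hr]; rfl
    | some q =>
      rw [pushPt_eq_of_rOf_eq_some hr]
      rcases q with Q | Q
      · rw [N.pushO_single_of_eq (Q := Q)]
        · show n • Finsupp.single Q (1 : ℤ) = Finsupp.single Q n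
          rw [Finsupp.smul_single, smul_eq_mul, mul_one]
        · exact N.fst?_eq_some.2 hr
      · rw [N.pushO_single_of_none]
        · exact smul_zero _
        · unfold N.fst?; rw [hr]; rfl

/-- bridge to helper3's push-forward, second component -/
theorem push_snd_eq_pushO (E : Divisor L F) :
    (push D Y Y₁ Y₂ g₁ g₂ E).2 = N.pushO (N.snd? (rOf D Y Y₁ Y₂ g₁ g₂)) E := by
  classical
  induction E using Finsupp.induction_linear with
  | zero => rw [push_zero, map_zero]; rfl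
  | add E E' h h' => rw [push_add, Prod.snd_add, h, h', map_add]
  | single P n =>
    rw [push_single, Prod.smul_snd]
    cases hr : rOf D Y Y₁ Y₂ g₁ g₂ P with
    | none =>
      rw [pushPt_eq_of_rOf_eq_none hr, N.pushO_single_of_none]
      · exact smul_zero _
      · unfold N.snd?; rw [hr]; rfl
    | some q =>
      rw [pushPt_eq_of_rOf_eq_some hr]
      rcases q with Q | Q
      · rw [N.pushO_single_of_none]
        · exact smul_zero _
        · unfold N.snd?; rw [hr]; rfl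
      · rw [N.pushO_single_of_eq (Q := Q)]
        · show n • Finsupp.single Q (1 : ℤ) = Finsupp.single Q n
          rw [Finsupp.smul_single, smul_eq_mul, mul_one]
        · exact N.snd?_eq_some.2 hr

/-- **the global reduction datum of the nodal model** produced by `NRed` -/
def toNRedDatum (C : NCtx D Y Y₁ Y₂ g g₁ g₂) [Infinite k] [HasPrincipalDivisors L F] :
    N.NRedDatum A F F₁ F₂ where
  nod := D
  r := rOf D Y Y₁ Y₂ g₁ g₂
  r_ne_x₁ := fun P Q h c => ((rOf_eq_some_iff C).1 h).1 c |>.symm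
  r_ne_x₂ := fun P Q h c => ((rOf_eq_some_iff C).1 h).1 c |>.symm
  r_surj₁ := fun Q hQ => by
    obtain ⟨P, hP⟩ := exists_redTo₁ C (Q := Q) fun c => (hQ c).symm
    exact ⟨P, (rOf_eq_some_iff C).2 hP⟩
  r_surj₂ := fun Q hQ => by
    obtain ⟨P, hP⟩ := exists_redTo₂ C (Q := Q) fun c => (hQ c).symm
    exact ⟨P, (rOf_eq_some_iff C).2 hP⟩
  deg_r₁ := fun P Q _ => by rw [C.curve₁.deg_eq_one, C.curve.deg_eq_one]
  deg_r₂ := fun P Q _ => by rw [C.curve₂.deg_eq_one, C.curve.deg_eq_one]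
  cons₁ := fun y hy P₀ Q h => by
    rw [← push_fst_eq_pushO]
    exact lc₁ C hy ((rOf_eq_some_iff C).1 h).1
  cons₂ := fun y hy P₀ Q h => by
    rw [← push_snd_eq_pushO]
    exact lc₂ C hy ((rOf_eq_some_iff C).1 h).1
  red_mem := fun E hE f hf h1 h2 => by
    rw [← push_fst_eq_pushO, ← push_snd_eq_pushO]
    exact redF_mem_NS_push C E
      (fun P hP => by
        by_contra hs
        exact hE P hP (rOf_eq_none_iff.2 hs))
      (NodalDatum.mem_O.2 ⟨h1, h2⟩) hf

@[simp] theorem toNRedDatum_nod (C : NCtx D Y Y₁ Y₂ g g₁ g₂) [Infinite k]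
    [HasPrincipalDivisors L F] : (toNRedDatum C).nod = D := rfl

@[simp] theorem toNRedDatum_r (C : NCtx D Y Y₁ Y₂ g g₁ g₂) [Infinite k]
    [HasPrincipalDivisors L F] : (toNRedDatum C).r = rOf D Y Y₁ Y₂ g₁ g₂ := rfl

end Fermat.Agent.S33lib.NRed
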