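/-
S33lib / NRed / Inst  (helper6)

The instance: an `LSb.NodalCtx D g g₁ g₂` (function-level nodal context of LSb: (N1), (CHART), (GLUE),
(COUNT)) gives the context `NCtx` of `S33lib/NRed` for the frame `Y = P₁ + P₂ = D.chartDiv 1 1`,
`Y₁ = D.chartDiv₁ 1 1`, `Y₂ = D.chartDiv₂ 1 1`.

The inequalities (COUNT), `deg Q₁₁ + deg Q₁₂ ≤ deg P₁`, `deg Q₂₁ + deg Q₂₂ ≤ deg P₂` are squeezed to
EQUALITIES by comparing `redSub L(chartDiv a b) ⊆ NS(chartDiv₁ a b, chartDiv₂ a b)` at one stable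
pair `(a, b)`, `a, b ≥ 1`.
-/
import Fermat.Agent.S33lib.NRed.Good
import Fermat.Agent.LSb.Core.Structure

set_option autoImplicit false

noncomputable section

namespace Fermat.Agent.S33lib.NRed

open AlgebraicCurve Module
open Fermat.Agent.S18lib Fermat.Agent.LSb Fermat.Agent.LSb.Core Fermat.Agent.S37lib

variable {L : Type*} [Field L] {A : ValuationSubring L}
variable {F : Type*} [Field F] [Algebra L F]
variable {F₁ F₂ : Type*} [Field F₁] [Field F₂]
variable [Algebra (IsLocalRing.ResidueField A) F₁] [Algebra (IsLocalRing.ResidueField A) F₂]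

local notation "k" => IsLocalRing.ResidueField A

variable {D : NodalDatum A F F₁ F₂} {g g₁ g₂ : ℕ}

/-- (CHART) + (GLUE): the reduction of a chart lattice lies in the nodal space -/
theorem redSub_chartDiv_le (C : NodalCtx D g g₁ g₂) (a b : ℕ) :
    D.redSub (riemannRochSpace (D.chartDiv a b)) ≤
      NS D.x₁ D.x₂ (D.chartDiv₁ a b) (D.chartDiv₂ a b) := by
  rintro _ ⟨f, hfW, hfO, rfl⟩
  have hO := NodalDatum.mem_O.1 hfO
  refine ⟨C.chart₁ a b f hfW hO.1 hO.2, C.chart₂ a b f hfW hO.1 hO.2, fun c => ?_⟩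
  obtain ⟨α, h1, h2⟩ := C.glue a b f hfW hO.1 hO.2 c
  exact ⟨α, h1, by rw [one_mul]; exact h2⟩

/-- the dimension count at a stable pair -/
theorem chart_count (C : NodalCtx D g g₁ g₂) {a b : ℕ} (hst : D.Stable g₁ g₂ a b) :
    (a : ℤ) * Divisor.degree D.P₁ + b * Divisor.degree D.P₂ + 1 - g ≤
      (a : ℤ) * (Divisor.degree D.Q₁₁ + Divisor.degree D.Q₁₂) +
        b * (Divisor.degree D.Q₂₁ + Divisor.degree D.Q₂₂) + 2 - g₁ - g₂ - D.s := by
  have hs0 : (0 : ℤ) ≤ D.s := Int.natCast_nonneg _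
  have := C.hF.finiteDimensional (D.chartDiv a b)
  have hfd := finiteDimensional_nodalSpace (x₁ := D.x₁) (x₂ := D.x₂) C.hF₁ C.hF₂ (fun _ => 1)
    (D.chartDiv₁ a b) (D.chartDiv₂ a b)
  have h1 := C.hF.riemann_le (D.chartDiv a b)
  rw [D.degree_chartDiv] at h1
  have h2 := Submodule.finrank_mono (redSub_chartDiv_le C a b)
  rw [NodalDatum.finrank_redSub C.hD] at h2
  have h3 := finrank_NS C.hF₁ C.hF₂ C.x₂_injective (D.chartDiv₁ a b) (D.chartDiv₂ a b)
    (C.chartDiv₁_x₁ a b) (C.chartDiv₂_x₂ a b) (by have := hst.1; linarith) hst.2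
  rw [D.degree_chartDiv₁, D.degree_chartDiv₂] at h3
  have h2' : (finrank L (riemannRochSpace (D.chartDiv a b)) : ℤ) ≤
      finrank k (NS D.x₁ D.x₂ (D.chartDiv₁ a b) (D.chartDiv₂ a b)) := by exact_mod_cast h2
  rw [h3] at h2'
  linarith

/-- one stable pair with positive entries -/
theorem exists_stable_pos (C : NodalCtx D g g₁ g₂) :
    ∃ N : ℕ, 1 ≤ N ∧ D.Stable g₁ g₂ N N := by
  refine ⟨2 * g₁ + 2 * g₂ + D.s + 1, by omega, C.stable_of_le_fst ?_ (Int.natCast_nonneg _)⟩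
  push_cast
  linarith

/-- equality in `deg Q₁₁ + deg Q₁₂ ≤ deg P₁`, `deg Q₂₁ + deg Q₂₂ ≤ deg P₂` and in (COUNT) -/
theorem chart_equalities (C : NodalCtx D g g₁ g₂) :
    Divisor.degree D.Q₁₁ + Divisor.degree D.Q₁₂ = Divisor.degree D.P₁ ∧
    Divisor.degree D.Q₂₁ + Divisor.degree D.Q₂₂ = Divisor.degree D.P₂ ∧
    (g : ℤ) + 1 = g₁ + g₂ + D.s := by
  obtain ⟨N, hN1, hst⟩ := exists_stable_pos C
  have h := chart_count C hst
  have hN : (1 : ℤ) ≤ N := by exact_mod_cast hN1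
  have d1 := C.deg_Q₁_le
  have d2 := C.deg_Q₂_le
  have hc : ((g : ℤ) + 1) ≤ g₁ + g₂ + D.s := by exact_mod_cast C.count
  have e1 : (0 : ℤ) ≤ N * (Divisor.degree D.P₁ - (Divisor.degree D.Q₁₁ + Divisor.degree D.Q₁₂)) :=
    mul_nonneg (by linarith) (by linarith)
  have e2 : (0 : ℤ) ≤ N * (Divisor.degree D.P₂ - (Divisor.degree D.Q₂₁ + Divisor.degree D.Q₂₂)) :=
    mul_nonneg (by linarith) (by linarith)
  have k1 : (N : ℤ) * (Divisor.degree D.P₁ - (Divisor.degree D.Q₁₁ + Divisor.degree D.Q₁₂)) = 0 := by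
    nlinarith
  have k2 : (N : ℤ) * (Divisor.degree D.P₂ - (Divisor.degree D.Q₂₁ + Divisor.degree D.Q₂₂)) = 0 := by
    nlinarith
  have hN0 : (N : ℤ) ≠ 0 := by linarith
  have k1' := (mul_eq_zero.1 k1).resolve_left hN0
  have k2' := (mul_eq_zero.1 k2).resolve_left hN0
  refine ⟨by linarith, by linarith, ?_⟩
  nlinarith

/-- surjectivity of the reduction of a stable chart lattice onto the nodal space -/
theorem redSub_chartDiv_eq (C : NodalCtx D g g₁ g₂) {a b : ℕ} (hst : D.Stable g₁ g₂ a b) :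
    D.redSub (riemannRochSpace (D.chartDiv a b)) =
      NS D.x₁ D.x₂ (D.chartDiv₁ a b) (D.chartDiv₂ a b) := by
  obtain ⟨e1, e2, e3⟩ := chart_equalities C
  have hs0 : (0 : ℤ) ≤ D.s := Int.natCast_nonneg _
  have := C.hF.finiteDimensional (D.chartDiv a b)
  have hfd := finiteDimensional_nodalSpace (x₁ := D.x₁) (x₂ := D.x₂) C.hF₁ C.hF₂ (fun _ => 1)
    (D.chartDiv₁ a b) (D.chartDiv₂ a b)
  apply Submodule.eq_of_le_of_finrank_le (redSub_chartDiv_le C a b)
  rw [NodalDatum.finrank_redSub C.hD]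
  have h1 := C.hF.riemann_le (D.chartDiv a b)
  rw [D.degree_chartDiv] at h1
  have h3 := finrank_NS C.hF₁ C.hF₂ C.x₂_injective (D.chartDiv₁ a b) (D.chartDiv₂ a b)
    (C.chartDiv₁_x₁ a b) (C.chartDiv₂_x₂ a b) (by have := hst.1; linarith) hst.2
  rw [D.degree_chartDiv₁, D.degree_chartDiv₂] at h3
  have : (finrank k (NS D.x₁ D.x₂ (D.chartDiv₁ a b) (D.chartDiv₂ a b)) : ℤ) ≤
      finrank L (riemannRochSpace (D.chartDiv a b)) := by
    rw [h3]
    have ha : (a : ℤ) * (Divisor.degree D.Q₁₁ + Divisor.degree D.Q₁₂) = a * Divisor.degree D.P₁ := by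
      rw [e1]
    have hb : (b : ℤ) * (Divisor.degree D.Q₂₁ + Divisor.degree D.Q₂₂) = b * Divisor.degree D.P₂ := by
      rw [e2]
    linarith
  exact_mod_cast this

/-- **the instance**: `LSb.NodalCtx` gives `NCtx` for the frame `P₁ + P₂` -/
theorem _root_.Fermat.Agent.LSb.NodalCtx.toNCtx (C : NodalCtx D g g₁ g₂) :
    NCtx D (D.chartDiv 1 1) (D.chartDiv₁ 1 1) (D.chartDiv₂ 1 1) g g₁ g₂ := by
  obtain ⟨e1, e2, e3⟩ := chart_equalities C
  have hY : ∀ m : ℕ, (m : ℤ) • D.chartDiv 1 1 = D.chartDiv m m := fun m => by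
    rw [D.zsmul_chartDiv, mul_one]
  have hY₁ : ∀ m : ℕ, (m : ℤ) • D.chartDiv₁ 1 1 = D.chartDiv₁ m m := fun m => by
    rw [D.zsmul_chartDiv₁, mul_one]
  have hY₂ : ∀ m : ℕ, (m : ℤ) • D.chartDiv₂ 1 1 = D.chartDiv₂ m m := fun m => by
    rw [D.zsmul_chartDiv₂, mul_one]
  refine
    { orth := C.hD
      curve := C.hF
      curve₁ := C.hF₁
      curve₂ := C.hF₂
      genus_eq := by exact_mod_cast e3
      x₁_inj := C.x₁_injective
      x₂_inj := C.x₂_injective
      Y₁_x₁ := C.chartDiv₁_x₁ 1 1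
      Y₂_x₂ := C.chartDiv₂_x₂ 1 1
      deg_eq := by
        rw [D.degree_chartDiv₁, D.degree_chartDiv₂, D.degree_chartDiv]
        linarith
      deg_pos₁ := by
        rw [D.degree_chartDiv₁]
        have := C.deg_Q₁₁_pos
        have := C.deg_Q₂₁_pos
        linarith
      deg_pos₂ := by
        rw [D.degree_chartDiv₂]
        have := C.deg_Q₁₂_pos
        have := C.deg_Q₂₂_pos
        linarith
      Y_nonneg := by
        rw [NodalDatum.chartDiv, one_smul, one_smul]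
        exact add_nonneg C.P₁_nonneg C.P₂_nonneg
      rankOne := C.rankOne
      red_mem := fun m f hfO hfW => by
        rw [hY₁, hY₂]
        rw [hY] at hfW
        exact redSub_chartDiv_le C m m ⟨f, hfW, hfO, rfl⟩
      lift := fun m h₁ h₂ φ hφ => by
        rw [hY₁, hY₂] at hφ
        have hst : D.Stable g₁ g₂ m m := by
          refine ⟨?_, ?_⟩
          · rw [← hY₁, map_zsmul, smul_eq_mul]; exact h₁
          · rw [← hY₂, map_zsmul, smul_eq_mul]; exact h₂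
        rw [← redSub_chartDiv_eq C hst] at hφ
        obtain ⟨f, hfW, hfO, rfl⟩ := hφ
        exact ⟨f, hfO, by rw [hY]; exact hfW, rfl⟩ }

end Fermat.Agent.S33lib.NRed
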