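/-
S33lib / NRed / Equivar  (helper6)

**Inertia invariance of the place map** of `S33lib/NRed`.

A semilinear automorphism `σ` of `F / L` which is inertial for the nodal datum (`D.IsInertial σ`:
it preserves both valuation rings and acts trivially on both reductions) and fixes the frame divisor
`Y` does not change the reduction of places:

* `redSub_smul_rr`     : `redSub L(σ • E) = redSub L(E)`;
* `redTo_smul_iff`     : `RedTo (σ • P) q ↔ RedTo P q`;
* `rOf_smul`           : `rOf (σ • P) = rOf P`;
* `toNRedDatum_r_smul` : the same for the datum `toNRedDatum C.toNCtx` of an `LSb.NodalCtx`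
                         (`Y = D.chartDiv 1 1` is fixed by every inertial `σ`).
-/
import Fermat.Agent.S33lib.NRed.Export
import Fermat.Agent.S33lib.NRed.Inst
import Fermat.Agent.S37lib.B3.Equivariant
import Fermat.Agent.LSb.Core.Kummer2

set_option autoImplicit false

noncomputable section

namespace Fermat.Agent.S33lib.NRed

open AlgebraicCurve Module
open Fermat.Agent.S18lib Fermat.Agent.LSb Fermat.Agent.LSb.Core Fermat.Agent.S37lib

variable {L : Type*} [Field L] {A : ValuationSubring L}
variable {F : Type*} [Field F] [Algebra L F]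
variable {F₁ F₂ : Type*} [Field F₁] [Field F₂]
variable [Algebra (IsLocalRing.ResidueField A) F₁] [Algebra (IsLocalRing.ResidueField A) F₂]

local notation "k" => IsLocalRing.ResidueField A

variable {D : NodalDatum A F F₁ F₂} {Y : Divisor L F}
  {Y₁ : Divisor (IsLocalRing.ResidueField A) F₁} {Y₂ : Divisor (IsLocalRing.ResidueField A) F₂}
  {g g₁ g₂ : ℕ}

/-- an inertial automorphism does not change the total reduction -/
theorem redF_smul_of_isInertial {σ : SemilinearAut L F} (hσ : D.IsInertial σ) {f : F}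
    (hf : f ∈ D.O) : D.redF (σ • f) = D.redF f := by
  have hO := NodalDatum.mem_O.1 hf
  show (D.V₁.redF (σ • f), D.V₂.redF (σ • f)) = (D.V₁.redF f, D.V₂.redF f)
  rw [hσ.red₁ f hO.1, hσ.red₂ f hO.2]

/-- an inertial automorphism does not change the reduction of a Riemann–Roch lattice -/
theorem redSub_smul_rr {σ : SemilinearAut L F} (hσ : D.IsInertial σ) (E : Divisor L F) :
    D.redSub (riemannRochSpace (σ • E)) = D.redSub (riemannRochSpace E) := by
  apply le_antisymm
  · rintro _ ⟨h, hW, hO, rfl⟩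
    have h1 : σ⁻¹ • h ∈ riemannRochSpace E := by
      have := B3.smul_mem_riemannRochSpace σ⁻¹ hW
      rwa [inv_smul_smul] at this
    have h2 : σ⁻¹ • h ∈ D.O := by
      rw [← hσ.mem_O_iff, smul_inv_smul]
      exact hO
    refine ⟨σ⁻¹ • h, h1, h2, ?_⟩
    have := redF_smul_of_isInertial hσ h2
    rw [smul_inv_smul] at this
    exact this.symm
  · rintro _ ⟨h, hW, hO, rfl⟩
    exact ⟨σ • h, B3.smul_mem_riemannRochSpace σ hW, (hσ.mem_O_iff h).2 hO,
      redF_smul_of_isInertial hσ hO⟩

/-- the family `n ↦ redSub L(nY - P)` is the same for `P` and `σ • P` -/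
theorem redSub_frame_smul {σ : SemilinearAut L F} (hσ : D.IsInertial σ) (hY : σ • Y = Y)
    (P : Place L F) (n : ℕ) :
    D.redSub (riemannRochSpace ((n : ℤ) • Y - Finsupp.single (σ • P) 1)) =
      D.redSub (riemannRochSpace ((n : ℤ) • Y - Finsupp.single P 1)) := by
  have h : σ • ((n : ℤ) • Y - Finsupp.single P 1) =
      (n : ℤ) • Y - Finsupp.single (σ • P) 1 := by
    rw [smul_sub, B3.smul_zsmul_divisor, hY, SemilinearAut.smul_single]
  rw [← h]
  exact redSub_smul_rr hσ _

theorem redTo_smul_iff (C : NCtx D Y Y₁ Y₂ g g₁ g₂) {σ : SemilinearAut L F}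
    (hσ : D.IsInertial σ) (hY : σ • Y = Y) (P : Place L F) (q : Place k F₁ ⊕ Place k F₂) :
    RedTo D Y Y₁ Y₂ g₁ g₂ (σ • P) q ↔ RedTo D Y Y₁ Y₂ g₁ g₂ P q :=
  redTo_congr C (fun n => redSub_frame_smul hσ hY P n) q

/-- **the place map is invariant under inertial automorphisms fixing the frame** -/
theorem rOf_smul (C : NCtx D Y Y₁ Y₂ g g₁ g₂) {σ : SemilinearAut L F}
    (hσ : D.IsInertial σ) (hY : σ • Y = Y) (P : Place L F) :
    rOf D Y Y₁ Y₂ g₁ g₂ (σ • P) = rOf D Y Y₁ Y₂ g₁ g₂ P := by
  cases h : rOf D Y Y₁ Y₂ g₁ g₂ P with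
  | none =>
    rw [rOf_eq_none_iff] at h ⊢
    rintro ⟨q, hq⟩
    exact h ⟨q, (redTo_smul_iff C hσ hY P q).1 hq⟩
  | some q =>
    rw [rOf_eq_some_iff C] at h ⊢
    exact (redTo_smul_iff C hσ hY P q).2 h

/-- the instance form: the place map of the nodal reduction datum of an `LSb.NodalCtx` is
invariant under every inertial automorphism -/
theorem toNRedDatum_r_smul [Infinite k] [HasPrincipalDivisors L F] (C : NodalCtx D g g₁ g₂)
    {σ : SemilinearAut L F} (hσ : D.IsInertial σ) (P : Place L F) :
    (toNRedDatum C.toNCtx).r (σ • P) = (toNRedDatum C.toNCtx).r P :=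
  rOf_smul C.toNCtx hσ (hσ.smul_chartDiv 1 1) P

end Fermat.Agent.S33lib.NRed

end
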