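/-
S33lib / NRed / FrameOf  (helper6)

The **frame** `N.NFrame S` of helper3's interface for the nodal reduction datum produced by
`S33lib/NRed`: the frame divisor `Y` itself (for an `LSb.NodalCtx`: `Y = D.chartDiv 1 1 = P₁ + P₂`).

* `nFrameOfCtx`  : for a general `NCtx D Y Y₁ Y₂ g g₁ g₂` and symmetries fixing `Y`;
* `nFrameOf`     : for `toNRedDatum C.toNCtx`, `C : LSb.NodalCtx D g g₁ g₂`, and symmetries which are
                   inertial for `D`.
-/
import Fermat.Agent.S33lib.NRed.Equivar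
import Fermat.Agent.S33lib.N.Family

set_option autoImplicit false

noncomputable section

namespace Fermat.Agent.S33lib.NRed

open AlgebraicCurve Module
open Fermat.Agent.S18lib Fermat.Agent.LSb Fermat.Agent.LSb.Core Fermat.Agent.S37lib

variable {L : Type*} [Field L] {A : ValuationSubring L}
variable {F : Type*} [Field F] [Algebra L F]
variable {F₁ F₂ : Type*} [Field F₁] [Field F₂]
variable [Algebra (IsLocalRing.ResidueField A) F₁] [Algebra (IsLocalRing.ResidueField A) F₂]

local notation "k" => IsLocalRing.ResidueField A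

variable {D : NodalDatum A F F₁ F₂} {Y : Divisor L F}
  {Y₁ : Divisor (IsLocalRing.ResidueField A) F₁} {Y₂ : Divisor (IsLocalRing.ResidueField A) F₂}
  {g g₁ g₂ : ℕ}

variable [Infinite (IsLocalRing.ResidueField A)] [HasPrincipalDivisors L F]

/-- the frame divisor is supported on the smooth locus -/
theorem smoothSupp_Y (C : NCtx D Y Y₁ Y₂ g g₁ g₂) : (toNRedDatum C).SmoothSupp Y := by
  intro P hP h
  rw [toNRedDatum_r, rOf_eq_none_iff] at h
  exact h (smoothRed_of_Y_ne_zero C hP)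

/-- the push-forward of the frame divisor, first component -/
theorem push₁_Y (C : NCtx D Y Y₁ Y₂ g g₁ g₂) : (toNRedDatum C).push₁ Y = Y₁ := by
  show N.pushO (N.fst? (toNRedDatum C).r) Y = Y₁
  rw [toNRedDatum_r, ← push_fst_eq_pushO, push_Y C]

/-- the push-forward of the frame divisor, second component -/
theorem push₂_Y (C : NCtx D Y Y₁ Y₂ g g₁ g₂) : (toNRedDatum C).push₂ Y = Y₂ := by
  show N.pushO (N.snd? (toNRedDatum C).r) Y = Y₂
  rw [toNRedDatum_r, ← push_snd_eq_pushO, push_Y C]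

variable {G : Type*} [Group G]

/-- **the frame of the nodal reduction datum**: the frame divisor `Y` -/
def nFrameOfCtx (C : NCtx D Y Y₁ Y₂ g g₁ g₂) (S : N.NSym (toNRedDatum C) G)
    (hY : ∀ h : G, S.ρ h • Y = Y) : N.NFrame S where
  Y := Y
  nonneg := C.Y_nonneg
  smooth := smoothSupp_Y C
  deg_pos₁ := by
    rw [N.NRedDatum.fst_push, push₁_Y C]
    exact C.deg_pos₁
  deg_pos₂ := by
    rw [N.NRedDatum.snd_push, push₂_Y C]
    exact C.deg_pos₂
  fixD := hY

@[simp] theorem nFrameOfCtx_Y (C : NCtx D Y Y₁ Y₂ g g₁ g₂) (S : N.NSym (toNRedDatum C) G)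
    (hY : ∀ h : G, S.ρ h • Y = Y) : (nFrameOfCtx C S hY).Y = Y := rfl

/-- **the frame `P₁ + P₂`** of the nodal reduction datum of an `LSb.NodalCtx`, for symmetries which
are inertial for the nodal datum -/
def nFrameOf (C : NodalCtx D g g₁ g₂) (S : N.NSym (toNRedDatum C.toNCtx) G)
    (hS : ∀ h : G, D.IsInertial (S.ρ h)) : N.NFrame S :=
  nFrameOfCtx C.toNCtx S fun h => (hS h).smul_chartDiv 1 1

@[simp] theorem nFrameOf_Y (C : NodalCtx D g g₁ g₂) (S : N.NSym (toNRedDatum C.toNCtx) G)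
    (hS : ∀ h : G, D.IsInertial (S.ρ h)) : (nFrameOf C S hS).Y = D.chartDiv 1 1 := rfl

/-- the same frame, from the invariance of the two chart divisors only -/
def nFrameOfFix (C : NodalCtx D g g₁ g₂) (S : N.NSym (toNRedDatum C.toNCtx) G)
    (hfix : ∀ h : G, S.ρ h • D.P₁ = D.P₁ ∧ S.ρ h • D.P₂ = D.P₂) : N.NFrame S :=
  nFrameOfCtx C.toNCtx S fun h => by
    show S.ρ h • ((1 : ℤ) • D.P₁ + (1 : ℤ) • D.P₂) = (1 : ℤ) • D.P₁ + (1 : ℤ) • D.P₂
    rw [smul_add, B3.smul_zsmul_divisor, B3.smul_zsmul_divisor, (hfix h).1, (hfix h).2]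

@[simp] theorem nFrameOfFix_Y (C : NodalCtx D g g₁ g₂) (S : N.NSym (toNRedDatum C.toNCtx) G)
    (hfix : ∀ h : G, S.ρ h • D.P₁ = D.P₁ ∧ S.ρ h • D.P₂ = D.P₂) :
    (nFrameOfFix C S hfix).Y = D.chartDiv 1 1 := rfl

/-- **the symmetries** of the nodal reduction datum of an `LSb.NodalCtx` given by an inertia-type
action all of whose elements are inertial for the nodal datum -/
def nSymOfInertial (C : NodalCtx D g g₁ g₂) (I : N.IAct A F G)
    (hI : ∀ h : G, D.IsInertial (I.ρ h)) : N.NSym (toNRedDatum C.toNCtx) G where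
  toIAct := I
  mem_O₁ := fun h f hf => ((hI h).mem₁ f).2 hf
  mem_O₂ := fun h f hf => ((hI h).mem₂ f).2 hf
  redF₁_smul := fun h f hf => (hI h).red₁ f hf
  redF₂_smul := fun h f hf => (hI h).red₂ f hf
  r_smul := fun h P => toNRedDatum_r_smul C (hI h) P

@[simp] theorem nSymOfInertial_toIAct (C : NodalCtx D g g₁ g₂) (I : N.IAct A F G)
    (hI : ∀ h : G, D.IsInertial (I.ρ h)) : (nSymOfInertial C I hI).toIAct = I := rfl

/-- **the standing hypotheses of the lifting blocks** (`N.NLiftCtx`) for the nodal reduction datum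
of an `LSb.NodalCtx`: only the fixed lifts remain to be supplied -/
theorem nLiftCtx_of (C : NodalCtx D g g₁ g₂) (S : N.NSym (toNRedDatum C.toNCtx) G)
    (hS : ∀ h : G, D.IsInertial (S.ρ h)) (hlift : S.HasFixedLifts) :
    N.NLiftCtx (toNRedDatum C.toNCtx) S g g₁ g₂ where
  ctx := C
  infinite_k := inferInstance
  lifts := hlift
  frame := ⟨nFrameOf C S hS⟩

end Fermat.Agent.S33lib.NRed

end
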